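/-
Lib/FinFlat: "P-orders" — Hopf orders over a valuation subring `P` of `AlgebraicClosure ℚ`, with a
basis of functions which are equivariant for a subgroup `Γ` of the absolute Galois group.

* `Equivar Γ act f` : `f (act σ v) = σ (f v)` for `σ ∈ Γ`;
* `IsPOrder P Γ act B` : `B` is a `P`-subalgebra of `V → Qb` with integral values, stable under
  comultiplication, and equal to the `P`-span of a `Qb`-basis of `V → Qb` made of `Γ`-equivariant
  functions;
* `IsPOrder.addChar_mem` : every additive character `V → Qb` lies in `B` (Cartier duality: the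
  dual lattice is a finitely generated `P`-algebra, hence integral over `P`).
-/
import Mathlib
import Fermat.Prelude.Def_FLTPrelim_Ramification

set_option autoImplicit false
set_option linter.unusedSectionVars false

namespace Fermat.Agent.Lib.FinFlat

local notation "Qb" => AlgebraicClosure ℚ
local notation "GQ" => (AlgebraicClosure ℚ ≃ₐ[ℚ] AlgebraicClosure ℚ)

/-- `f` is equivariant for the elements of `Γ`. -/
def Equivar {V : Type} (Γ : Subgroup GQ) (act : GQ → V → V) (f : V → Qb) : Prop :=
  ∀ σ ∈ Γ, ∀ v, f (act σ v) = σ (f v)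

/-- A Hopf order over `P` on the abelian group `V`, with a `Γ`-equivariant basis. -/
structure IsPOrder (P : ValuationSubring Qb) (Γ : Subgroup GQ) {V : Type} [AddCommGroup V]
    (act : GQ → V → V) (B : Subalgebra P (V → Qb)) : Prop where
  integral : ∀ f ∈ B, ∀ v, f v ∈ P
  comul : ∀ f ∈ B, ∃ (n : ℕ) (g h : Fin n → V → Qb), (∀ i, g i ∈ B) ∧ (∀ i, h i ∈ B) ∧
      ∀ v w, f (v + w) = ∑ i, g i v * h i w
  exists_basis : ∃ (ι : Type) (_ : Fintype ι) (b : Module.Basis ι Qb (V → Qb)),
      (∀ i, Equivar Γ act (b i)) ∧ ∀ f, f ∈ B ↔ ∀ i, b.repr f i ∈ P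

variable {P : ValuationSubring Qb} {Γ : Subgroup GQ} {V : Type} [AddCommGroup V]
  {act : GQ → V → V} {B : Subalgebra P (V → Qb)}

theorem Equivar.mono {Γ Γ' : Subgroup GQ} (h : Γ' ≤ Γ) {f : V → Qb} (hf : Equivar Γ act f) :
    Equivar Γ' act f := fun σ hσ v => hf σ (h hσ) v

/-- Shrinking the group. -/
theorem IsPOrder.mono {Γ' : Subgroup GQ} (hB : IsPOrder P Γ act B) (h : Γ' ≤ Γ) :
    IsPOrder P Γ' act B := by
  obtain ⟨ι, hι, b, hb, hmem⟩ := hB.exists_basis
  exact ⟨hB.integral, hB.comul, ι, hι, b, fun i => (hb i).mono h, hmem⟩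

/-- The basis vectors lie in the order. -/
theorem mem_of_basis {ι : Type} [Fintype ι] (b : Module.Basis ι Qb (V → Qb))
    (hmem : ∀ f, f ∈ B ↔ ∀ i, b.repr f i ∈ P) (i : ι) : b i ∈ B := by
  classical
  rw [hmem]
  intro j
  rw [Module.Basis.repr_self, Finsupp.single_apply]
  split_ifs
  · exact P.one_mem
  · exact P.zero_mem

/-- The order is spanned over `P` by its equivariant elements. -/
theorem IsPOrder.exists_eq_sum (hB : IsPOrder P Γ act B) {f : V → Qb} (hf : f ∈ B) :
    ∃ (n : ℕ) (c : Fin n → P) (g : Fin n → V → Qb), (∀ i, g i ∈ B) ∧ (∀ i, Equivar Γ act (g i)) ∧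
      f = ∑ i, (c i : Qb) • g i := by
  classical
  obtain ⟨ι, hι, b, hb, hmem⟩ := hB.exists_basis
  let e := Fintype.equivFin ι
  refine ⟨Fintype.card ι, fun j => ⟨b.repr f (e.symm j), (hmem f).mp hf _⟩, fun j => b (e.symm j),
    fun j => mem_of_basis b hmem _, fun j => hb _, ?_⟩
  rw [Equiv.sum_comp e.symm (fun i => (b.repr f i : Qb) • b i)]
  exact (b.sum_repr f).symm

section dual

variable [Fintype V]

/-- The pairing between the group algebra and functions. -/
noncomputable def pair (a : AddMonoidAlgebra Qb V) (f : V → Qb) : Qb := ∑ v, a.coeff v * f v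

theorem pair_add (a a' : AddMonoidAlgebra Qb V) (f : V → Qb) :
    pair (a + a') f = pair a f + pair a' f := by
  simp only [pair, AddMonoidAlgebra.coeff_add, Finsupp.add_apply, add_mul,
    Finset.sum_add_distrib]

theorem pair_smul (c : Qb) (a : AddMonoidAlgebra Qb V) (f : V → Qb) :
    pair (c • a) f = c * pair a f := by
  simp only [pair, AddMonoidAlgebra.coeff_smul, Finsupp.smul_apply, smul_eq_mul, mul_assoc,
    Finset.mul_sum]

theorem pair_single [DecidableEq V] (v : V) (c : Qb) (f : V → Qb) :
    pair (AddMonoidAlgebra.single v c) f = c * f v := by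
  rw [pair, Finset.sum_eq_single v]
  · rw [AddMonoidAlgebra.coeff_single, Finsupp.single_apply, if_pos rfl]
  · intro w _ hw
    rw [AddMonoidAlgebra.coeff_single, Finsupp.single_apply, if_neg (Ne.symm hw), zero_mul]
  · intro h
    exact absurd (Finset.mem_univ v) h

theorem pair_add_right (a : AddMonoidAlgebra Qb V) (f g : V → Qb) :
    pair a (f + g) = pair a f + pair a g := by
  simp only [pair, Pi.add_apply, mul_add, Finset.sum_add_distrib]

theorem pair_smul_right (a : AddMonoidAlgebra Qb V) (c : Qb) (f : V → Qb) :
    pair a (c • f) = c * pair a f := by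
  simp only [pair, Pi.smul_apply, smul_eq_mul, Finset.mul_sum]
  exact Finset.sum_congr rfl fun v _ => by ring

theorem pair_sum_right {ι : Type} (s : Finset ι) (a : AddMonoidAlgebra Qb V) (f : ι → V → Qb) :
    pair a (∑ i ∈ s, f i) = ∑ i ∈ s, pair a (f i) := by
  classical
  induction s using Finset.induction_on with
  | empty => simp [pair]
  | insert i s hi ih => rw [Finset.sum_insert hi, Finset.sum_insert hi, pair_add_right, ih]

theorem pair_sum_left {ι : Type} (s : Finset ι) (x : ι → AddMonoidAlgebra Qb V) (f : V → Qb) :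
    pair (∑ i ∈ s, x i) f = ∑ i ∈ s, pair (x i) f := by
  classical
  induction s using Finset.induction_on with
  | empty => simp [pair]
  | insert i s hi ih => rw [Finset.sum_insert hi, Finset.sum_insert hi, pair_add, ih]

/-- Multiplicativity of the pairing against a function with a comultiplication formula. -/
theorem pair_mul (a a' : AddMonoidAlgebra Qb V) (f : V → Qb) {n : ℕ} (g h : Fin n → V → Qb)
    (hf : ∀ v w, f (v + w) = ∑ i, g i v * h i w) :
    pair (a * a') f = ∑ i, pair a (g i) * pair a' (h i) := by
  classical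
  induction a using AddMonoidAlgebra.induction_linear with
  | zero => simp [pair]
  | add x y hx hy =>
    rw [add_mul, pair_add, hx, hy, ← Finset.sum_add_distrib]
    exact Finset.sum_congr rfl fun i _ => by rw [pair_add]; ring
  | single v c =>
    induction a' using AddMonoidAlgebra.induction_linear with
    | zero => simp [pair]
    | add x y hx hy =>
      rw [mul_add, pair_add, hx, hy, ← Finset.sum_add_distrib]
      exact Finset.sum_congr rfl fun i _ => by rw [pair_add]; ring
    | single w c' =>
      rw [AddMonoidAlgebra.single_mul_single, pair_single, hf, Finset.mul_sum]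
      exact Finset.sum_congr rfl fun i _ => by rw [pair_single, pair_single]; ring

/-- Evaluation at an additive character, as an algebra homomorphism of the group algebra. -/
noncomputable def charHom (ψ : V → Qb) (h0 : ψ 0 = 1) (hadd : ∀ v w, ψ (v + w) = ψ v * ψ w) :
    AddMonoidAlgebra Qb V →ₐ[Qb] Qb :=
  AddMonoidAlgebra.lift Qb Qb V
    { toFun := fun v => ψ v.toAdd
      map_one' := h0
      map_mul' := fun _ _ => hadd _ _ }

theorem charHom_apply (ψ : V → Qb) (h0 : ψ 0 = 1) (hadd : ∀ v w, ψ (v + w) = ψ v * ψ w)
    (a : AddMonoidAlgebra Qb V) : charHom ψ h0 hadd a = pair a ψ := by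
  classical
  induction a using AddMonoidAlgebra.induction_linear with
  | zero => simp [pair]
  | add x y hx hy => rw [map_add, hx, hy, pair_add]
  | single v c =>
    rw [pair_single, charHom, AddMonoidAlgebra.lift_single]
    simp

end dual

/-- **Cartier duality, integrality of points of the dual.** Every additive character of `V`
lies in the order. -/
theorem IsPOrder.addChar_mem [Finite V] (hB : IsPOrder P Γ act B) (ψ : V → Qb) (h0 : ψ 0 = 1)
    (hadd : ∀ v w, ψ (v + w) = ψ v * ψ w) : ψ ∈ B := by
  classical
  cases nonempty_fintype V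
  obtain ⟨ι, hι, b, hb, hmem⟩ := hB.exists_basis
  -- the dual basis in the group algebra
  let a : ι → AddMonoidAlgebra Qb V := fun i =>
    ∑ v, AddMonoidAlgebra.single v (b.coord i (Pi.single v 1))
  have hfun : ∀ f : V → Qb, f = ∑ v, f v • (Pi.single v (1 : Qb) : V → Qb) := by
    intro f
    funext w
    rw [Finset.sum_apply, Finset.sum_eq_single w]
    · simp
    · intro v _ hv
      simp [Pi.single_apply, Ne.symm hv]
    · intro h
      exact absurd (Finset.mem_univ w) h
  have ha : ∀ i f, pair (a i) f = b.coord i f := by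
    intro i f
    rw [pair_sum_left]
    conv_rhs => rw [hfun f, map_sum]
    refine Finset.sum_congr rfl fun v _ => ?_
    rw [pair_single, map_smul, smul_eq_mul, mul_comm]
  -- the dual order
  let A : Subalgebra P (AddMonoidAlgebra Qb V) :=
    { carrier := {x | ∀ f ∈ B, pair x f ∈ P}
      mul_mem' := by
        intro x y hx hy f hf
        obtain ⟨n, g, h, hg, hh, hfgh⟩ := hB.comul f hf
        rw [pair_mul x y f g h hfgh]
        exact P.toSubring.sum_mem fun i _ => P.mul_mem _ _ (hx _ (hg i)) (hy _ (hh i))
      one_mem' := by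
        intro f hf
        rw [AddMonoidAlgebra.one_def, pair_single, one_mul]
        exact hB.integral f hf 0
      add_mem' := by
        intro x y hx hy f hf
        rw [pair_add]
        exact P.add_mem _ _ (hx f hf) (hy f hf)
      zero_mem' := by
        intro f _
        simp only [pair, AddMonoidAlgebra.coeff_zero, Finsupp.coe_zero, Pi.zero_apply, zero_mul,
          Finset.sum_const_zero]
        exact P.zero_mem
      algebraMap_mem' := by
        intro c f hf
        rw [Algebra.algebraMap_eq_smul_one, AddMonoidAlgebra.one_def]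
        have : (c • (AddMonoidAlgebra.single (0 : V) (1 : Qb)) : AddMonoidAlgebra Qb V) =
            AddMonoidAlgebra.single (0 : V) (c : Qb) := by
          rw [AddMonoidAlgebra.smul_single]
          congr 1
          rw [Algebra.smul_def, mul_one]
          rfl
        rw [this, pair_single]
        exact P.mul_mem _ _ c.2 (hB.integral f hf 0) }
  have hAmem : ∀ x, x ∈ A ↔ ∀ f ∈ B, pair x f ∈ P := fun x => Iff.rfl
  have haA : ∀ i, a i ∈ A := by
    intro i f hf
    rw [ha]
    exact (hmem f).mp hf i
  have hext : ∀ x y : AddMonoidAlgebra Qb V, (∀ f, pair x f = pair y f) → x = y := by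
    intro x y h
    refine AddMonoidAlgebra.coeff_injective (Finsupp.ext fun v => ?_)
    have := h (Pi.single v 1)
    simp only [pair, Pi.single_apply, mul_ite, mul_one, mul_zero, Finset.sum_ite_eq',
      Finset.mem_univ, if_true] at this
    exact this
  have hfg : A.toSubmodule.FG := by
    refine ⟨Finset.univ.image a, le_antisymm ?_ ?_⟩
    · rw [Submodule.span_le]
      intro x hx
      obtain ⟨i, -, rfl⟩ := Finset.mem_image.mp hx
      exact haA i
    · intro x hx
      have hx' : x = ∑ i, (⟨pair x (b i), hx _ (mem_of_basis b hmem i)⟩ : P) • a i := by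
        apply hext
        intro f
        rw [pair_sum_left]
        conv_lhs => rw [← b.sum_repr f, pair_sum_right]
        refine Finset.sum_congr rfl fun i _ => ?_
        have h1 : ((⟨pair x (b i), hx _ (mem_of_basis b hmem i)⟩ : P) • a i :
            AddMonoidAlgebra Qb V) = (pair x (b i)) • a i := rfl
        rw [h1, pair_smul, ha, pair_smul_right, Module.Basis.coord_apply]
        ring
      rw [hx']
      refine Submodule.sum_mem _ fun i _ => Submodule.smul_mem _ _ (Submodule.subset_span ?_)
      exact Finset.mem_coe.mpr (Finset.mem_image.mpr ⟨i, Finset.mem_univ i, rfl⟩)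
  rw [hmem]
  intro i
  have hint : IsIntegral P (a i) := IsIntegral.of_mem_of_fg A hfg (a i) (haA i)
  have hint' : IsIntegral P (charHom ψ h0 hadd (a i)) :=
    hint.map ((charHom ψ h0 hadd).restrictScalars P)
  rw [charHom_apply, ha, Module.Basis.coord_apply] at hint'
  obtain ⟨y, hy⟩ := IsIntegrallyClosed.isIntegral_iff.mp hint'
  rw [← hy]
  exact y.2

end Fermat.Agent.Lib.FinFlat
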