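/-
Lib/FinFlat: the connected component of a `P`-order (`IsPOrder`), "(CE)".

`P` a valuation subring of `ℚ̄`, `𝔪 = P.nonunits`, `B` a `P`-order on the finite abelian group `V`.

* `ResEq P B v w` : `f v - f w ∈ 𝔪` for all `f ∈ B` (the points `v`, `w` have the same reduction);
  an equivalence relation, compatible with addition (`IsPOrder.resEq_add`), with the Galois
  action (`IsPOrder.resEq_act`), trivial along inertia (`IsPOrder.resEq_act_self`);
* `IsPOrder.conn` : the subgroup `V⁰` of points congruent to `0`; `sub_mem_conn_iff`;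
* `IsPOrder.translate_mem` : `B` is stable under translations;
* `IsPOrder.indicator_conn_mem`, `IsPOrder.indicator_coset_mem` : the indicator functions of
  `V⁰` and of its cosets lie in `B` (the connected-étale sequence splits off an idempotent).
-/
import Fermat.Agent.Lib.FinFlat.POrder

set_option autoImplicit false
set_option linter.unusedSectionVars false

namespace Fermat.Agent.Lib.FinFlat

local notation "Qb" => AlgebraicClosure ℚ
local notation "GQ" => (AlgebraicClosure ℚ ≃ₐ[ℚ] AlgebraicClosure ℚ)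

variable {P : ValuationSubring Qb} {Γ : Subgroup GQ} {V : Type} [AddCommGroup V]
  {act : GQ → V → V} {B : Subalgebra P (V → Qb)}

/-! ### The maximal ideal of `P` as a subset of `ℚ̄` -/

theorem nonunits_zero_mem (P : ValuationSubring Qb) : (0 : Qb) ∈ P.nonunits := by
  rw [P.mem_nonunits_iff, map_zero]
  exact zero_lt_one

theorem nonunits_add_mem {x y : Qb} (hx : x ∈ P.nonunits) (hy : y ∈ P.nonunits) :
    x + y ∈ P.nonunits := by
  rw [P.mem_nonunits_iff] at *
  exact P.valuation.map_add_lt hx hy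

theorem nonunits_neg_mem {x : Qb} (hx : x ∈ P.nonunits) : -x ∈ P.nonunits := by
  rw [P.mem_nonunits_iff] at *
  rwa [Valuation.map_neg]

theorem nonunits_sub_mem {x y : Qb} (hx : x ∈ P.nonunits) (hy : y ∈ P.nonunits) :
    x - y ∈ P.nonunits := by
  rw [sub_eq_add_neg]
  exact nonunits_add_mem hx (nonunits_neg_mem hy)

theorem nonunits_mul_mem_left {a x : Qb} (ha : a ∈ P) (hx : x ∈ P.nonunits) :
    a * x ∈ P.nonunits := by
  rw [P.mem_nonunits_iff] at *
  rw [map_mul, mul_comm]
  exact mul_lt_one_of_lt_of_le hx ((P.valuation_le_one_iff a).mpr ha)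

theorem nonunits_mul_mem_right {a x : Qb} (hx : x ∈ P.nonunits) (ha : a ∈ P) :
    x * a ∈ P.nonunits := by
  rw [mul_comm]
  exact nonunits_mul_mem_left ha hx

theorem nonunits_sum_mem {ι : Type*} (s : Finset ι) (x : ι → Qb)
    (h : ∀ i ∈ s, x i ∈ P.nonunits) : ∑ i ∈ s, x i ∈ P.nonunits := by
  classical
  induction s using Finset.induction_on with
  | empty =>
    rw [Finset.sum_empty]
    exact nonunits_zero_mem P
  | insert i s hi ih =>
    rw [Finset.sum_insert hi]
    exact nonunits_add_mem (h i (Finset.mem_insert_self i s))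
      (ih fun j hj => h j (Finset.mem_insert_of_mem hj))

theorem mem_of_mem_nonunits {x : Qb} (hx : x ∈ P.nonunits) : x ∈ P := by
  rw [P.mem_nonunits_iff] at hx
  exact (P.valuation_le_one_iff x).mp hx.le

theorem one_notMem_nonunits (P : ValuationSubring Qb) : (1 : Qb) ∉ P.nonunits := by
  rw [P.mem_nonunits_iff, map_one]
  exact lt_irrefl 1

/-- An element of `P` outside the maximal ideal is a unit of `P`. -/
theorem inv_mem_of_notMem_nonunits {x : Qb} (hx : x ∈ P) (hx' : x ∉ P.nonunits) : x⁻¹ ∈ P := by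
  rw [P.mem_nonunits_iff, not_lt] at hx'
  have h1 : P.valuation x = 1 := le_antisymm ((P.valuation_le_one_iff x).mpr hx) hx'
  rw [← P.valuation_le_one_iff, map_inv₀, h1, inv_one]

theorem mul_notMem_nonunits {x y : Qb} (hx : x ∈ P) (hx' : x ∉ P.nonunits) (hy : y ∈ P)
    (hy' : y ∉ P.nonunits) : x * y ∉ P.nonunits := by
  rw [P.mem_nonunits_iff, not_lt] at *
  have h1 : P.valuation x = 1 := le_antisymm ((P.valuation_le_one_iff x).mpr hx) hx'
  have h2 : P.valuation y = 1 := le_antisymm ((P.valuation_le_one_iff y).mpr hy) hy'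
  rw [map_mul, h1, h2, one_mul]

/-! ### Elements of the order as functions -/

theorem const_mem (B : Subalgebra P (V → Qb)) {c : Qb} (hc : c ∈ P) : (fun _ : V => c) ∈ B :=
  B.algebraMap_mem ⟨c, hc⟩

theorem const_mul_mem {c : Qb} (hc : c ∈ P) {f : V → Qb} (hf : f ∈ B) :
    (fun v => c * f v) ∈ B :=
  B.smul_mem hf (⟨c, hc⟩ : P)

theorem sub_const_mem {c : Qb} (hc : c ∈ P) {f : V → Qb} (hf : f ∈ B) :
    (fun v => f v - c) ∈ B :=
  B.sub_mem hf (const_mem B hc)

theorem finset_prod_mem {ι : Type*} (s : Finset ι) (f : ι → V → Qb) (hf : ∀ i ∈ s, f i ∈ B) :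
    (fun v => ∏ i ∈ s, f i v) ∈ B := by
  have h : (fun v => ∏ i ∈ s, f i v) = ∏ i ∈ s, f i := by
    funext v
    rw [Finset.prod_apply]
  rw [h]
  exact B.prod_mem hf

/-! ### Residual congruence of points -/

/-- `v` and `w` have the same reduction: `f v ≡ f w` modulo the maximal ideal for all `f ∈ B`. -/
def ResEq (P : ValuationSubring Qb) (B : Subalgebra P (V → Qb)) (v w : V) : Prop :=
  ∀ f ∈ B, f v - f w ∈ P.nonunits

theorem ResEq.refl (v : V) : ResEq P B v v := fun f _ => by
  rw [sub_self]
  exact nonunits_zero_mem P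

theorem ResEq.symm {v w : V} (h : ResEq P B v w) : ResEq P B w v := fun f hf => by
  rw [← neg_sub]
  exact nonunits_neg_mem (h f hf)

theorem ResEq.trans {u v w : V} (h : ResEq P B u v) (h' : ResEq P B v w) : ResEq P B u w :=
  fun f hf => by
    have : f u - f w = (f u - f v) + (f v - f w) := by ring
    rw [this]
    exact nonunits_add_mem (h f hf) (h' f hf)

/-- Transport along a map which preserves the order. -/
theorem ResEq.map {j : V → V} (hj : ∀ f ∈ B, (fun v => f (j v)) ∈ B) {v w : V}
    (h : ResEq P B v w) : ResEq P B (j v) (j w) := fun f hf => h _ (hj f hf)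

/-- Residual congruence is compatible with addition. -/
theorem IsPOrder.resEq_add (hB : IsPOrder P Γ act B) {v v' w w' : V} (h1 : ResEq P B v v')
    (h2 : ResEq P B w w') : ResEq P B (v + w) (v' + w') := by
  intro f hf
  obtain ⟨n, g, h, hg, hh, hfgh⟩ := hB.comul f hf
  have : f (v + w) - f (v' + w') =
      ∑ i, ((g i v - g i v') * h i w + g i v' * (h i w - h i w')) := by
    rw [hfgh, hfgh, ← Finset.sum_sub_distrib]
    exact Finset.sum_congr rfl fun i _ => by ring
  rw [this]
  refine nonunits_sum_mem _ _ fun i _ => nonunits_add_mem ?_ ?_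
  · exact nonunits_mul_mem_right (h1 _ (hg i)) (hB.integral _ (hh i) w)
  · exact nonunits_mul_mem_left (hB.integral _ (hg i) v') (h2 _ (hh i))

theorem IsPOrder.resEq_nsmul (hB : IsPOrder P Γ act B) {v w : V} (h : ResEq P B v w) (n : ℕ) :
    ResEq P B (n • v) (n • w) := by
  induction n with
  | zero => simpa using ResEq.refl (P := P) (B := B) (0 : V)
  | succ n ih =>
    rw [succ_nsmul, succ_nsmul]
    exact hB.resEq_add ih h

/-- Residual congruence is compatible with the action of the elements of `Γ` which preserve the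
maximal ideal. -/
theorem IsPOrder.resEq_act (hB : IsPOrder P Γ act B) {σ : GQ} (hσ : σ ∈ Γ)
    (hσP : ∀ x ∈ P.nonunits, σ x ∈ P.nonunits) {v w : V} (h : ResEq P B v w) :
    ResEq P B (act σ v) (act σ w) := by
  intro f hf
  obtain ⟨n, c, g, hg, hge, rfl⟩ := hB.exists_eq_sum hf
  have : (∑ i, (c i : Qb) • g i) (act σ v) - (∑ i, (c i : Qb) • g i) (act σ w) =
      ∑ i, (c i : Qb) * σ (g i v - g i w) := by
    rw [Finset.sum_apply, Finset.sum_apply, ← Finset.sum_sub_distrib]
    refine Finset.sum_congr rfl fun i _ => ?_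
    rw [Pi.smul_apply, Pi.smul_apply, smul_eq_mul, smul_eq_mul, hge i σ hσ, hge i σ hσ, map_sub]
    ring
  rw [this]
  exact nonunits_sum_mem _ _ fun i _ =>
    nonunits_mul_mem_left (c i).2 (hσP _ (h _ (hg i)))

/-- The elements of `Γ` which act trivially on the residue field (inertia) move every point
inside its residue class. -/
theorem IsPOrder.resEq_act_self (hB : IsPOrder P Γ act B) {σ : GQ} (hσ : σ ∈ Γ)
    (hσI : ∀ x ∈ P, σ x - x ∈ P.nonunits) (v : V) : ResEq P B (act σ v) v := by
  intro f hf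
  obtain ⟨n, c, g, hg, hge, rfl⟩ := hB.exists_eq_sum hf
  have : (∑ i, (c i : Qb) • g i) (act σ v) - (∑ i, (c i : Qb) • g i) v =
      ∑ i, (c i : Qb) * (σ (g i v) - g i v) := by
    rw [Finset.sum_apply, Finset.sum_apply, ← Finset.sum_sub_distrib]
    refine Finset.sum_congr rfl fun i _ => ?_
    rw [Pi.smul_apply, Pi.smul_apply, smul_eq_mul, smul_eq_mul, hge i σ hσ]
    ring
  rw [this]
  exact nonunits_sum_mem _ _ fun i _ =>
    nonunits_mul_mem_left (c i).2 (hσI _ (hB.integral _ (hg i) v))

/-! ### Translations -/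

/-- The order is stable under translations. -/
theorem IsPOrder.translate_mem (hB : IsPOrder P Γ act B) {f : V → Qb} (hf : f ∈ B) (w : V) :
    (fun v => f (v + w)) ∈ B := by
  obtain ⟨n, g, h, hg, hh, hfgh⟩ := hB.comul f hf
  have : (fun v => f (v + w)) = ∑ i, (fun v => h i w * g i v) := by
    funext v
    rw [hfgh, Finset.sum_apply]
    exact Finset.sum_congr rfl fun i _ => mul_comm _ _
  rw [this]
  exact B.sum_mem fun i _ => const_mul_mem (hB.integral _ (hh i) w) (hg i)

theorem ResEq.add_right_iff (hB : IsPOrder P Γ act B) {v w : V} (u : V) :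
    ResEq P B (v + u) (w + u) ↔ ResEq P B v w := by
  constructor
  · intro h
    have := hB.resEq_add h (ResEq.refl (P := P) (B := B) (-u))
    simpa using this
  · intro h
    exact hB.resEq_add h (ResEq.refl u)

/-! ### The connected component -/

section conn

variable [Finite V]

/-- The connected component `V⁰` of the order: the points with the same reduction as `0`. -/
def IsPOrder.conn (hB : IsPOrder P Γ act B) : AddSubgroup V where
  carrier := {v | ResEq P B v 0}
  zero_mem' := ResEq.refl 0
  add_mem' := fun {a b} ha hb => by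
    have := hB.resEq_add ha hb
    rwa [add_zero] at this
  neg_mem' := fun {a} ha => by
    have h1 : (Nat.card V - 1) • a = -a := by
      have h2 : (Nat.card V - 1) • a + a = 0 := by
        rw [← succ_nsmul, Nat.sub_add_cancel Nat.card_pos]
        exact card_nsmul_eq_zero' 
      exact eq_neg_of_add_eq_zero_left h2
    have := hB.resEq_nsmul ha (Nat.card V - 1)
    rw [nsmul_zero, h1] at this
    exact this

theorem IsPOrder.mem_conn_iff (hB : IsPOrder P Γ act B) {v : V} :
    v ∈ hB.conn ↔ ResEq P B v 0 := Iff.rfl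

theorem IsPOrder.sub_mem_conn_iff (hB : IsPOrder P Γ act B) {v w : V} :
    v - w ∈ hB.conn ↔ ResEq P B v w := by
  rw [hB.mem_conn_iff, ← ResEq.add_right_iff hB w, sub_add_cancel, zero_add]

/-- `V⁰` is stable under maps preserving the order and fixing `0`. -/
theorem IsPOrder.map_mem_conn (hB : IsPOrder P Γ act B) {j : V → V} (hj0 : j 0 = 0)
    (hj : ∀ f ∈ B, (fun v => f (j v)) ∈ B) {v : V} (hv : v ∈ hB.conn) : j v ∈ hB.conn := by
  rw [hB.mem_conn_iff] at hv ⊢
  have := hv.map hj
  rwa [hj0] at this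

/-- `V⁰` is stable under the elements of `Γ` preserving the maximal ideal. -/
theorem IsPOrder.act_mem_conn (hB : IsPOrder P Γ act B) {σ : GQ} (hσ : σ ∈ Γ)
    (hσP : ∀ x ∈ P.nonunits, σ x ∈ P.nonunits) (hσ0 : act σ 0 = 0) {v : V}
    (hv : v ∈ hB.conn) : act σ v ∈ hB.conn := by
  rw [hB.mem_conn_iff] at hv ⊢
  have := hB.resEq_act hσ hσP hv
  rwa [hσ0] at this

/-- Inertia acts trivially on `V / V⁰`. -/
theorem IsPOrder.act_sub_mem_conn (hB : IsPOrder P Γ act B) {σ : GQ} (hσ : σ ∈ Γ)
    (hσI : ∀ x ∈ P, σ x - x ∈ P.nonunits) (v : V) : act σ v - v ∈ hB.conn :=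
  hB.sub_mem_conn_iff.2 (hB.resEq_act_self hσ hσI v)

/-- The values of an element of the order on a residue class are congruent. -/
theorem IsPOrder.sub_mem_nonunits_of_mem_conn (hB : IsPOrder P Γ act B) {f : V → Qb}
    (hf : f ∈ B) {v w : V} (h : v - w ∈ hB.conn) : f v - f w ∈ P.nonunits :=
  hB.sub_mem_conn_iff.1 h f hf

open Classical in
/-- **The indicator function of the connected component lies in the order.** -/
theorem IsPOrder.indicator_conn_mem (hB : IsPOrder P Γ act B) :
    (fun v => if v ∈ hB.conn then (1 : Qb) else 0) ∈ B := by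
  cases nonempty_fintype V
  -- separating functions
  have hsep : ∀ e : V, ∃ f : V → Qb, f ∈ B ∧ (e ∉ hB.conn → f e - f 0 ∉ P.nonunits) := by
    intro e
    by_cases he : e ∈ hB.conn
    · exact ⟨1, B.one_mem, fun h => absurd he h⟩
    · rw [hB.mem_conn_iff, ResEq] at he
      push Not at he
      obtain ⟨f, hf, hfe⟩ := he
      exact ⟨f, hf, fun _ => hfe⟩
  choose F hFB hF using hsep
  have hFP : ∀ e v, F e v ∈ P := fun e v => hB.integral _ (hFB e) v
  -- a function vanishing off `V⁰` with value `1` at `0`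
  set s : Finset V := Finset.univ.filter (fun e => e ∉ hB.conn) with hs
  set G : V → Qb := fun v => ∏ e ∈ s, (F e 0 - F e e)⁻¹ * (F e v - F e e) with hG
  have hunit : ∀ e ∈ s, (F e 0 - F e e)⁻¹ ∈ P := by
    intro e he
    have he' : e ∉ hB.conn := (Finset.mem_filter.1 he).2
    refine inv_mem_of_notMem_nonunits (P.sub_mem (hFP e 0) (hFP e e)) ?_
    intro h
    apply hF e he'
    rw [← neg_sub]
    exact nonunits_neg_mem h
  have hne : ∀ e ∈ s, F e 0 - F e e ≠ 0 := by
    intro e he h
    have he' : e ∉ hB.conn := (Finset.mem_filter.1 he).2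
    apply hF e he'
    have : F e e - F e 0 = 0 := by rw [← neg_sub, h, neg_zero]
    rw [this]
    exact nonunits_zero_mem P
  have hGB : G ∈ B :=
    finset_prod_mem s _ fun e he => const_mul_mem (hunit e he) (sub_const_mem (hFP e e) (hFB e))
  have hG0 : G 0 = 1 := by
    rw [hG]
    exact Finset.prod_eq_one fun e he => inv_mul_cancel₀ (hne e he)
  have hGoff : ∀ v, v ∉ hB.conn → G v = 0 := by
    intro v hv
    rw [hG]
    refine Finset.prod_eq_zero (Finset.mem_filter.2 ⟨Finset.mem_univ v, hv⟩) ?_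
    rw [sub_self, mul_zero]
  have hGP : ∀ v, G v ∈ P := fun v => hB.integral _ hGB v
  have hGon : ∀ w, w ∈ hB.conn → G w ∉ P.nonunits := by
    intro w hw h
    have h1 : G w - G 0 ∈ P.nonunits := hw G hGB
    apply one_notMem_nonunits P
    have : (1 : Qb) = G w - (G w - G 0) := by rw [hG0]; ring
    rw [this]
    exact nonunits_sub_mem h h1
  -- the polynomial in `G`
  set t : Finset V := Finset.univ.filter (fun w => w ∈ hB.conn) with ht
  set H : V → Qb := fun v => ∏ w ∈ t, (G v - G w) with hH
  have hHB : H ∈ B := finset_prod_mem t _ fun w _ => sub_const_mem (hGP w) hGB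
  set r : Qb := ∏ w ∈ t, (0 - G w) with hr
  have hrP : r ∈ P ∧ r ∉ P.nonunits := by
    rw [hr]
    refine Finset.prod_induction _ (fun x => x ∈ P ∧ x ∉ P.nonunits) ?_ ?_ ?_
    · rintro a b ⟨ha, ha'⟩ ⟨hb, hb'⟩
      exact ⟨P.mul_mem _ _ ha hb, mul_notMem_nonunits ha ha' hb hb'⟩
    · exact ⟨P.one_mem, one_notMem_nonunits P⟩
    · intro w hw
      have hw' : w ∈ hB.conn := (Finset.mem_filter.1 hw).2
      rw [zero_sub]
      exact ⟨P.neg_mem _ (hGP w), fun h => hGon w hw' (by simpa using nonunits_neg_mem h)⟩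
  have hr0 : r ≠ 0 := by
    intro h
    apply hrP.2
    rw [h]
    exact nonunits_zero_mem P
  have hHon : ∀ v, v ∈ hB.conn → H v = 0 := by
    intro v hv
    rw [hH]
    refine Finset.prod_eq_zero (Finset.mem_filter.2 ⟨Finset.mem_univ v, hv⟩) ?_
    rw [sub_self]
  have hHoff : ∀ v, v ∉ hB.conn → H v = r := by
    intro v hv
    rw [hH, hr]
    simp only [hGoff v hv]
  have hfin : (fun v => if v ∈ hB.conn then (1 : Qb) else 0) = fun v => 1 - r⁻¹ * H v := by
    funext v
    by_cases hv : v ∈ hB.conn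
    · rw [if_pos hv, hHon v hv, mul_zero, sub_zero]
    · rw [if_neg hv, hHoff v hv, inv_mul_cancel₀ hr0, sub_self]
  rw [hfin]
  exact B.sub_mem B.one_mem (const_mul_mem (inv_mem_of_notMem_nonunits hrP.1 hrP.2) hHB)

open Classical in
/-- The indicator functions of the cosets of the connected component lie in the order. -/
theorem IsPOrder.indicator_coset_mem (hB : IsPOrder P Γ act B) (e : V) :
    (fun v => if v - e ∈ hB.conn then (1 : Qb) else 0) ∈ B := by
  have := hB.translate_mem hB.indicator_conn_mem (-e)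
  simpa only [sub_eq_add_neg] using this

end conn

end Fermat.Agent.Lib.FinFlat
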