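import Fermat.Agent.Lib.FinFlat.OfOrder

/-!
# Operations on Hopf orders

Closure properties of the class of finite Galois modules having a Hopf order
(`Fermat.Agent.Lib.FinFlat.IsHopfOrder`): Galois submodules, quotients, products; the converse of
`IsHopfOrder.exists_hopfAlgebra` (a finite flat datum of the Prelude gives a Hopf order), and a
criterion for subalgebras given by generators.
-/

set_option autoImplicit false

open scoped TensorProduct

namespace Fermat.Agent.Lib.FinFlat

section Basics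

variable {p : ℕ} {V : Type} [AddCommGroup V]

/-- A finite Galois module *has a Hopf order*. -/
def HasHopfOrder (p : ℕ) {V : Type} [AddCommGroup V] (act : GQ → V → V) : Prop :=
  ∃ B : Subalgebra (Rp p) (V → Qbar), IsHopfOrder p act B

/-- The Prelude's finite flat datum for a module with a Hopf order. -/
theorem HasHopfOrder.exists_hopfAlgebra [Fact p.Prime] [Finite V] {act : GQ → V → V}
    (h : HasHopfOrder p act) :
    ∃ (H : Type) (_ : CommRing H) (_ : HopfAlgebra (Rp p) H),
      Module.Finite (Rp p) H ∧ Module.Flat (Rp p) H ∧ Coalgebra.IsCocomm (Rp p) H ∧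
      ∃ e : WithConv (H →ₐ[Rp p] Qbar) ≃ V,
        (∀ f g : WithConv (H →ₐ[Rp p] Qbar), e (f * g) = e f + e g) ∧
        ∀ (σ : GQ) (f g : WithConv (H →ₐ[Rp p] Qbar)),
          (∀ h : H, g h = σ (f h)) → e g = act σ (e f) := by
  obtain ⟨B, hB⟩ := h
  exact hB.exists_hopfAlgebra

/-- Every tensor is a finite sum of pure tensors indexed by some `Fin n`. -/
theorem exists_fin_sum_tmul {R M N : Type*} [CommSemiring R] [AddCommMonoid M] [AddCommMonoid N]
    [Module R M] [Module R N] (t : M ⊗[R] N) :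
    ∃ (n : ℕ) (g : Fin n → M) (h : Fin n → N), t = ∑ i, g i ⊗ₜ[R] h i := by
  induction t using TensorProduct.induction_on with
  | zero => exact ⟨0, Fin.elim0, Fin.elim0, by simp⟩
  | tmul a b => exact ⟨1, fun _ => a, fun _ => b, by simp⟩
  | add x y hx hy =>
    obtain ⟨n, g, h, rfl⟩ := hx
    obtain ⟨m, g', h', rfl⟩ := hy
    refine ⟨n + m, Fin.append g g', Fin.append h h', ?_⟩
    rw [Fin.sum_univ_add]
    simp [Fin.append_left, Fin.append_right]

/-- Precomposition with a map, as a map of function algebras. -/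
noncomputable def precomp (p : ℕ) {X Y : Type} (φ : X → Y) : (Y → Qbar) →ₐ[Rp p] (X → Qbar) :=
  AlgHom.pi (fun x => Pi.evalAlgHom (Rp p) (fun _ : Y => Qbar) (φ x))

omit [AddCommGroup V] in
@[simp] theorem precomp_apply {X Y : Type} (φ : X → Y) (f : Y → Qbar) (x : X) :
    precomp p φ f x = f (φ x) := rfl

/-- The functions `f` on `V` such that `(v, w) ↦ f (v + w)` is a finite sum of products
`g v * h w` with `g, h ∈ B`.  This is a subalgebra, and `B` is stable under comultiplication iff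
`B ≤ comulClosure B`. -/
noncomputable def comulClosure (B : Subalgebra (Rp p) (V → Qbar)) :
    Subalgebra (Rp p) (V → Qbar) :=
  (mu2 B).range.comap (precomp p (fun vw : V × V => vw.1 + vw.2))

theorem mem_comulClosure_iff (B : Subalgebra (Rp p) (V → Qbar)) (f : V → Qbar) :
    f ∈ comulClosure B ↔ ∃ (n : ℕ) (g h : Fin n → B), ∀ v w : V,
      f (v + w) = ∑ i, (g i : V → Qbar) v * (h i : V → Qbar) w := by
  constructor
  · intro hf
    obtain ⟨t, ht⟩ := (AlgHom.mem_range _).mp ((Subalgebra.mem_comap _ _ _).mp hf)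
    obtain ⟨n, g, h, rfl⟩ := exists_fin_sum_tmul t
    refine ⟨n, g, h, fun v w => ?_⟩
    have h1 := congrFun ht (v, w)
    rw [map_sum, Finset.sum_apply] at h1
    rw [precomp_apply] at h1
    rw [← h1]
    exact Finset.sum_congr rfl fun i _ => by rw [boxMap_tmul]; rfl
  · rintro ⟨n, g, h, hgh⟩
    refine (Subalgebra.mem_comap _ _ _).mpr ((AlgHom.mem_range _).mpr ⟨∑ i, g i ⊗ₜ[Rp p] h i, ?_⟩)
    funext vw
    rw [map_sum, Finset.sum_apply, precomp_apply, hgh]
    exact Finset.sum_congr rfl fun i _ => by rw [boxMap_tmul]; rfl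

theorem comulClosure_mono {B B' : Subalgebra (Rp p) (V → Qbar)} (h : B ≤ B') :
    comulClosure B ≤ comulClosure B' := by
  intro f hf
  rw [mem_comulClosure_iff] at hf ⊢
  obtain ⟨n, g, k, hgk⟩ := hf
  exact ⟨n, fun i => ⟨g i, h (g i).2⟩, fun i => ⟨k i, h (k i).2⟩, hgk⟩

/-- The subalgebra of Galois-equivariant functions. -/
noncomputable def equivariantSubalgebra (p : ℕ) {V : Type} (act : GQ → V → V) :
    Subalgebra (Rp p) (V → Qbar) where
  carrier := {f | ∀ (σ : GQ) (v : V), f (act σ v) = σ (f v)}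
  mul_mem' := by
    intro f g hf hg σ v
    simp only [Pi.mul_apply, map_mul, hf σ v, hg σ v]
  add_mem' := by
    intro f g hf hg σ v
    simp only [Pi.add_apply, map_add, hf σ v, hg σ v]
  algebraMap_mem' := by
    intro r σ v
    rw [Pi.algebraMap_apply, Pi.algebraMap_apply, IsScalarTower.algebraMap_apply (Rp p) ℚ Qbar,
      AlgEquiv.commutes]

omit [AddCommGroup V] in
theorem mem_equivariantSubalgebra_iff (act : GQ → V → V) (f : V → Qbar) :
    f ∈ equivariantSubalgebra p act ↔ ∀ (σ : GQ) (v : V), f (act σ v) = σ (f v) := Iff.rfl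

/-- Constructor for Hopf orders in terms of the subalgebras `equivariantSubalgebra` and
`comulClosure`. -/
theorem IsHopfOrder.mk' {act : GQ → V → V} {B : Subalgebra (Rp p) (V → Qbar)}
    (hfg : (Subalgebra.toSubmodule B).FG) (heq : B ≤ equivariantSubalgebra p act)
    (hsep : ∀ v w : V, (∀ f ∈ B, f v = f w) → v = w) (hcomul : B ≤ comulClosure B) :
    IsHopfOrder p act B where
  fg := hfg
  equivariant _ hf := heq hf
  separates := hsep
  comul f hf := (mem_comulClosure_iff B f).mp (hcomul hf)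

theorem IsHopfOrder.le_comulClosure {act : GQ → V → V} {B : Subalgebra (Rp p) (V → Qbar)}
    (hB : IsHopfOrder p act B) : B ≤ comulClosure B :=
  fun f hf => (mem_comulClosure_iff B f).mpr (hB.comul f hf)

theorem IsHopfOrder.le_equivariantSubalgebra {act : GQ → V → V}
    {B : Subalgebra (Rp p) (V → Qbar)} (hB : IsHopfOrder p act B) :
    B ≤ equivariantSubalgebra p act :=
  fun f hf => hB.equivariant f hf

/-- A function on a finite set with integral values is integral. -/
theorem isIntegral_pi_of_forall {X : Type} [Finite X] (f : X → Qbar)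
    (h : ∀ x, IsIntegral (Rp p) (f x)) : IsIntegral (Rp p) f := by
  classical
  have := Fintype.ofFinite X
  choose P hP hP0 using h
  refine ⟨∏ x, P x, Polynomial.monic_prod_of_monic _ _ fun x _ => hP x, ?_⟩
  rw [← Polynomial.aeval_def, map_prod]
  funext y
  rw [Finset.prod_apply, Pi.zero_apply]
  refine Finset.prod_eq_zero (Finset.mem_univ y) ?_
  have h1 : Polynomial.aeval f (P y) y = Polynomial.aeval (f y) (P y) :=
    (Polynomial.aeval_algHom_apply (Pi.evalAlgHom (Rp p) (fun _ : X => Qbar) y) f (P y)).symm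
  rw [h1, Polynomial.aeval_def, hP0 y]

/-- **Generator criterion**: the subalgebra generated by a finite set of integral, equivariant,
point-separating functions is a Hopf order as soon as the comultiplication condition holds on the
generators. -/
theorem isHopfOrder_adjoin [Finite V] {act : GQ → V → V} (S : Set (V → Qbar)) (hfin : S.Finite)
    (hint : ∀ f ∈ S, ∀ v, IsIntegral (Rp p) (f v))
    (heq : ∀ f ∈ S, ∀ (σ : GQ) (v : V), f (act σ v) = σ (f v))
    (hsep : ∀ v w : V, (∀ f ∈ S, f v = f w) → v = w)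
    (hcomul : ∀ f ∈ S, ∃ (n : ℕ) (g h : Fin n → Algebra.adjoin (Rp p) S), ∀ v w : V,
      f (v + w) = ∑ i, (g i : V → Qbar) v * (h i : V → Qbar) w) :
    IsHopfOrder p act (Algebra.adjoin (Rp p) S) := by
  refine IsHopfOrder.mk' ?_ ?_ ?_ ?_
  · exact fg_adjoin_of_finite hfin fun f hf => isIntegral_pi_of_forall f (hint f hf)
  · exact Algebra.adjoin_le fun f hf => heq f hf
  · exact fun v w h => hsep v w fun f hf => h f (Algebra.subset_adjoin hf)
  · exact Algebra.adjoin_le fun f hf => (mem_comulClosure_iff _ f).mpr (hcomul f hf)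

end Basics

section Sub

variable {p : ℕ} {V W : Type} [AddCommGroup V] [AddCommGroup W]

/-- Pullback of a Hopf order along an injective equivariant additive map (Galois submodules,
equivariant isomorphisms). -/
theorem IsHopfOrder.map_precomp {act : GQ → V → V} {actW : GQ → W → W}
    {B : Subalgebra (Rp p) (V → Qbar)} (hB : IsHopfOrder p act B) (ι : W →+ V)
    (hι : Function.Injective ι) (hι' : ∀ (σ : GQ) (w : W), ι (actW σ w) = act σ (ι w)) :
    IsHopfOrder p actW (B.map (precomp p ι)) where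
  fg := by
    rw [Subalgebra.map_toSubmodule]
    exact hB.fg.map _
  equivariant := by
    rintro _ ⟨f, hf, rfl⟩ σ w
    show f (ι (actW σ w)) = σ (f (ι w))
    rw [hι', hB.equivariant f hf]
  separates := by
    intro w w' h
    apply hι
    refine hB.separates _ _ fun f hf => ?_
    exact h _ ⟨f, hf, rfl⟩
  comul := by
    rintro _ ⟨f, hf, rfl⟩
    obtain ⟨n, g, h, hgh⟩ := hB.comul f hf
    refine ⟨n, fun i => ⟨precomp p ι (g i), ⟨g i, (g i).2, rfl⟩⟩,
      fun i => ⟨precomp p ι (h i), ⟨h i, (h i).2, rfl⟩⟩, fun w w' => ?_⟩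
    show f (ι (w + w')) = _
    rw [map_add, hgh]
    rfl

/-- Having a Hopf order passes to Galois submodules (and along equivariant isomorphisms). -/
theorem HasHopfOrder.of_injective {act : GQ → V → V} {actW : GQ → W → W}
    (h : HasHopfOrder p act) (ι : W →+ V) (hι : Function.Injective ι)
    (hι' : ∀ (σ : GQ) (w : W), ι (actW σ w) = act σ (ι w)) : HasHopfOrder p actW := by
  obtain ⟨B, hB⟩ := h
  exact ⟨_, hB.map_precomp ι hι hι'⟩

/-- Having a Hopf order is invariant under equivariant additive equivalences. -/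
theorem HasHopfOrder.of_addEquiv {act : GQ → V → V} {actW : GQ → W → W}
    (h : HasHopfOrder p act) (e : W ≃+ V)
    (he : ∀ (σ : GQ) (w : W), e (actW σ w) = act σ (e w)) : HasHopfOrder p actW :=
  h.of_injective e.toAddMonoidHom e.injective he

end Sub

section Prod

variable {p : ℕ} {V₁ V₂ : Type} [AddCommGroup V₁] [AddCommGroup V₂]

/-- The product of two Hopf orders. -/
theorem IsHopfOrder.prod {act₁ : GQ → V₁ → V₁} {act₂ : GQ → V₂ → V₂}
    {B₁ : Subalgebra (Rp p) (V₁ → Qbar)} {B₂ : Subalgebra (Rp p) (V₂ → Qbar)}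
    (h₁ : IsHopfOrder p act₁ B₁) (h₂ : IsHopfOrder p act₂ B₂) :
    IsHopfOrder p (fun σ (x : V₁ × V₂) => (act₁ σ x.1, act₂ σ x.2))
      (boxMap B₁.val B₂.val).range := by
  -- the range is generated by the pullbacks of the two factors
  have hgen : ∀ E : Subalgebra (Rp p) (V₁ × V₂ → Qbar),
      (∀ g : B₁, boxMap B₁.val B₂.val (g ⊗ₜ[Rp p] 1) ∈ E) →
      (∀ h : B₂, boxMap B₁.val B₂.val (1 ⊗ₜ[Rp p] h) ∈ E) →
      (boxMap B₁.val B₂.val).range ≤ E := by
    intro E hE1 hE2 F hF
    obtain ⟨t, rfl⟩ := (AlgHom.mem_range _).mp hF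
    induction t using TensorProduct.induction_on with
    | zero => rw [map_zero]; exact E.zero_mem
    | tmul g h =>
      have h1 : g ⊗ₜ[Rp p] h = (g ⊗ₜ[Rp p] (1 : B₂)) * ((1 : B₁) ⊗ₜ[Rp p] h) := by
        rw [Algebra.TensorProduct.tmul_mul_tmul, mul_one, one_mul]
      rw [h1, map_mul]
      exact E.mul_mem (hE1 g) (hE2 h)
    | add x y hx hy =>
      rw [map_add]
      exact E.add_mem (hx ((AlgHom.mem_range _).mpr ⟨x, rfl⟩)) (hy ((AlgHom.mem_range _).mpr ⟨y, rfl⟩))
  have hval1 : ∀ (g : B₁) (x : V₁ × V₂),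
      boxMap B₁.val B₂.val (g ⊗ₜ[Rp p] 1) x = (g : V₁ → Qbar) x.1 := by
    intro g x
    rw [boxMap_tmul]
    simp
  have hval2 : ∀ (h : B₂) (x : V₁ × V₂),
      boxMap B₁.val B₂.val (1 ⊗ₜ[Rp p] h) x = (h : V₂ → Qbar) x.2 := by
    intro h x
    rw [boxMap_tmul]
    simp
  refine IsHopfOrder.mk' ?_ ?_ ?_ ?_
  · have := h₁.moduleFinite
    have := h₂.moduleFinite
    have h3 : Module.Finite (Rp p) (boxMap B₁.val B₂.val).range :=
      Module.Finite.of_surjective (boxMap B₁.val B₂.val).rangeRestrict.toLinearMap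
        (boxMap B₁.val B₂.val).rangeRestrict_surjective
    exact Module.Finite.iff_fg.mp h3
  · refine hgen _ (fun g σ x => ?_) (fun h σ x => ?_)
    · rw [hval1, hval1, h₁.equivariant _ g.2]
    · rw [hval2, hval2, h₂.equivariant _ h.2]
  · rintro ⟨v₁, v₂⟩ ⟨w₁, w₂⟩ h
    refine Prod.ext (h₁.separates _ _ fun g hg => ?_) (h₂.separates _ _ fun k hk => ?_)
    · have h3 := h _ ((AlgHom.mem_range _).mpr ⟨(⟨g, hg⟩ : B₁) ⊗ₜ[Rp p] 1, rfl⟩)
      rw [hval1, hval1] at h3
      exact h3
    · have h3 := h _ ((AlgHom.mem_range _).mpr ⟨1 ⊗ₜ[Rp p] (⟨k, hk⟩ : B₂), rfl⟩)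
      rw [hval2, hval2] at h3
      exact h3
  · refine hgen _ (fun g => ?_) (fun k => ?_)
    · rw [mem_comulClosure_iff]
      obtain ⟨n, a, b, hab⟩ := h₁.comul g g.2
      refine ⟨n, fun i => ⟨_, (AlgHom.mem_range _).mpr ⟨a i ⊗ₜ[Rp p] 1, rfl⟩⟩,
        fun i => ⟨_, (AlgHom.mem_range _).mpr ⟨b i ⊗ₜ[Rp p] 1, rfl⟩⟩, fun x y => ?_⟩
      rw [hval1]
      simp only [hval1]
      exact hab x.1 y.1
    · rw [mem_comulClosure_iff]
      obtain ⟨n, a, b, hab⟩ := h₂.comul k k.2
      refine ⟨n, fun i => ⟨_, (AlgHom.mem_range _).mpr ⟨1 ⊗ₜ[Rp p] a i, rfl⟩⟩,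
        fun i => ⟨_, (AlgHom.mem_range _).mpr ⟨1 ⊗ₜ[Rp p] b i, rfl⟩⟩, fun x y => ?_⟩
      rw [hval2]
      simp only [hval2]
      exact hab x.2 y.2

/-- Having a Hopf order passes to products. -/
theorem HasHopfOrder.prod {act₁ : GQ → V₁ → V₁} {act₂ : GQ → V₂ → V₂}
    (h₁ : HasHopfOrder p act₁) (h₂ : HasHopfOrder p act₂) :
    HasHopfOrder p (fun σ (x : V₁ × V₂) => (act₁ σ x.1, act₂ σ x.2)) := by
  obtain ⟨B₁, hB₁⟩ := h₁
  obtain ⟨B₂, hB₂⟩ := h₂
  exact ⟨_, hB₁.prod hB₂⟩

end Prod

section Consumer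

variable {p : ℕ} {V : Type} [AddCommGroup V]

/-- **Consumer half**: the Prelude's finite flat datum gives a Hopf order (the image of `H` in
the functions on `V`). -/
theorem hasHopfOrder_of_hopfAlgebra {act : GQ → V → V}
    (h : ∃ (H : Type) (_ : CommRing H) (_ : HopfAlgebra (Rp p) H),
      Module.Finite (Rp p) H ∧ Module.Flat (Rp p) H ∧ Coalgebra.IsCocomm (Rp p) H ∧
      ∃ e : WithConv (H →ₐ[Rp p] Qbar) ≃ V,
        (∀ f g : WithConv (H →ₐ[Rp p] Qbar), e (f * g) = e f + e g) ∧
        ∀ (σ : GQ) (f g : WithConv (H →ₐ[Rp p] Qbar)),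
          (∀ h : H, g h = σ (f h)) → e g = act σ (e f)) :
    HasHopfOrder p act := by
  obtain ⟨H, _, _, hfin, -, -, e, hadd, hgal⟩ := h
  let Ψ : H →ₐ[Rp p] (V → Qbar) := AlgHom.pi (fun v => (e.symm v).ofConv)
  have hΨ : ∀ (a : H) (v : V), Ψ a v = (e.symm v).ofConv a := fun _ _ => rfl
  refine ⟨Ψ.range, IsHopfOrder.mk' ?_ ?_ ?_ ?_⟩
  · have h3 : Module.Finite (Rp p) Ψ.range :=
      Module.Finite.of_surjective Ψ.rangeRestrict.toLinearMap Ψ.rangeRestrict_surjective
    exact Module.Finite.iff_fg.mp h3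
  · intro F hF σ v
    obtain ⟨a, rfl⟩ := (AlgHom.mem_range _).mp hF
    let g : WithConv (H →ₐ[Rp p] Qbar) :=
      WithConv.toConv (((σ : Qbar →ₐ[ℚ] Qbar).restrictScalars (Rp p)).comp (e.symm v).ofConv)
    have hg : e g = act σ v := by
      have h1 := hgal σ (e.symm v) g (fun _ => rfl)
      rw [Equiv.apply_symm_apply] at h1
      exact h1
    rw [hΨ, hΨ, ← hg, Equiv.symm_apply_apply]
    rfl
  · intro v w h
    have h1 : e.symm v = e.symm w := by
      refine WithConv.ext (AlgHom.ext fun a => ?_)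
      exact h _ ((AlgHom.mem_range _).mpr ⟨a, rfl⟩)
    exact e.symm.injective h1
  · intro F hF
    obtain ⟨a, rfl⟩ := (AlgHom.mem_range _).mp hF
    rw [mem_comulClosure_iff]
    obtain ⟨n, b, c, hbc⟩ := exists_fin_sum_tmul (Coalgebra.comul (R := Rp p) a)
    refine ⟨n, fun i => ⟨Ψ (b i), (AlgHom.mem_range _).mpr ⟨b i, rfl⟩⟩,
      fun i => ⟨Ψ (c i), (AlgHom.mem_range _).mpr ⟨c i, rfl⟩⟩, fun v w => ?_⟩
    have h1 : e.symm (v + w) = e.symm v * e.symm w := by
      rw [Equiv.symm_apply_eq, hadd, Equiv.apply_symm_apply, Equiv.apply_symm_apply]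
    have h2 : (e.symm v * e.symm w) a = ∑ i, (e.symm v).ofConv (b i) * (e.symm w).ofConv (c i) := by
      rw [AlgHom.convMul_apply, hbc, map_sum]
      exact Finset.sum_congr rfl fun i _ => by rw [Algebra.TensorProduct.lift_tmul]
    rw [hΨ, h1]
    exact h2

end Consumer

section Pi

variable {p : ℕ} {V : Type} [AddCommGroup V]

/-- A trivial module has a Hopf order (the scalars). -/
theorem hasHopfOrder_of_subsingleton [Subsingleton V] (act : GQ → V → V) :
    HasHopfOrder p act := by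
  refine ⟨⊥, IsHopfOrder.mk' ?_ bot_le (fun v w _ => Subsingleton.elim v w) bot_le⟩
  rw [Algebra.toSubmodule_bot, Submodule.one_eq_span]
  exact Submodule.fg_span_singleton _

/-- Having a Hopf order passes to finite powers. -/
theorem HasHopfOrder.pi {act : GQ → V → V} (h : HasHopfOrder p act) (n : ℕ) :
    HasHopfOrder p (fun σ (x : Fin n → V) i => act σ (x i)) := by
  induction n with
  | zero => exact hasHopfOrder_of_subsingleton _
  | succ n ih =>
    let ι : (Fin (n + 1) → V) →+ V × (Fin n → V) :=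
      { toFun := fun x => (x 0, fun i => x i.succ)
        map_zero' := rfl
        map_add' := fun _ _ => rfl }
    refine (h.prod ih).of_injective ι (fun x y hxy => ?_) (fun σ x => rfl)
    funext i
    refine Fin.cases ?_ (fun j => ?_) i
    · exact congrArg Prod.fst hxy
    · exact congrFun (congrArg Prod.snd hxy) j

end Pi

end Fermat.Agent.Lib.FinFlat
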