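import Mathlib
import Fermat.Agent.Padic.LocalOrderD
import Fermat.Agent.Lib.FinFlat.OrderOps
import Fermat.Agent.Lib.TeichLift
import Fermat.Agent.Lib.GalQbar
import Fermat.Agent.PT.G.ValConj

set_option autoImplicit false

namespace Fermat.Agent.Lib.FinFlat.DescentGlobal

open Fermat.Agent.Lib.FrobeniusExists (val_le_one_of_isIntegral val_intCast_eq_one)

/-! ## Part A: valuation subrings of `ℚ̄` over a prime -/

section Val

variable (A : ValuationSubring Qbar) {l : ℕ}

theorem val_prime_lt_one (hA : A.LiesOverPrime l) : A.valuation (l : Qbar) < 1 :=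
  A.mem_nonunits_iff.mp hA

theorem val_intCast_le_one (n : ℤ) : A.valuation (n : Qbar) ≤ 1 :=
  val_le_one_of_isIntegral _ (Fermat.Agent.PT.G.isIntegral_intCast_field n)

/-- **Archimedean property, I**: a power of every non-unit is divisible by `l`. -/
theorem exists_pow_le_prime (hl : l.Prime) (hA : A.LiesOverPrime l) {x : Qbar}
    (hx : A.valuation x < 1) : ∃ N : ℕ, A.valuation x ^ N ≤ A.valuation (l : Qbar) := by
  classical
  have hvl : A.valuation (l : Qbar) < 1 := val_prime_lt_one A hA
  obtain ⟨p, hp0, hpx⟩ := Fermat.Agent.Lib.GalQbar.isAlgebraic_int x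
  have hpx' : Polynomial.aeval x p.primPart = 0 := Polynomial.aeval_primPart_eq_zero hp0 hpx
  have hprim : p.primPart.IsPrimitive := p.isPrimitive_primPart
  have hex : ∃ i, ¬ (l : ℤ) ∣ p.primPart.coeff i := by
    by_contra hcon
    push Not at hcon
    have hdvd : Polynomial.C (l : ℤ) ∣ p.primPart :=
      (Polynomial.C_dvd_iff_dvd_coeff _ _).mpr hcon
    exact (Nat.prime_iff_prime_int.mp hl).not_isUnit (hprim _ hdvd)
  set q := p.primPart with hq
  have hi₀ : ¬ (l : ℤ) ∣ q.coeff (Nat.find hex) := Nat.find_spec hex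
  have hlt : ∀ i < Nat.find hex, (l : ℤ) ∣ q.coeff i := fun i hi =>
    not_not.mp (Nat.find_min hex hi)
  set i₀ := Nat.find hex with hi₀def
  refine ⟨i₀, ?_⟩
  by_contra hcon
  rw [not_le] at hcon
  have hg0 : A.valuation x ^ i₀ ≠ 0 := fun h => by
    rw [h] at hcon
    exact not_lt_zero hcon
  have hsum : ∑ i ∈ Finset.range (q.natDegree + 1), (q.coeff i : Qbar) * x ^ i = 0 := by
    rw [← hpx', Polynomial.aeval_eq_sum_range]
    refine Finset.sum_congr rfl fun i _ => ?_
    rw [zsmul_eq_mul]
  have hi₀mem : i₀ ∈ Finset.range (q.natDegree + 1) := by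
    rw [Finset.mem_range, Nat.lt_succ_iff]
    apply Polynomial.le_natDegree_of_ne_zero
    intro h0
    apply hi₀
    rw [h0]
    exact dvd_zero _
  rw [← Finset.add_sum_erase _ _ hi₀mem] at hsum
  have hrest : A.valuation (∑ i ∈ (Finset.range (q.natDegree + 1)).erase i₀,
      (q.coeff i : Qbar) * x ^ i) < A.valuation x ^ i₀ := by
    refine Valuation.map_sum_lt _ hg0 fun i hi => ?_
    have hne : i ≠ i₀ := (Finset.mem_erase.mp hi).1
    rw [map_mul, map_pow]
    rcases lt_or_gt_of_ne hne with h | h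
    · -- `i < i₀`
      obtain ⟨m, hm⟩ := hlt i h
      have h1 : A.valuation ((q.coeff i : ℤ) : Qbar) ≤ A.valuation (l : Qbar) := by
        rw [hm]
        push_cast
        rw [map_mul]
        calc A.valuation (l : Qbar) * A.valuation (m : Qbar)
            ≤ A.valuation (l : Qbar) * 1 := by gcongr; exact val_intCast_le_one A m
          _ = A.valuation (l : Qbar) := mul_one _
      have h2 : A.valuation x ^ i ≤ 1 := pow_le_one' hx.le i
      calc A.valuation ((q.coeff i : ℤ) : Qbar) * A.valuation x ^ i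
          ≤ A.valuation (l : Qbar) * 1 := by gcongr
        _ = A.valuation (l : Qbar) := mul_one _
        _ < A.valuation x ^ i₀ := hcon
    · -- `i₀ < i`
      obtain ⟨d, rfl⟩ := Nat.exists_eq_add_of_lt h
      have h1 : A.valuation x ^ (i₀ + d + 1) = A.valuation x ^ i₀ * A.valuation x ^ (d + 1) := by
        rw [add_assoc, pow_add]
      have h2 : A.valuation x ^ (d + 1) < 1 := pow_lt_one' hx (Nat.succ_ne_zero d)
      calc A.valuation ((q.coeff (i₀ + d + 1) : ℤ) : Qbar) * A.valuation x ^ (i₀ + d + 1)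
          ≤ 1 * A.valuation x ^ (i₀ + d + 1) := by gcongr; exact val_intCast_le_one A _
        _ = A.valuation x ^ i₀ * A.valuation x ^ (d + 1) := by rw [one_mul, h1]
        _ < A.valuation x ^ i₀ * 1 := by
            exact mul_lt_mul_of_pos_left h2 (zero_lt_iff.mpr hg0)
        _ = A.valuation x ^ i₀ := mul_one _
  have hterm : A.valuation ((q.coeff i₀ : Qbar) * x ^ i₀) = A.valuation x ^ i₀ := by
    rw [map_mul, map_pow, val_intCast_eq_one A.valuation hl hvl hi₀, one_mul]
  have heq : (q.coeff i₀ : Qbar) * x ^ i₀ = -∑ i ∈ (Finset.range (q.natDegree + 1)).erase i₀,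
      (q.coeff i : Qbar) * x ^ i := eq_neg_of_add_eq_zero_left hsum
  rw [heq, Valuation.map_neg] at hterm
  exact absurd hterm hrest.ne

/-- **Archimedean property, II**: every nonzero element divides a power of `l`. -/
theorem exists_prime_pow_le (hl : l.Prime) (hA : A.LiesOverPrime l) {x : Qbar} (hx : x ≠ 0) :
    ∃ j : ℕ, A.valuation (l : Qbar) ^ j ≤ A.valuation x := by
  have hvl : A.valuation (l : Qbar) < 1 := val_prime_lt_one A hA
  obtain ⟨b, hb0, hb⟩ := (Fermat.Agent.Lib.GalQbar.isAlgebraic_int x⁻¹).exists_integral_multiple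
  have h1 : A.valuation ((b : Qbar) * x⁻¹) ≤ 1 := by
    have := val_le_one_of_isIntegral A.valuation hb
    rwa [zsmul_eq_mul] at this
  have hvx : A.valuation x ≠ 0 := (Valuation.ne_zero_iff _).mpr hx
  have h2 : A.valuation (b : Qbar) ≤ A.valuation x := by
    rw [map_mul, map_inv₀] at h1
    have := mul_le_mul_left h1 (A.valuation x)
    rwa [one_mul, mul_assoc, inv_mul_cancel₀ hvx, mul_one] at this
  obtain ⟨e, n', hn', hbe⟩ := Nat.exists_eq_pow_mul_and_not_dvd (Int.natAbs_ne_zero.mpr hb0) l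
    hl.ne_one
  refine ⟨e, ?_⟩
  have h3 : A.valuation (b : Qbar) = A.valuation (l : Qbar) ^ e := by
    have h4 : A.valuation (b : Qbar) = A.valuation ((b.natAbs : ℕ) : Qbar) := by
      rcases Int.natAbs_eq b with h | h
      · conv_lhs => rw [h]
        simp
      · conv_lhs => rw [h]
        simp
    have h5 : A.valuation ((n' : ℤ) : Qbar) = 1 :=
      val_intCast_eq_one A.valuation hl hvl (by exact_mod_cast hn')
    rw [h4, hbe]
    push_cast at h5 ⊢
    rw [map_mul, map_pow, h5, mul_one]
  rw [← h3]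
  exact h2

/-- A unit of `A` has a power congruent to `1` modulo the maximal ideal. -/
theorem exists_pow_sub_one_lt (hl : l.Prime) (hA : A.LiesOverPrime l) {x : Qbar}
    (hx : A.valuation x = 1) : ∃ n : ℕ, 0 < n ∧ A.valuation (x ^ n - 1) < 1 := by
  have hxA : x ∈ A := (A.valuation_le_one_iff x).mp hx.le
  have : Algebra.IsAlgebraic ℚ (AlgebraicClosure ℚ) := AlgebraicClosure.isAlgebraic ℚ
  have hne : IsLocalRing.residue A ⟨x, hxA⟩ ≠ 0 := by
    rw [Ne, IsLocalRing.residue_eq_zero_iff, A.valuation_lt_one_iff]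
    show ¬ A.valuation x < 1
    rw [hx]
    exact lt_irrefl _
  obtain ⟨n, hn, -, hpow⟩ := Fermat.Agent.Lib.TeichLift.exists_pow_eq_one A hl hA _ hne
  refine ⟨n, hn, ?_⟩
  have h1 : IsLocalRing.residue A ((⟨x, hxA⟩ : A) ^ n - 1) = 0 := by
    rw [map_sub, map_pow, hpow, map_one, sub_self]
  rw [IsLocalRing.residue_eq_zero_iff, A.valuation_lt_one_iff] at h1
  exact h1

/-- `A ∩ ℚ = ℤ_(l)`. -/
theorem ratCast_mem_iff (hl : l.Prime) (hA : A.LiesOverPrime l) (q : ℚ) :
    ((q : Qbar) ∈ A) ↔ q ∈ GaloisRep.ratLocalizedAt l := by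
  have hvl : A.valuation (l : Qbar) < 1 := val_prime_lt_one A hA
  have hq : (q : Qbar) * ((q.den : ℤ) : Qbar) = ((q.num : ℤ) : Qbar) := by
    have h1 : (q : Qbar) = (q.num : Qbar) / (q.den : Qbar) := by
      conv_lhs => rw [← Rat.num_div_den q]
      push_cast
      rfl
    rw [h1]
    have hden : ((q.den : ℤ) : Qbar) ≠ 0 := by
      simp
    push_cast at hden ⊢
    field_simp
  rw [mem_ratLocalizedAt_iff, ← A.valuation_le_one_iff]
  constructor
  · intro h
    by_contra hcop
    have hdvd : l ∣ q.den := by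
      by_contra hnd
      exact hcop ((Nat.Prime.coprime_iff_not_dvd hl).mpr hnd).symm
    have hden : A.valuation ((q.den : ℤ) : Qbar) < 1 := by
      obtain ⟨m, hm⟩ := hdvd
      rw [hm]
      push_cast
      rw [map_mul]
      calc A.valuation (l : Qbar) * A.valuation (m : Qbar)
          ≤ A.valuation (l : Qbar) * 1 := by
            gcongr
            exact_mod_cast val_intCast_le_one A (m : ℤ)
        _ = A.valuation (l : Qbar) := mul_one _
        _ < 1 := hvl
    have hnum : A.valuation ((q.num : ℤ) : Qbar) < 1 := by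
      rw [← hq, map_mul]
      calc A.valuation (q : Qbar) * A.valuation ((q.den : ℤ) : Qbar)
          ≤ 1 * A.valuation ((q.den : ℤ) : Qbar) := by gcongr
        _ = A.valuation ((q.den : ℤ) : Qbar) := one_mul _
        _ < 1 := hden
    have hnumdvd : (l : ℤ) ∣ q.num := by
      by_contra hnd
      rw [val_intCast_eq_one A.valuation hl hvl hnd] at hnum
      exact lt_irrefl _ hnum
    have h2 : l ∣ q.num.natAbs := Int.natCast_dvd.mp hnumdvd
    exact hl.one_lt.ne' (Nat.eq_one_of_dvd_coprimes q.reduced h2 hdvd)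
  · intro hcop
    have hnd : ¬ (l : ℤ) ∣ (q.den : ℤ) := by
      intro h
      have h2 : l ∣ q.den := Int.natCast_dvd_natCast.mp h
      have h3 : l ∣ Nat.gcd q.den l := Nat.dvd_gcd h2 dvd_rfl
      rw [hcop] at h3
      exact hl.one_lt.ne' (Nat.dvd_one.mp h3)
    have hden : A.valuation ((q.den : ℤ) : Qbar) = 1 := val_intCast_eq_one A.valuation hl hvl hnd
    have h1 : A.valuation (q : Qbar) = A.valuation ((q.num : ℤ) : Qbar) := by
      rw [← hq, map_mul, hden, mul_one]
    rw [h1]
    exact val_intCast_le_one A _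

end Val

end Fermat.Agent.Lib.FinFlat.DescentGlobal
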