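import Mathlib
import Fermat.Agent.Padic.LocalOrderD
import Fermat.Agent.Lib.FinFlat.OrderOps
import Fermat.Agent.Lib.TeichLift
import Fermat.Agent.Lib.GalQbar
import Fermat.Agent.PT.G.ValConj
import Fermat.Agent.Lib.FinFlat.DescentGlobalA

set_option autoImplicit false

namespace Fermat.Agent.Lib.FinFlat.DescentGlobal

open Fermat.Agent.Lib.FrobeniusExists (val_le_one_of_isIntegral val_intCast_eq_one)

/-! ## Part B: the approximation element `θ` -/

section Theta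

open scoped Pointwise

attribute [local instance] Fermat.Agent.Lib.GalQbar.isAlgClosure_rat
  Fermat.Agent.Lib.GalQbar.isGalois_rat Fermat.Agent.Lib.GalQbar.normal_rat
  Fermat.Agent.Lib.GalQbar.isAlgebraic_rat

variable (A : ValuationSubring Qbar) {l : ℕ}

theorem val_prod_sub_one_lt {ι : Type*} (s : Finset ι) (y : ι → Qbar)
    (h1 : ∀ i ∈ s, A.valuation (y i - 1) < 1) (h2 : ∀ i ∈ s, A.valuation (y i) ≤ 1) :
    A.valuation (∏ i ∈ s, y i - 1) < 1 := by
  classical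
  induction s using Finset.induction_on with
  | empty => simp
  | insert a s ha ih =>
    rw [Finset.prod_insert ha]
    have e : y a * ∏ i ∈ s, y i - 1 = (y a - 1) * ∏ i ∈ s, y i + (∏ i ∈ s, y i - 1) := by ring
    rw [e]
    refine lt_of_le_of_lt (Valuation.map_add _ _ _) (max_lt ?_ ?_)
    · rw [map_mul, map_prod]
      exact mul_lt_one_of_lt_of_le (h1 a (Finset.mem_insert_self a s))
        (Finset.prod_le_one' fun i hi => h2 i (Finset.mem_insert_of_mem hi))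
    · exact ih (fun i hi => h1 i (Finset.mem_insert_of_mem hi))
        (fun i hi => h2 i (Finset.mem_insert_of_mem hi))

theorem val_prod_lt_one {ι : Type*} (s : Finset ι) (y : ι → Qbar) {i₀ : ι} (hi₀ : i₀ ∈ s)
    (h1 : A.valuation (y i₀) < 1) (h2 : ∀ i ∈ s, A.valuation (y i) ≤ 1) :
    A.valuation (∏ i ∈ s, y i) < 1 := by
  classical
  rw [← Finset.mul_prod_erase s y hi₀, map_mul, map_prod]
  exact mul_lt_one_of_lt_of_le h1
    (Finset.prod_le_one' fun i hi => h2 i (Finset.mem_of_mem_erase hi))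

/-- The decomposition group preserves the maximal ideal. -/
theorem val_lt_one_iff_of_mem_decomp {d : GQ} (hd : d ∈ A.decompositionSubgroup ℚ) (x : Qbar) :
    A.valuation (d x) < 1 ↔ A.valuation x < 1 := by
  have h := Fermat.Agent.PT.G.smul_valuation_lt_one_iff d⁻¹ A x
  have hd' : d⁻¹ • A = A := (A.decompositionSubgroup ℚ).inv_mem hd
  rw [hd', inv_inv] at h
  exact h.symm

/-- `τ` is not in `G_M · D`. -/
def Bad (M : IntermediateField ℚ Qbar) (τ : GQ) : Prop :=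
  ¬ ∃ u ∈ M.fixingSubgroup, u * τ ∈ A.decompositionSubgroup ℚ

theorem exists_sep (hl : l.Prime) (hA : A.LiesOverPrime l) (M : IntermediateField ℚ Qbar)
    (τ : GQ) (hτ : Bad A M τ) :
    ∃ y : Qbar, y ∈ M ∧ IsIntegral ℤ y ∧ A.valuation (y - 1) < 1 ∧ A.valuation (τ⁻¹ y) < 1 := by
  have h := mt
    (Fermat.Agent.PT.G.exists_mem_fixingSubgroup_mul_mem_decompositionSubgroup hl A hA M τ) hτ
  push Not at h
  obtain ⟨x, hxint, hx⟩ := h
  have hxint' : IsIntegral ℤ (x : Qbar) := by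
    rw [← isIntegral_algebraMap_iff (FaithfulSMul.algebraMap_injective M Qbar)] at hxint
    exact hxint
  rcases hx with ⟨h1, h2⟩ | ⟨h1, h2⟩
  · have h3 : A.valuation (x : Qbar) = 1 :=
      le_antisymm (val_le_one_of_isIntegral _ hxint') h2
    obtain ⟨n, hn, hpow⟩ := exists_pow_sub_one_lt A hl hA h3
    refine ⟨(x : Qbar) ^ n, pow_mem x.2 n, hxint'.pow n, hpow, ?_⟩
    rw [map_pow, map_pow]
    exact pow_lt_one' h1 hn.ne'
  · have hτint : IsIntegral ℤ (τ⁻¹ (x : Qbar)) := map_isIntegral_int τ⁻¹ hxint'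
    have h3 : A.valuation (τ⁻¹ (x : Qbar)) = 1 :=
      le_antisymm (val_le_one_of_isIntegral _ hτint) h1
    obtain ⟨n, hn, hpow⟩ := exists_pow_sub_one_lt A hl hA h3
    refine ⟨1 - (x : Qbar) ^ n, sub_mem (one_mem _) (pow_mem x.2 n),
      isIntegral_one.sub (hxint'.pow n), ?_, ?_⟩
    · have e : 1 - (x : Qbar) ^ n - 1 = -((x : Qbar) ^ n) := by ring
      rw [e, Valuation.map_neg, map_pow]
      exact pow_lt_one' h2 hn.ne'
    · rw [map_sub, map_one, map_pow, Valuation.map_sub_swap]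
      exact hpow

/-- Right coset representatives of the open subgroup `G_M`. -/
theorem exists_reps (M : IntermediateField ℚ Qbar) [FiniteDimensional ℚ M] :
    ∃ T : Finset GQ, ∀ τ : GQ, ∃ t ∈ T, ∃ h ∈ M.fixingSubgroup, τ = h * t := by
  classical
  have hidx : M.fixingSubgroup.index ≠ 0 := by
    rw [← IntermediateField.finrank_eq_fixingSubgroup_index Qbar M]
    exact Module.finrank_pos.ne'
  have : M.fixingSubgroup.FiniteIndex := ⟨hidx⟩
  have : Finite (GQ ⧸ M.fixingSubgroup) := Subgroup.finite_quotient_of_finiteIndex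
  have := Fintype.ofFinite (GQ ⧸ M.fixingSubgroup)
  refine ⟨Finset.univ.image (fun q : GQ ⧸ M.fixingSubgroup => (Quotient.out q)⁻¹), fun τ => ?_⟩
  refine ⟨(Quotient.out ((τ⁻¹ : GQ) : GQ ⧸ M.fixingSubgroup))⁻¹,
    Finset.mem_image.mpr ⟨_, Finset.mem_univ _, rfl⟩,
    τ * Quotient.out ((τ⁻¹ : GQ) : GQ ⧸ M.fixingSubgroup), ?_, by group⟩
  have h1 : (((τ⁻¹ : GQ) : GQ ⧸ M.fixingSubgroup)) =
      ((Quotient.out ((τ⁻¹ : GQ) : GQ ⧸ M.fixingSubgroup) : GQ) : GQ ⧸ M.fixingSubgroup) :=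
    (QuotientGroup.out_eq' _).symm
  have h2 := QuotientGroup.eq.mp h1
  rwa [inv_inv] at h2

theorem map_mem_of_normal (M : IntermediateField ℚ Qbar) [Normal ℚ M] (σ : GQ) {x : Qbar}
    (hx : x ∈ M) : σ x ∈ M := by
  have h := IntermediateField.normal_iff_forall_map_le'.mp (inferInstance : Normal ℚ M) σ
  exact h ((IntermediateField.mem_map M).mpr ⟨x, hx, rfl⟩)

theorem fixingSubgroup_apply (M : IntermediateField ℚ Qbar) {h : GQ} (hh : h ∈ M.fixingSubgroup)
    {x : Qbar} (hx : x ∈ M) : h x = x :=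
  (IntermediateField.mem_fixingSubgroup_iff M h).mp hh x hx

theorem finite_conj (x : Qbar) : (Set.range (fun σ : GQ => σ x)).Finite := by
  have hx : IsIntegral ℚ x := (Algebra.IsAlgebraic.isAlgebraic x).isIntegral
  refine ((minpoly ℚ x).rootSet_finite Qbar).subset ?_
  rintro _ ⟨σ, rfl⟩
  rw [Polynomial.mem_rootSet]
  refine ⟨minpoly.ne_zero hx, ?_⟩
  have h1 : minpoly ℚ (σ x) = minpoly ℚ x := minpoly.algEquiv_eq σ x
  rw [← h1]
  exact minpoly.aeval ℚ (σ x)

theorem exists_theta_aux (hl : l.Prime) (hA : A.LiesOverPrime l)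
    (M : IntermediateField ℚ Qbar) [FiniteDimensional ℚ M] [Normal ℚ M] :
    ∃ θ : Qbar, θ ∈ M ∧ IsIntegral ℤ θ ∧ (∀ d ∈ A.decompositionSubgroup ℚ, d θ = θ) ∧
      A.valuation (θ - 1) < 1 ∧ ∀ τ, Bad A M τ → A.valuation (τ⁻¹ θ) < 1 := by
  classical
  obtain ⟨T, hT⟩ := exists_reps M
  choose! y hyM hyint hy1 hyτ using (fun τ (hτ : Bad A M τ) => exists_sep A hl hA M τ hτ)
  set θ₁ := ∏ t ∈ T.filter (Bad A M), y t with hθ₁
  have hθ₁M : θ₁ ∈ M := prod_mem fun t ht => hyM t (Finset.mem_filter.mp ht).2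
  have hθ₁int : IsIntegral ℤ θ₁ :=
    IsIntegral.prod _ fun t ht => hyint t (Finset.mem_filter.mp ht).2
  have hθ₁1 : A.valuation (θ₁ - 1) < 1 :=
    val_prod_sub_one_lt A _ _ (fun t ht => hy1 t (Finset.mem_filter.mp ht).2)
      (fun t ht => val_le_one_of_isIntegral _ (hyint t (Finset.mem_filter.mp ht).2))
  have hθ₁bad : ∀ τ, Bad A M τ → A.valuation (τ⁻¹ θ₁) < 1 := by
    intro τ hτ
    obtain ⟨t, htT, h, hh, rfl⟩ := hT τ
    have htbad : Bad A M t := by
      rintro ⟨u, hu, hut⟩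
      refine hτ ⟨u * h⁻¹, mul_mem hu (inv_mem hh), ?_⟩
      rwa [mul_assoc, inv_mul_cancel_left]
    have e : (h * t)⁻¹ θ₁ = t⁻¹ θ₁ := by
      rw [mul_inv_rev]
      show t⁻¹ (h⁻¹ θ₁) = t⁻¹ θ₁
      rw [fixingSubgroup_apply M (inv_mem hh) hθ₁M]
    rw [e, hθ₁, map_prod]
    exact val_prod_lt_one A _ _ (Finset.mem_filter.mpr ⟨htT, htbad⟩) (hyτ t htbad)
      (fun t' ht' => val_le_one_of_isIntegral _
        (map_isIntegral_int t⁻¹ (hyint t' (Finset.mem_filter.mp ht').2)))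
  -- the product of the `D`-conjugates
  have hfin : (Set.range (fun d : A.decompositionSubgroup ℚ => (d : GQ) θ₁)).Finite := by
    refine (finite_conj θ₁).subset ?_
    rintro _ ⟨d, rfl⟩
    exact ⟨d, rfl⟩
  set S := hfin.toFinset with hSdef
  have hS : ∀ x, x ∈ S ↔ ∃ d ∈ A.decompositionSubgroup ℚ, d θ₁ = x := by
    intro x
    rw [hSdef, Set.Finite.mem_toFinset]
    constructor
    · rintro ⟨d, rfl⟩
      exact ⟨d, d.2, rfl⟩
    · rintro ⟨d, hd, rfl⟩
      exact ⟨⟨d, hd⟩, rfl⟩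
  have hSint : ∀ x ∈ S, IsIntegral ℤ x := by
    intro x hx
    obtain ⟨d, -, rfl⟩ := (hS x).mp hx
    exact map_isIntegral_int d hθ₁int
  have hθ₁S : θ₁ ∈ S := (hS θ₁).mpr ⟨1, one_mem _, rfl⟩
  refine ⟨∏ x ∈ S, x, ?_, ?_, ?_, ?_, ?_⟩
  · refine prod_mem fun x hx => ?_
    obtain ⟨d, -, rfl⟩ := (hS x).mp hx
    exact map_mem_of_normal M d hθ₁M
  · exact IsIntegral.prod _ hSint
  · intro d hd
    rw [map_prod]
    have himg : S.image d = S := by
      apply Finset.eq_of_subset_of_card_le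
      · intro x hx
        obtain ⟨x', hx', rfl⟩ := Finset.mem_image.mp hx
        obtain ⟨d', hd', rfl⟩ := (hS x').mp hx'
        exact (hS _).mpr ⟨d * d', mul_mem hd hd', rfl⟩
      · rw [Finset.card_image_of_injective _ d.injective]
    conv_rhs => rw [← himg]
    rw [Finset.prod_image fun x _ x' _ h => d.injective h]
  · refine val_prod_sub_one_lt A S (fun x => x) ?_ ?_
    · intro x hx
      obtain ⟨d, hd, rfl⟩ := (hS x).mp hx
      have e : d θ₁ - 1 = d (θ₁ - 1) := by rw [map_sub, map_one]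
      rw [e, val_lt_one_iff_of_mem_decomp A hd]
      exact hθ₁1
    · exact fun x hx => val_le_one_of_isIntegral _ (hSint x hx)
  · intro τ hτ
    rw [map_prod]
    exact val_prod_lt_one A S (fun x => τ⁻¹ x) hθ₁S (hθ₁bad τ hτ)
      (fun x hx => val_le_one_of_isIntegral _ (map_isIntegral_int τ⁻¹ (hSint x hx)))

/-- **The approximation element**: `θ ∈ M`, fixed by the decomposition group, `≡ 1` modulo
`l^K` at `A` and `≡ 0` modulo `l^K` at all the other conjugates of `A` relative to `M`. -/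
theorem exists_theta (hl : l.Prime) (hA : A.LiesOverPrime l)
    (M : IntermediateField ℚ Qbar) [FiniteDimensional ℚ M] [Normal ℚ M] (K : ℕ) :
    ∃ θ : Qbar, θ ∈ M ∧ (∀ d ∈ A.decompositionSubgroup ℚ, d θ = θ) ∧
      A.valuation (θ - 1) ≤ A.valuation (l : Qbar) ^ K ∧
      ∀ τ, Bad A M τ → A.valuation (τ⁻¹ θ) ≤ A.valuation (l : Qbar) ^ K := by
  classical
  obtain ⟨θ₂, hM, hint, hD, h1, hbad⟩ := exists_theta_aux A hl hA M
  obtain ⟨T, hT⟩ := exists_reps M
  have hex : ∀ t : GQ, ∃ n : ℕ, Bad A M t →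
      A.valuation (t⁻¹ θ₂) ^ n ≤ A.valuation (l : Qbar) ^ K := by
    intro t
    by_cases ht : Bad A M t
    · obtain ⟨n, hn⟩ := exists_pow_le_prime A hl hA (hbad t ht)
      exact ⟨n * K, fun _ => by rw [pow_mul]; exact pow_le_pow_left' hn K⟩
    · exact ⟨0, fun h => absurd h ht⟩
  choose n hn using hex
  obtain ⟨n₀, hn₀⟩ := exists_pow_le_prime A hl hA h1
  have hθ₂le : A.valuation θ₂ ≤ 1 := val_le_one_of_isIntegral _ hint
  refine ⟨1 - (1 - θ₂ ^ (T.sup n)) ^ (n₀ * K), ?_, ?_, ?_, ?_⟩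
  · exact sub_mem (one_mem _) (pow_mem (sub_mem (one_mem _) (pow_mem hM _)) _)
  · intro d hd
    rw [map_sub, map_one, map_pow, map_sub, map_one, map_pow, hD d hd]
  · have e : 1 - (1 - θ₂ ^ (T.sup n)) ^ (n₀ * K) - 1 = -((1 - θ₂ ^ (T.sup n)) ^ (n₀ * K)) := by
      ring
    rw [e, Valuation.map_neg, map_pow]
    have h2 : A.valuation (1 - θ₂ ^ (T.sup n)) ≤ A.valuation (θ₂ - 1) := by
      rw [← mul_neg_geom_sum θ₂ (T.sup n), map_mul, Valuation.map_sub_swap]
      have h3 : A.valuation (∑ i ∈ Finset.range (T.sup n), θ₂ ^ i) ≤ 1 := by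
        refine Valuation.map_sum_le _ fun i _ => ?_
        rw [map_pow]
        exact pow_le_one' hθ₂le i
      calc A.valuation (θ₂ - 1) * A.valuation (∑ i ∈ Finset.range (T.sup n), θ₂ ^ i)
          ≤ A.valuation (θ₂ - 1) * 1 := by gcongr
        _ = A.valuation (θ₂ - 1) := mul_one _
    calc A.valuation (1 - θ₂ ^ (T.sup n)) ^ (n₀ * K)
        ≤ A.valuation (θ₂ - 1) ^ (n₀ * K) := pow_le_pow_left' h2 _
      _ = (A.valuation (θ₂ - 1) ^ n₀) ^ K := pow_mul _ _ _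
      _ ≤ A.valuation (l : Qbar) ^ K := pow_le_pow_left' hn₀ K
  · intro τ hτ
    obtain ⟨t, htT, h, hh, rfl⟩ := hT τ
    have htbad : Bad A M t := by
      rintro ⟨u, hu, hut⟩
      refine hτ ⟨u * h⁻¹, mul_mem hu (inv_mem hh), ?_⟩
      rwa [mul_assoc, inv_mul_cancel_left]
    have e : (h * t)⁻¹ θ₂ = t⁻¹ θ₂ := by
      rw [mul_inv_rev]
      show t⁻¹ (h⁻¹ θ₂) = t⁻¹ θ₂
      rw [fixingSubgroup_apply M (inv_mem hh) hM]
    have e3 : (h * t)⁻¹ (1 - (1 - θ₂ ^ (T.sup n)) ^ (n₀ * K)) =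
        1 - (1 - (t⁻¹ θ₂) ^ (T.sup n)) ^ (n₀ * K) := by
      rw [← e]
      simp only [map_sub, map_one, map_pow]
    rw [e3]
    set z := t⁻¹ θ₂ with hz
    have hzint : IsIntegral ℤ z := map_isIntegral_int t⁻¹ hint
    have hzle : A.valuation z ≤ 1 := val_le_one_of_isIntegral _ hzint
    have e2 : 1 - (1 - z ^ (T.sup n)) ^ (n₀ * K) =
        z ^ (T.sup n) * ∑ i ∈ Finset.range (n₀ * K), (1 - z ^ (T.sup n)) ^ i := by
      rw [← mul_neg_geom_sum (1 - z ^ (T.sup n)) (n₀ * K)]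
      ring
    rw [e2, map_mul, map_pow]
    have h3 : A.valuation (∑ i ∈ Finset.range (n₀ * K), (1 - z ^ (T.sup n)) ^ i) ≤ 1 := by
      refine Valuation.map_sum_le _ fun i _ => ?_
      exact val_le_one_of_isIntegral _ ((isIntegral_one.sub (hzint.pow _)).pow i)
    calc A.valuation z ^ (T.sup n) *
          A.valuation (∑ i ∈ Finset.range (n₀ * K), (1 - z ^ (T.sup n)) ^ i)
        ≤ A.valuation z ^ (T.sup n) * 1 := by gcongr
      _ = A.valuation z ^ (T.sup n) := mul_one _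
      _ ≤ A.valuation z ^ (n t) := pow_le_pow_right_of_le_one' hzle (Finset.le_sup htT)
      _ ≤ A.valuation (l : Qbar) ^ K := hn t htbad

end Theta

end Fermat.Agent.Lib.FinFlat.DescentGlobal
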