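import Mathlib
import Fermat.Agent.Lib.FinFlat.DescentGlobalB

set_option autoImplicit false

namespace Fermat.Agent.Lib.FinFlat.DescentGlobal

open Fermat.Agent.Lib.FrobeniusExists (val_le_one_of_isIntegral val_intCast_eq_one)

/-! ## Part C: averaging a `D`-equivariant function to a Galois-equivariant one -/

section Average

attribute [local instance] Fermat.Agent.Lib.GalQbar.isAlgClosure_rat
  Fermat.Agent.Lib.GalQbar.isGalois_rat Fermat.Agent.Lib.GalQbar.normal_rat
  Fermat.Agent.Lib.GalQbar.isAlgebraic_rat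

variable {V : Type} (act : GQ → V → V)

/-- The twisted action of the Galois group on functions `V → ℚ̄`. -/
noncomputable def twist (τ : GQ) (φ : V → Qbar) : V → Qbar := fun v => τ (φ (act τ⁻¹ v))

theorem twist_apply (τ : GQ) (φ : V → Qbar) (v : V) : twist act τ φ v = τ (φ (act τ⁻¹ v)) := rfl

theorem gal_apply_inv_apply (σ : GQ) (x : Qbar) : σ (σ⁻¹ x) = x := by
  rw [← AlgEquiv.mul_apply, mul_inv_cancel, AlgEquiv.one_apply]

theorem gal_inv_apply_apply (σ : GQ) (x : Qbar) : σ⁻¹ (σ x) = x := by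
  rw [← AlgEquiv.mul_apply, inv_mul_cancel, AlgEquiv.one_apply]

variable {act}

theorem twist_one (h1 : ∀ v, act 1 v = v) (φ : V → Qbar) : twist act 1 φ = φ := by
  funext v
  rw [twist_apply, inv_one, h1, AlgEquiv.one_apply]

theorem twist_mul (hmul : ∀ σ τ v, act (σ * τ) v = act σ (act τ v)) (σ τ : GQ)
    (φ : V → Qbar) : twist act (σ * τ) φ = twist act σ (twist act τ φ) := by
  funext v
  rw [twist_apply, twist_apply, twist_apply, mul_inv_rev, hmul, AlgEquiv.mul_apply]

theorem twist_injective (h1 : ∀ v, act 1 v = v)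
    (hmul : ∀ σ τ v, act (σ * τ) v = act σ (act τ v)) (σ : GQ) :
    Function.Injective (twist act σ) := by
  intro φ ψ h
  have h2 := congrArg (twist act σ⁻¹) h
  rwa [← twist_mul hmul, ← twist_mul hmul, inv_mul_cancel, twist_one h1, twist_one h1] at h2

theorem act_inv_act (h1 : ∀ v, act 1 v = v)
    (hmul : ∀ σ τ v, act (σ * τ) v = act σ (act τ v)) (σ : GQ) (v : V) :
    act σ⁻¹ (act σ v) = v := by
  rw [← hmul, inv_mul_cancel, h1]

theorem act_act_inv (h1 : ∀ v, act 1 v = v)
    (hmul : ∀ σ τ v, act (σ * τ) v = act σ (act τ v)) (σ : GQ) (v : V) :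
    act σ (act σ⁻¹ v) = v := by
  rw [← hmul, mul_inv_cancel, h1]

variable (A : ValuationSubring Qbar) {l : ℕ}

/-- **Averaging.** A `D`-equivariant `A`-valued function is congruent modulo `l^K` to a
Galois-equivariant function. -/
theorem exists_equivariant_approx (hl : l.Prime) (hA : A.LiesOverPrime l) [Finite V]
    (h1 : ∀ v, act 1 v = v) (hmul : ∀ σ τ v, act (σ * τ) v = act σ (act τ v))
    (hlev : ∃ L : IntermediateField ℚ Qbar, FiniteDimensional ℚ L ∧
      ∀ σ : GQ, (∀ x ∈ L, σ x = x) → ∀ v, act σ v = v)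
    (f : V → Qbar) (hfA : ∀ v, f v ∈ A)
    (hfD : ∀ σ ∈ A.decompositionSubgroup ℚ, ∀ v, f (act σ v) = σ (f v)) (K : ℕ) :
    ∃ g : V → Qbar, (∀ (σ : GQ) (v : V), g (act σ v) = σ (g v)) ∧
      ∀ v, A.valuation (g v - f v) ≤ A.valuation (l : Qbar) ^ K := by
  classical
  obtain ⟨L, hLfin, hL⟩ := hlev
  have := Fintype.ofFinite V
  have hvl : A.valuation (l : Qbar) < 1 := val_prime_lt_one A hA
  -- the finite Galois extension `M`
  have hadj : FiniteDimensional ℚ (IntermediateField.adjoin ℚ (Set.range f)) :=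
    IntermediateField.finiteDimensional_adjoin fun x _ =>
      (Algebra.IsAlgebraic.isAlgebraic x).isIntegral
  set E : IntermediateField ℚ Qbar := L ⊔ IntermediateField.adjoin ℚ (Set.range f) with hE
  have hEfin : FiniteDimensional ℚ E := IntermediateField.finiteDimensional_sup _ _
  set M : IntermediateField ℚ Qbar := IntermediateField.normalClosure ℚ E Qbar with hMdef
  have hEM : E ≤ M := IntermediateField.le_normalClosure E
  have hMfin : FiniteDimensional ℚ M := normalClosure.is_finiteDimensional ℚ E Qbar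
  have hMnorm : Normal ℚ M := normalClosure.normal ℚ E Qbar
  have hMact : ∀ h ∈ M.fixingSubgroup, ∀ v, act h v = v := fun h hh =>
    hL h fun x hx => fixingSubgroup_apply M hh (hEM ((le_sup_left : L ≤ E) hx))
  have hMf : ∀ h ∈ M.fixingSubgroup, ∀ v, h (f v) = f v := fun h hh v =>
    fixingSubgroup_apply M hh (hEM ((le_sup_right : _ ≤ E)
      (IntermediateField.subset_adjoin ℚ _ ⟨v, rfl⟩)))
  obtain ⟨T, hT⟩ := exists_reps M
  -- a bound for the denominators of the conjugates of the values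
  have hexj : ∀ (t : GQ) (v : V), ∃ j : ℕ, A.valuation ((l : Qbar) ^ j * t (f v)) ≤ 1 := by
    intro t v
    by_cases h0 : t (f v) = 0
    · exact ⟨0, by rw [h0, mul_zero, map_zero]; exact zero_le_one⟩
    · obtain ⟨j, hj⟩ := exists_prime_pow_le A hl hA (inv_ne_zero h0)
      refine ⟨j, ?_⟩
      rw [map_mul, map_pow]
      rw [map_inv₀] at hj
      calc A.valuation (l : Qbar) ^ j * A.valuation (t (f v))
          ≤ (A.valuation (t (f v)))⁻¹ * A.valuation (t (f v)) := by gcongr
        _ = 1 := inv_mul_cancel₀ ((Valuation.ne_zero_iff _).mpr h0)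
  choose jf hjf using hexj
  set j : ℕ := T.sup (fun t => Finset.univ.sup (jf t⁻¹)) with hj
  have hjbound : ∀ t ∈ T, ∀ w : V, A.valuation ((l : Qbar) ^ j * t⁻¹ (f w)) ≤ 1 := by
    intro t ht w
    have h2 : jf t⁻¹ w ≤ j :=
      le_trans (Finset.le_sup (f := jf t⁻¹) (Finset.mem_univ w))
        (Finset.le_sup (f := fun t => Finset.univ.sup (jf t⁻¹)) ht)
    obtain ⟨d, hd⟩ := Nat.exists_eq_add_of_le h2
    rw [hd, pow_add, mul_right_comm, map_mul, map_pow _ _ d]
    calc A.valuation ((l : Qbar) ^ jf t⁻¹ w * t⁻¹ (f w)) * A.valuation (l : Qbar) ^ d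
        ≤ 1 * 1 := mul_le_mul' (hjf t⁻¹ w) (pow_le_one' hvl.le d)
      _ = 1 := one_mul 1
  obtain ⟨θ, hθM, hθD, hθ1, hθbad⟩ := exists_theta A hl hA M (K + j)
  set φ : V → Qbar := fun v => θ * f v with hφ
  have hφM : ∀ h ∈ M.fixingSubgroup, twist act h φ = φ := by
    intro h hh
    funext v
    show h (θ * f (act h⁻¹ v)) = θ * f v
    rw [hMact h⁻¹ (inv_mem hh), map_mul, fixingSubgroup_apply M hh hθM, hMf h hh]
  have hφD : ∀ d ∈ A.decompositionSubgroup ℚ, twist act d φ = φ := by
    intro d hd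
    funext v
    show d (θ * f (act d⁻¹ v)) = θ * f v
    rw [hfD d⁻¹ (inv_mem hd), map_mul, hθD d hd, gal_apply_inv_apply]
  set Ω : Finset (V → Qbar) := T.image (fun t => twist act t⁻¹ φ) with hΩdef
  have hΩ : ∀ σ : GQ, twist act σ φ ∈ Ω := by
    intro σ
    obtain ⟨t, htT, h, hh, hσ⟩ := hT σ⁻¹
    have e : σ = t⁻¹ * h⁻¹ := by rw [← mul_inv_rev, ← hσ, inv_inv]
    rw [e, twist_mul hmul, hφM h⁻¹ (inv_mem hh)]
    exact Finset.mem_image.mpr ⟨t, htT, rfl⟩
  have hφΩ : φ ∈ Ω := by
    have := hΩ 1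
    rwa [twist_one h1] at this
  refine ⟨∑ ψ ∈ Ω, ψ, ?_, ?_⟩
  · have hfix : ∀ σ : GQ, twist act σ (∑ ψ ∈ Ω, ψ) = ∑ ψ ∈ Ω, ψ := by
      intro σ
      have hsum : twist act σ (∑ ψ ∈ Ω, ψ) = ∑ ψ ∈ Ω, twist act σ ψ := by
        funext v
        simp only [twist_apply, Finset.sum_apply, map_sum]
      have himg : Ω.image (twist act σ) = Ω := by
        apply Finset.eq_of_subset_of_card_le
        · intro ψ hψ
          obtain ⟨ψ', hψ', rfl⟩ := Finset.mem_image.mp hψ
          obtain ⟨t, -, rfl⟩ := Finset.mem_image.mp hψ'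
          rw [← twist_mul hmul]
          exact hΩ _
        · rw [Finset.card_image_of_injective _ (twist_injective h1 hmul σ)]
      rw [hsum]
      conv_rhs => rw [← himg]
      rw [Finset.sum_image fun x _ y _ h => twist_injective h1 hmul σ h]
    intro σ v
    have h2 := congrFun (hfix σ) (act σ v)
    rw [twist_apply, act_inv_act h1 hmul] at h2
    exact h2.symm
  · intro v
    have hsplit : (∑ ψ ∈ Ω, ψ) v - f v = (φ v - f v) + ∑ ψ ∈ Ω.erase φ, ψ v := by
      rw [← Finset.add_sum_erase Ω _ hφΩ, Pi.add_apply, Finset.sum_apply]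
      ring
    rw [hsplit]
    refine le_trans (Valuation.map_add _ _ _) (max_le ?_ ?_)
    · have e : φ v - f v = (θ - 1) * f v := by
        simp only [hφ]
        ring
      rw [e, map_mul]
      calc A.valuation (θ - 1) * A.valuation (f v)
          ≤ A.valuation (l : Qbar) ^ (K + j) * 1 :=
            mul_le_mul' hθ1 ((A.valuation_le_one_iff _).mpr (hfA v))
        _ = A.valuation (l : Qbar) ^ K * A.valuation (l : Qbar) ^ j := by rw [mul_one, pow_add]
        _ ≤ A.valuation (l : Qbar) ^ K * 1 := mul_le_mul' le_rfl (pow_le_one' hvl.le j)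
        _ = A.valuation (l : Qbar) ^ K := mul_one _
    · refine Valuation.map_sum_le _ fun ψ hψ => ?_
      obtain ⟨hne, hψΩ⟩ := Finset.mem_erase.mp hψ
      obtain ⟨t, htT, rfl⟩ := Finset.mem_image.mp hψΩ
      have htbad : Bad A M t := by
        rintro ⟨u, hu, hut⟩
        apply hne
        have e : t⁻¹ = (u * t)⁻¹ * u := by group
        rw [e, twist_mul hmul, hφM u hu, hφD _ (inv_mem hut)]
      show A.valuation (t⁻¹ (θ * f (act t⁻¹⁻¹ v))) ≤ _
      rw [inv_inv, map_mul, map_mul]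
      calc A.valuation (t⁻¹ θ) * A.valuation (t⁻¹ (f (act t v)))
          ≤ A.valuation (l : Qbar) ^ (K + j) * A.valuation (t⁻¹ (f (act t v))) :=
            mul_le_mul' (hθbad t htbad) le_rfl
        _ = A.valuation (l : Qbar) ^ K * A.valuation ((l : Qbar) ^ j * t⁻¹ (f (act t v))) := by
            rw [map_mul, map_pow, pow_add, mul_assoc]
        _ ≤ A.valuation (l : Qbar) ^ K * 1 := mul_le_mul' le_rfl (hjbound t htT _)
        _ = A.valuation (l : Qbar) ^ K := mul_one _

end Average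

end Fermat.Agent.Lib.FinFlat.DescentGlobal
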