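import Mathlib
import Fermat.Agent.Lib.FinFlat.DescentGlobalC

set_option autoImplicit false

open scoped TensorProduct

namespace Fermat.Agent.Lib.FinFlat.DescentGlobal

open Fermat.Agent.Lib.FrobeniusExists (val_le_one_of_isIntegral val_intCast_eq_one)

/-! ## Part D: the lattice `Λ = A[s]` -/

section Lattice

variable (A : ValuationSubring Qbar) {l : ℕ} {V : Type}

/-- Elements of the algebra generated by `A`-valued functions are `A`-valued. -/
theorem adjoin_apply_mem (s : Set (V → Qbar)) (hs : ∀ f ∈ s, ∀ v, f v ∈ A) :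
    ∀ f ∈ Algebra.adjoin A s, ∀ v, f v ∈ A := by
  intro f hf
  induction hf using Algebra.adjoin_induction with
  | mem f hf => exact hs f hf
  | algebraMap r => exact fun v => r.2
  | add f g _ _ hf hg => exact fun v => A.add_mem _ _ (hf v) (hg v)
  | mul f g _ _ hf hg => exact fun v => A.mul_mem _ _ (hf v) (hg v)

theorem smul_apply_eq (a : A) (g : V → Qbar) (v : V) : (a • g) v = (a : Qbar) * g v := rfl

theorem algebraMap_apply_eq (a : A) (v : V) : algebraMap A (V → Qbar) a v = (a : Qbar) := rfl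

/-- An `A`-valued function on a finite set is integral over `A`. -/
theorem isIntegral_of_forall_mem [Finite V] (f : V → Qbar) (hf : ∀ v, f v ∈ A) :
    IsIntegral A f := by
  classical
  have := Fintype.ofFinite V
  refine ⟨∏ v, (Polynomial.X - Polynomial.C (⟨f v, hf v⟩ : A)),
    Polynomial.monic_prod_of_monic _ _ fun v _ => Polynomial.monic_X_sub_C _, ?_⟩
  rw [← Polynomial.aeval_def, map_prod]
  funext w
  rw [Finset.prod_apply, Pi.zero_apply]
  refine Finset.prod_eq_zero (Finset.mem_univ w) ?_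
  rw [map_sub, Polynomial.aeval_X, Polynomial.aeval_C, Pi.sub_apply, algebraMap_apply_eq]
  exact sub_self _

/-- Separation gives a conductor: a nonzero `c` with `c • A^V ⊆ A[s]`. -/
theorem exists_conductor [Finite V] (s : Set (V → Qbar)) (hs : ∀ f ∈ s, ∀ v, f v ∈ A)
    (hsep : ∀ v w : V, (∀ f ∈ s, f v = f w) → v = w) :
    ∃ c : Qbar, c ≠ 0 ∧ ∀ f : V → Qbar, (∀ v, f v ∈ A) →
      (fun v => c * f v) ∈ Algebra.adjoin A s := by
  classical
  have := Fintype.ofFinite V
  have hex : ∀ v w : V, ∃ f : V → Qbar, f ∈ Algebra.adjoin A s ∧ (v ≠ w → f v ≠ f w) := by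
    intro v w
    by_cases hvw : v = w
    · exact ⟨0, zero_mem _, fun h => absurd hvw h⟩
    · have h2 : ¬ ∀ f ∈ s, f v = f w := fun h => hvw (hsep v w h)
      push Not at h2
      obtain ⟨f, hf, hne⟩ := h2
      exact ⟨f, Algebra.subset_adjoin hf, fun _ => hne⟩
  choose F hFmem hFne using hex
  have hΛA := adjoin_apply_mem A s hs
  set e : V → V → Qbar := fun v => ∏ w ∈ Finset.univ.erase v,
    (F v w - algebraMap A (V → Qbar) ⟨F v w w, hΛA _ (hFmem v w) w⟩) with he
  have heΛ : ∀ v, e v ∈ Algebra.adjoin A s := fun v =>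
    prod_mem fun w _ => sub_mem (hFmem v w) (Subalgebra.algebraMap_mem _ _)
  have he_apply : ∀ v u, e v u = ∏ w ∈ Finset.univ.erase v, (F v w u - F v w w) := by
    intro v u
    show (∏ w ∈ Finset.univ.erase v,
      (F v w - algebraMap A (V → Qbar) ⟨F v w w, hΛA _ (hFmem v w) w⟩)) u = _
    rw [Finset.prod_apply]
    rfl
  have he_ne : ∀ v u, u ≠ v → e v u = 0 := by
    intro v u huv
    rw [he_apply]
    exact Finset.prod_eq_zero (Finset.mem_erase.mpr ⟨huv, Finset.mem_univ u⟩) (sub_self _)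
  have hc_ne : ∀ v, e v v ≠ 0 := by
    intro v
    rw [he_apply, Finset.prod_ne_zero_iff]
    intro w hw
    exact sub_ne_zero.mpr (hFne v w (Finset.ne_of_mem_erase hw).symm)
  have hcA : ∀ v, e v v ∈ A := fun v => hΛA _ (heΛ v) v
  refine ⟨∏ v, e v v, Finset.prod_ne_zero_iff.mpr fun v _ => hc_ne v, fun f hf => ?_⟩
  have key : (fun u => (∏ v, e v v) * f u) =
      ∑ v, (⟨(∏ u ∈ Finset.univ.erase v, e u u) * f v,
        A.mul_mem _ _ (prod_mem fun u _ => hcA u) (hf v)⟩ : A) • e v := by
    funext u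
    rw [Finset.sum_apply, Finset.sum_eq_single u]
    · rw [smul_apply_eq]
      show (∏ v, e v v) * f u = ((∏ u' ∈ Finset.univ.erase u, e u' u') * f u) * e u u
      rw [← Finset.mul_prod_erase Finset.univ (fun v => e v v) (Finset.mem_univ u)]
      ring
    · intro v _ hvu
      rw [smul_apply_eq, he_ne v u (Ne.symm hvu), mul_zero]
    · intro h
      exact absurd (Finset.mem_univ u) h
  rw [key]
  exact sum_mem fun v _ => Subalgebra.smul_mem _ (heΛ v) _

/-- The conductor contains a power of `l`. -/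
theorem exists_pow_conductor (hl : l.Prime) (hA : A.LiesOverPrime l) [Finite V]
    (s : Set (V → Qbar)) (hs : ∀ f ∈ s, ∀ v, f v ∈ A)
    (hsep : ∀ v w : V, (∀ f ∈ s, f v = f w) → v = w) :
    ∃ k : ℕ, ∀ f : V → Qbar, (∀ v, f v ∈ A) →
      (fun v => (l : Qbar) ^ k * f v) ∈ Algebra.adjoin A s := by
  obtain ⟨c, hc0, hc⟩ := exists_conductor A s hs hsep
  obtain ⟨k, hk⟩ := exists_prime_pow_le A hl hA hc0
  refine ⟨k, fun f hf => ?_⟩
  have hvc : A.valuation c ≠ 0 := (Valuation.ne_zero_iff _).mpr hc0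
  have hmem : (l : Qbar) ^ k / c ∈ A := by
    rw [← A.valuation_le_one_iff, map_div₀, map_pow]
    exact (div_le_one₀ (zero_lt_iff.mpr hvc)).mpr hk
  have h2 := hc (fun v => (l : Qbar) ^ k / c * f v) (fun v => A.mul_mem _ _ hmem (hf v))
  have e : (fun v => (l : Qbar) ^ k * f v) = fun v => c * ((l : Qbar) ^ k / c * f v) := by
    funext v
    field_simp
  rw [e]
  exact h2

section Comul

variable [AddCommGroup V]

/-- Pull back a function along the addition `V × V → V`, over `A`. -/
noncomputable def addPull : (V → Qbar) →ₐ[A] (V × V → Qbar) :=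
  AlgHom.pi (fun vw : V × V => Pi.evalAlgHom A (fun _ : V => Qbar) (vw.1 + vw.2))

theorem addPull_apply (f : V → Qbar) (vw : V × V) : addPull A f vw = f (vw.1 + vw.2) := rfl

/-- The functions whose comultiplication is a finite sum of products of elements of `Λ`. -/
noncomputable def comulA (Λ : Subalgebra A (V → Qbar)) : Subalgebra A (V → Qbar) :=
  (boxMap Λ.val Λ.val).range.comap (addPull A)

theorem mem_comulA_iff (Λ : Subalgebra A (V → Qbar)) (f : V → Qbar) :
    f ∈ comulA A Λ ↔ ∃ (n : ℕ) (g h : Fin n → Λ), ∀ v w : V,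
      f (v + w) = ∑ i, (g i : V → Qbar) v * (h i : V → Qbar) w := by
  constructor
  · intro hf
    obtain ⟨t, ht⟩ := (AlgHom.mem_range _).mp ((Subalgebra.mem_comap _ _ _).mp hf)
    obtain ⟨n, g, h, rfl⟩ := exists_fin_sum_tmul t
    refine ⟨n, g, h, fun v w => ?_⟩
    have h1 := congrFun ht (v, w)
    rw [map_sum, Finset.sum_apply] at h1
    rw [addPull_apply] at h1
    rw [← h1]
    exact Finset.sum_congr rfl fun i _ => by rw [boxMap_tmul]; rfl
  · rintro ⟨n, g, h, hgh⟩
    refine (Subalgebra.mem_comap _ _ _).mpr ((AlgHom.mem_range _).mpr ⟨∑ i, g i ⊗ₜ[A] h i, ?_⟩)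
    funext vw
    rw [map_sum, Finset.sum_apply, addPull_apply, hgh]
    exact Finset.sum_congr rfl fun i _ => by rw [boxMap_tmul]; rfl

end Comul

end Lattice

end Fermat.Agent.Lib.FinFlat.DescentGlobal
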