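import Mathlib
import Fermat.Agent.Lib.FinFlat.DescentGlobalD

set_option autoImplicit false

open scoped TensorProduct

namespace Fermat.Agent.Lib.FinFlat.DescentGlobal

open Fermat.Agent.Lib.FrobeniusExists (val_le_one_of_isIntegral val_intCast_eq_one)

/-! ## Part E: the descent -/

section Main

variable (A : ValuationSubring Qbar) {l : ℕ} {V : Type}

theorem algebraMap_Rp_mem (hl : l.Prime) (hA : A.LiesOverPrime l) (r : Rp l) :
    algebraMap (Rp l) Qbar r ∈ A := by
  have h1 : algebraMap (Rp l) Qbar r = ((r : ℚ) : Qbar) := by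
    rw [IsScalarTower.algebraMap_apply (Rp l) ℚ Qbar, eq_ratCast]
    rfl
  rw [h1]
  exact (ratCast_mem_iff A hl hA _).mpr r.2

/-- A Galois-fixed element of `A` comes from `ℤ_(l)`. -/
theorem exists_Rp_of_fixed_of_mem (hl : l.Prime) (hA : A.LiesOverPrime l) {x : Qbar}
    (hx : x ∈ A) (hfix : ∀ σ : GQ, σ x = x) : ∃ r : Rp l, algebraMap (Rp l) Qbar r = x := by
  obtain ⟨q, hq⟩ := Fermat.Agent.Lib.GalQbar.exists_ratCast_of_fixed x hfix
  have hqA : (q : Qbar) ∈ A := hq ▸ hx
  refine ⟨⟨q, (ratCast_mem_iff A hl hA q).mp hqA⟩, ?_⟩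
  rw [IsScalarTower.algebraMap_apply (Rp l) ℚ Qbar, eq_ratCast, ← hq]
  rfl

theorem smulRp_apply_eq (r : Rp l) (g : V → Qbar) (v : V) :
    (r • g) v = algebraMap (Rp l) Qbar r * g v := by
  rw [Pi.smul_apply, Algebra.smul_def]

/-- Elements of a minimal spanning family over a valuation ring are linearly independent over
the fraction field. -/
theorem linearIndependent_of_minimal (T : Finset (V → Qbar)) (N : Submodule A (V → Qbar))
    (hT : Submodule.span A (T : Set (V → Qbar)) = N)
    (hmin : ∀ T' : Finset (V → Qbar), T' ⊆ T →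
      Submodule.span A (T' : Set (V → Qbar)) = N → T.card ≤ T'.card) :
    LinearIndependent Qbar (fun t : T => (t : V → Qbar)) := by
  classical
  rw [Fintype.linearIndependent_iff]
  intro x hx
  by_contra hne
  push Not at hne
  obtain ⟨i₁, hi₁⟩ := hne
  obtain ⟨i₀, -, hmax⟩ := Finset.exists_max_image Finset.univ (fun i => A.valuation (x i))
    ⟨i₁, Finset.mem_univ _⟩
  have hx₀ : x i₀ ≠ 0 := by
    intro h0
    have h2 := hmax i₁ (Finset.mem_univ _)
    rw [h0, map_zero] at h2
    exact hi₁ ((Valuation.zero_iff _).mp (le_antisymm h2 zero_le))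
  have hvx₀ : A.valuation (x i₀) ≠ 0 := (Valuation.ne_zero_iff _).mpr hx₀
  have hratio : ∀ i, x i / x i₀ ∈ A := fun i => by
    rw [← A.valuation_le_one_iff, map_div₀]
    exact (div_le_one₀ (zero_lt_iff.mpr hvx₀)).mpr (hmax i (Finset.mem_univ _))
  have hi₀ : (i₀ : V → Qbar) = ∑ i ∈ Finset.univ.erase i₀,
      (⟨-(x i / x i₀), A.neg_mem _ (hratio i)⟩ : A) • (i : V → Qbar) := by
    rw [← Finset.add_sum_erase Finset.univ _ (Finset.mem_univ i₀)] at hx
    funext v
    have hv := congrFun hx v
    simp only [Pi.add_apply, Pi.smul_apply, Finset.sum_apply, smul_eq_mul, Pi.zero_apply] at hv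
    rw [Finset.sum_apply]
    have h3 : (i₀ : V → Qbar) v =
        -(∑ i ∈ Finset.univ.erase i₀, x i * (i : V → Qbar) v) / x i₀ := by
      field_simp
      linear_combination hv
    rw [h3, neg_div, Finset.sum_div, ← Finset.sum_neg_distrib]
    refine Finset.sum_congr rfl fun i _ => ?_
    rw [smul_apply_eq]
    show _ = (-(x i / x i₀)) * (i : V → Qbar) v
    ring
  have hT' : Submodule.span A ((T.erase (i₀ : V → Qbar) : Finset (V → Qbar)) : Set (V → Qbar))
      = N := by
    apply le_antisymm
    · rw [← hT]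
      exact Submodule.span_mono (Finset.coe_subset.mpr (Finset.erase_subset _ _))
    · rw [← hT, Submodule.span_le]
      intro t ht
      by_cases hti : t = (i₀ : V → Qbar)
      · have h5 : (∑ i ∈ Finset.univ.erase i₀,
            (⟨-(x i / x i₀), A.neg_mem _ (hratio i)⟩ : A) • (i : V → Qbar)) ∈
            Submodule.span A ((T.erase (i₀ : V → Qbar) : Finset (V → Qbar)) :
              Set (V → Qbar)) := by
          refine Submodule.sum_mem _ fun i hi =>
            Submodule.smul_mem _ _ (Submodule.subset_span ?_)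
          exact Finset.mem_coe.mpr (Finset.mem_erase.mpr
            ⟨fun h => (Finset.ne_of_mem_erase hi) (Subtype.ext h), i.2⟩)
        rw [← hi₀] at h5
        rw [hti]
        exact h5
      · exact Submodule.subset_span (Finset.mem_coe.mpr (Finset.mem_erase.mpr ⟨hti, ht⟩))
  have h4 := hmin (T.erase i₀) (Finset.erase_subset _ _) hT'
  rw [Finset.card_erase_of_mem i₀.2] at h4
  have hpos : 0 < T.card := Finset.card_pos.mpr ⟨i₀, i₀.2⟩
  omega

/-- A finite spanning subset contains a spanning subset which is linearly independent over the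
fraction field. -/
theorem exists_independent_spanning (T₀ : Finset (V → Qbar)) :
    ∃ T : Finset (V → Qbar), T ⊆ T₀ ∧
      Submodule.span A (T : Set (V → Qbar)) = Submodule.span A (T₀ : Set (V → Qbar)) ∧
      LinearIndependent Qbar (fun t : T => (t : V → Qbar)) := by
  classical
  have hP : ∃ n : ℕ, ∃ T : Finset (V → Qbar), T ⊆ T₀ ∧
      Submodule.span A (T : Set (V → Qbar)) = Submodule.span A (T₀ : Set (V → Qbar)) ∧
      T.card = n := ⟨T₀.card, T₀, subset_rfl, rfl, rfl⟩
  obtain ⟨T, hTsub, hTspan, hTcard⟩ := Nat.find_spec hP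
  refine ⟨T, hTsub, hTspan, linearIndependent_of_minimal A T _ hTspan fun T' hT' hspan' => ?_⟩
  rw [hTcard]
  exact Nat.find_min' hP ⟨T', hT'.trans hTsub, hspan', rfl⟩

end Main

end Fermat.Agent.Lib.FinFlat.DescentGlobal
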