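import Mathlib
import Fermat.Agent.Lib.FinFlat.DescentGlobalE

set_option autoImplicit false

open scoped TensorProduct

namespace Fermat.Agent.Lib.FinFlat.DescentGlobal

open Fermat.Agent.Lib.FrobeniusExists (val_le_one_of_isIntegral val_intCast_eq_one)

section Final

/-- **(DL-2) Global descent.** A local order at a valuation subring `A` of `ℚ̄` over `l` made of
functions equivariant for the decomposition group of `A` descends to a Hopf order over
`ℤ_(l)`. -/
theorem exists_isHopfOrder_of_hasLocalOrderD (l : ℕ) [Fact l.Prime] (A : ValuationSubring Qbar)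
    (hA : A.LiesOverPrime l) {V : Type} [AddCommGroup V] [Finite V] (act : GQ → V → V)
    (h1 : ∀ v, act 1 v = v) (hmul : ∀ σ τ v, act (σ * τ) v = act σ (act τ v))
    (hadd : ∀ σ v w, act σ (v + w) = act σ v + act σ w)
    (hlev : ∃ L : IntermediateField ℚ Qbar, FiniteDimensional ℚ L ∧
      ∀ σ : GQ, (∀ x ∈ L, σ x = x) → ∀ v, act σ v = v)
    (h : Fermat.Agent.Padic.HasLocalOrderD A V act) :
    ∃ B : Subalgebra (Rp l) (V → Qbar), IsHopfOrder l act B := by
  classical
  have hl : l.Prime := Fact.out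
  have hvl : A.valuation (l : Qbar) < 1 := val_prime_lt_one A hA
  have hlA : (l : Qbar) ∈ A := (A.valuation_le_one_iff _).mp hvl.le
  obtain ⟨s, hsfin, hs, hsep, hcomul⟩ := h
  set Λ : Subalgebra A (V → Qbar) := Algebra.adjoin A s with hΛ
  have hsA : ∀ f ∈ s, ∀ v, f v ∈ A := fun f hf => (hs f hf).1
  have hΛA : ∀ f ∈ Λ, ∀ v, f v ∈ A := adjoin_apply_mem A s hsA
  have hΛcomul : Λ ≤ comulA A Λ :=
    Algebra.adjoin_le fun f hf => (mem_comulA_iff A Λ f).mpr (hcomul f hf)
  have hΛfg : (Subalgebra.toSubmodule Λ).FG :=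
    fg_adjoin_of_finite hsfin fun f hf => isIntegral_of_forall_mem A f (hsA f hf)
  obtain ⟨k₀, hk₀⟩ := exists_pow_conductor A hl hA s hsA hsep
  -- the equivariant elements
  set B₀ : Set (V → Qbar) := {g | g ∈ Λ ∧ ∀ (σ : GQ) (v : V), g (act σ v) = σ (g v)} with hB₀
  -- Nakayama
  have hspan : Subalgebra.toSubmodule Λ ≤ Submodule.span A B₀ := by
    refine Submodule.le_of_le_smul_of_le_jacobson_bot
      (I := Ideal.span {(⟨(l : Qbar), hlA⟩ : A)}) hΛfg ?_ ?_
    · refine le_trans ?_ (IsLocalRing.maximalIdeal_le_jacobson _)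
      rw [Ideal.span_singleton_le_iff_mem, A.valuation_lt_one_iff]
      exact hvl
    · have e1 : Subalgebra.toSubmodule Λ = Submodule.span A (Submonoid.closure s : Set _) :=
        Algebra.adjoin_eq_span A s
      conv_lhs => rw [e1]
      rw [Submodule.span_le]
      intro f hf
      have hfΛ : f ∈ Λ := by
        have h2 : Submonoid.closure s ≤ Λ.toSubsemiring.toSubmonoid :=
          Submonoid.closure_le.mpr Algebra.subset_adjoin
        exact h2 hf
      have hfD : ∀ σ ∈ A.decompositionSubgroup ℚ, ∀ v, f (act σ v) = σ (f v) := by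
        intro σ hσ
        induction hf using Submonoid.closure_induction with
        | mem x hx => exact (hs x hx).2 σ hσ
        | one => intro v; simp
        | mul x y _ _ hx hy =>
          intro v
          rw [Pi.mul_apply, Pi.mul_apply, hx (Submonoid.closure_le.mpr Algebra.subset_adjoin
            (by assumption)) v, hy (Submonoid.closure_le.mpr Algebra.subset_adjoin
            (by assumption)) v, map_mul]
      obtain ⟨g, hgeq, hgf⟩ := exists_equivariant_approx A hl hA h1 hmul hlev f (hΛA f hfΛ)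
        hfD (k₀ + 1)
      set r : V → Qbar := fun v => (g v - f v) / (l : Qbar) ^ (k₀ + 1) with hr
      have hl0 : (l : Qbar) ≠ 0 := Nat.cast_ne_zero.mpr hl.ne_zero
      have hvl0 : A.valuation ((l : Qbar)) ^ (k₀ + 1) ≠ 0 :=
        pow_ne_zero _ ((Valuation.ne_zero_iff _).mpr hl0)
      have hrA : ∀ v, r v ∈ A := fun v => by
        rw [← A.valuation_le_one_iff, hr, map_div₀, map_pow]
        exact (div_le_one₀ (zero_lt_iff.mpr hvl0)).mpr (hgf v)
      have hlr : (fun v => (l : Qbar) ^ k₀ * r v) ∈ Λ := hk₀ r hrA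
      have hdiff : g - f = (⟨(l : Qbar), hlA⟩ : A) • (fun v => (l : Qbar) ^ k₀ * r v) := by
        funext v
        rw [smul_apply_eq, hr]
        show g v - f v = (l : Qbar) * ((l : Qbar) ^ k₀ * ((g v - f v) / (l : Qbar) ^ (k₀ + 1)))
        field_simp
        ring
      have hdiffI : g - f ∈ Ideal.span {(⟨(l : Qbar), hlA⟩ : A)} • Subalgebra.toSubmodule Λ := by
        rw [hdiff]
        exact Submodule.smul_mem_smul (Ideal.subset_span rfl) hlr
      have hgΛ : g ∈ Λ := by
        have e2 : g = f + (g - f) := by ring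
        rw [e2]
        exact add_mem hfΛ (Submodule.smul_le_right hdiffI)
      have e3 : f = g - (g - f) := by ring
      rw [e3]
      exact Submodule.sub_mem _ (Submodule.mem_sup_left (Submodule.subset_span ⟨hgΛ, hgeq⟩))
        (Submodule.mem_sup_right hdiffI)
  have hspan' : Submodule.span A B₀ = Subalgebra.toSubmodule Λ :=
    le_antisymm (Submodule.span_le.mpr fun g hg => hg.1) hspan
  -- an independent spanning family of equivariant elements
  obtain ⟨T₀, hT₀sub, hT₀span⟩ :=
    (Submodule.fg_span_iff_fg_span_finset_subset B₀).mp (hspan' ▸ hΛfg)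
  obtain ⟨T, hTT₀, hTspan₀, hind⟩ := exists_independent_spanning A T₀
  have hTsub : ∀ t : T, (t : V → Qbar) ∈ B₀ := fun t => hT₀sub (hTT₀ t.2)
  have hTspan : Submodule.span A (T : Set (V → Qbar)) = Subalgebra.toSubmodule Λ := by
    rw [hTspan₀, ← hT₀span, hspan']
  -- expansions in the family `T`
  have hexp : ∀ f ∈ Λ, ∃ a : T → A, ∀ v, f v = ∑ t : T, (a t : Qbar) * (t : V → Qbar) v := by
    intro f hf
    have h2 : f ∈ Submodule.span A (Set.range (fun t : T => (t : V → Qbar))) := by
      have e : Set.range (fun t : T => (t : V → Qbar)) = (T : Set (V → Qbar)) := by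
        ext x
        simp
      rw [e, hTspan]
      exact hf
    obtain ⟨a, ha⟩ := (Submodule.mem_span_range_iff_exists_fun A).mp h2
    refine ⟨a, fun v => ?_⟩
    rw [← ha, Finset.sum_apply]
    rfl
  -- Galois-fixed coefficients lie in `ℤ_(l)`
  have hcoef : ∀ f ∈ B₀, ∃ c : T → Rp l,
      ∀ v, f v = ∑ t : T, algebraMap (Rp l) Qbar (c t) * (t : V → Qbar) v := by
    intro f hf
    obtain ⟨a, ha⟩ := hexp f hf.1
    have hfix : ∀ (σ : GQ) (t : T), σ (a t : Qbar) = a t := by
      intro σ
      have hrel : ∑ t : T, (σ (a t : Qbar) - (a t : Qbar)) • (t : V → Qbar) = 0 := by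
        funext v
        simp only [Finset.sum_apply, Pi.smul_apply, smul_eq_mul, Pi.zero_apply, sub_mul,
          Finset.sum_sub_distrib]
        rw [sub_eq_zero, ← ha v]
        have e2 : σ (f (act σ⁻¹ v)) = ∑ t : T, σ (a t : Qbar) * (t : V → Qbar) v := by
          rw [ha, map_sum]
          refine Finset.sum_congr rfl fun t _ => ?_
          rw [map_mul, (hTsub t).2 σ⁻¹ v, gal_apply_inv_apply]
        rw [← e2, hf.2, gal_apply_inv_apply]
      have h3 := Fintype.linearIndependent_iff.mp hind _ hrel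
      intro t
      exact sub_eq_zero.mp (h3 t)
    have hrat : ∀ t : T, ∃ r : Rp l, algebraMap (Rp l) Qbar r = (a t : Qbar) := fun t =>
      exists_Rp_of_fixed_of_mem A hl hA (a t).2 (fun σ => hfix σ t)
    choose c hc using hrat
    refine ⟨c, fun v => ?_⟩
    rw [ha v]
    exact Finset.sum_congr rfl fun t _ => by rw [hc]
  -- the order
  let B : Subalgebra (Rp l) (V → Qbar) :=
    { carrier := B₀
      mul_mem' := by
        intro f g hf hg
        exact ⟨Λ.mul_mem hf.1 hg.1, fun σ v => by
          rw [Pi.mul_apply, Pi.mul_apply, hf.2, hg.2, map_mul]⟩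
      add_mem' := by
        intro f g hf hg
        exact ⟨Λ.add_mem hf.1 hg.1, fun σ v => by
          rw [Pi.add_apply, Pi.add_apply, hf.2, hg.2, map_add]⟩
      algebraMap_mem' := by
        intro r
        refine ⟨?_, fun σ v => ?_⟩
        · have e : algebraMap (Rp l) (V → Qbar) r =
              algebraMap A (V → Qbar) ⟨algebraMap (Rp l) Qbar r, algebraMap_Rp_mem A hl hA r⟩ := by
            funext v
            rfl
          rw [e]
          exact Subalgebra.algebraMap_mem _ _
        · rw [Pi.algebraMap_apply, Pi.algebraMap_apply,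
            IsScalarTower.algebraMap_apply (Rp l) ℚ Qbar, AlgEquiv.commutes] }
  have hBmem : ∀ f, f ∈ B ↔ f ∈ B₀ := fun f => Iff.rfl
  refine ⟨B, ⟨?_, ?_, ?_, ?_⟩⟩
  · -- finitely generated
    refine ⟨T, le_antisymm ?_ ?_⟩
    · rw [Submodule.span_le]
      intro t ht
      exact hT₀sub (hTT₀ ht)
    · intro f hf
      obtain ⟨c, hc⟩ := hcoef f hf
      have e : f = ∑ t : T, c t • (t : V → Qbar) := by
        funext v
        rw [hc v, Finset.sum_apply]
        exact Finset.sum_congr rfl fun t _ => (smulRp_apply_eq _ _ _).symm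
      rw [e]
      exact Submodule.sum_mem _ fun t _ => Submodule.smul_mem _ _ (Submodule.subset_span t.2)
  · exact fun f hf => hf.2
  · -- separation
    intro v w hvw
    apply hsep v w
    intro f hf
    obtain ⟨a, ha⟩ := hexp f (Algebra.subset_adjoin hf)
    rw [ha v, ha w]
    exact Finset.sum_congr rfl fun t _ => by rw [hvw _ (hTsub t)]
  · -- comultiplication
    intro f hf
    obtain ⟨n, g, h', hgh⟩ := (mem_comulA_iff A Λ f).mp (hΛcomul hf.1)
    choose ag hag using fun i => hexp (g i) (g i).2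
    choose ah hah using fun i => hexp (h' i) (h' i).2
    set C : T × T → Qbar := fun p => ∑ i, (ag i p.1 : Qbar) * (ah i p.2 : Qbar) with hC
    have hCA : ∀ p, C p ∈ A := fun p =>
      sum_mem fun i _ => A.mul_mem _ _ (ag i p.1).2 (ah i p.2).2
    have hf2 : ∀ v w, f (v + w) =
        ∑ p : T × T, C p * ((p.1 : V → Qbar) v * (p.2 : V → Qbar) w) := by
      intro v w
      rw [hgh v w, Fintype.sum_prod_type]
      calc ∑ i, (g i : V → Qbar) v * (h' i : V → Qbar) w
          = ∑ i, ∑ t : T, ∑ t' : T, ((ag i t : Qbar) * (ah i t' : Qbar)) *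
              ((t : V → Qbar) v * (t' : V → Qbar) w) := by
            refine Finset.sum_congr rfl fun i _ => ?_
            rw [hag i v, hah i w, Finset.sum_mul_sum]
            exact Finset.sum_congr rfl fun t _ => Finset.sum_congr rfl fun t' _ => by ring
        _ = ∑ t : T, ∑ t' : T, ∑ i, ((ag i t : Qbar) * (ah i t' : Qbar)) *
              ((t : V → Qbar) v * (t' : V → Qbar) w) := by
            rw [Finset.sum_comm]
            exact Finset.sum_congr rfl fun t _ => Finset.sum_comm
        _ = ∑ t : T, ∑ t' : T, C (t, t') * ((t : V → Qbar) v * (t' : V → Qbar) w) := by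
            refine Finset.sum_congr rfl fun t _ => Finset.sum_congr rfl fun t' _ => ?_
            rw [hC, Finset.sum_mul]
    have hindTT : LinearIndependent Qbar (fun (p : T × T) (vw : V × V) =>
        (p.1 : V → Qbar) vw.1 * (p.2 : V → Qbar) vw.2) :=
      linearIndependent_prod _ _ hind hind
    have hCfix : ∀ (σ : GQ) (p : T × T), σ (C p) = C p := by
      intro σ
      have hrel : ∑ p : T × T, (σ (C p) - C p) •
          (fun vw : V × V => (p.1 : V → Qbar) vw.1 * (p.2 : V → Qbar) vw.2) = 0 := by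
        funext vw
        obtain ⟨v, w⟩ := vw
        simp only [Finset.sum_apply, Pi.smul_apply, smul_eq_mul, Pi.zero_apply, sub_mul,
          Finset.sum_sub_distrib]
        rw [sub_eq_zero, ← hf2 v w]
        have e : σ (f (act σ⁻¹ v + act σ⁻¹ w)) =
            ∑ p : T × T, σ (C p) * ((p.1 : V → Qbar) v * (p.2 : V → Qbar) w) := by
          rw [hf2, map_sum]
          refine Finset.sum_congr rfl fun p _ => ?_
          rw [map_mul, map_mul, (hTsub p.1).2 σ⁻¹ v, (hTsub p.2).2 σ⁻¹ w, gal_apply_inv_apply,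
            gal_apply_inv_apply]
        rw [← e, ← hadd, hf.2, gal_apply_inv_apply]
      have h3 := Fintype.linearIndependent_iff.mp hindTT _ hrel
      intro p
      exact sub_eq_zero.mp (h3 p)
    have hCrat : ∀ p : T × T, ∃ r : Rp l, algebraMap (Rp l) Qbar r = C p := fun p =>
      exists_Rp_of_fixed_of_mem A hl hA (hCA p) (fun σ => hCfix σ p)
    choose R hR using hCrat
    let e := Fintype.equivFin (T × T)
    refine ⟨Fintype.card (T × T),
      fun i => ⟨R (e.symm i) • ((e.symm i).1 : V → Qbar),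
        B.smul_mem ((hBmem _).mpr (hTsub (e.symm i).1)) _⟩,
      fun i => ⟨((e.symm i).2 : V → Qbar), (hBmem _).mpr (hTsub (e.symm i).2)⟩, fun v w => ?_⟩
    rw [hf2 v w, ← Equiv.sum_comp e.symm]
    refine Finset.sum_congr rfl fun i _ => ?_
    show C (e.symm i) * (_ * _) = (R (e.symm i) • ((e.symm i).1 : V → Qbar)) v * _
    rw [smulRp_apply_eq, hR]
    ring

/-- **(DL-2)** in the form of the finite-flat clause. -/
theorem flatClause_of_hasLocalOrderD (l : ℕ) [Fact l.Prime] (A : ValuationSubring Qbar)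
    (hA : A.LiesOverPrime l) {V : Type} [AddCommGroup V] [Finite V] (act : GQ → V → V)
    (h1 : ∀ v, act 1 v = v) (hmul : ∀ σ τ v, act (σ * τ) v = act σ (act τ v))
    (hadd : ∀ σ v w, act σ (v + w) = act σ v + act σ w)
    (hlev : ∃ L : IntermediateField ℚ Qbar, FiniteDimensional ℚ L ∧
      ∀ σ : GQ, (∀ x ∈ L, σ x = x) → ∀ v, act σ v = v)
    (h : Fermat.Agent.Padic.HasLocalOrderD A V act) :
    Fermat.Agent.Padic.FlatClause l V act := by
  obtain ⟨B, hB⟩ := exists_isHopfOrder_of_hasLocalOrderD l A hA act h1 hmul hadd hlev h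
  exact hB.exists_hopfAlgebra

/-- The same with the conclusion `HasHopfOrder`. -/
theorem hasHopfOrder_of_hasLocalOrderD (l : ℕ) [Fact l.Prime] (A : ValuationSubring Qbar)
    (hA : A.LiesOverPrime l) {V : Type} [AddCommGroup V] [Finite V] (act : GQ → V → V)
    (h1 : ∀ v, act 1 v = v) (hmul : ∀ σ τ v, act (σ * τ) v = act σ (act τ v))
    (hadd : ∀ σ v w, act σ (v + w) = act σ v + act σ w)
    (hlev : ∃ L : IntermediateField ℚ Qbar, FiniteDimensional ℚ L ∧
      ∀ σ : GQ, (∀ x ∈ L, σ x = x) → ∀ v, act σ v = v)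
    (h : Fermat.Agent.Padic.HasLocalOrderD A V act) : HasHopfOrder l act :=
  exists_isHopfOrder_of_hasLocalOrderD l A hA act h1 hmul hadd hlev h

end Final

end Fermat.Agent.Lib.FinFlat.DescentGlobal
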