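/-
PADIC (DL-1) — unramified descent of local orders (helper44, task 312).

`hasLocalOrderD_of_hasLocalOrder` : a local order on a finite Galois module `(V, act)` at a
valuation subring `A` of `ℚ̄` over `l` whose generators are equivariant for the INERTIA group
of `A` can be replaced by one whose generators are equivariant for the DECOMPOSITION group.

Proof.  The Galois group acts on functions `V → ℚ̄` by `(σ · f)(v) = σ (f (act σ⁻¹ v))`
(`tw`).  The decomposition conjugates of the given generators form a finite set `s₁`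
(`conjSet`) of inertia-equivariant `A`-valued functions, stable under the decomposition group.
A Frobenius element `φ` acts on `s₁` with some period `f`; for a primitive `(l ^ f - 1)`-th
root of unity `ζ` (inertia-fixed, `φ ζ = ζ ^ l`) the traces
`T j h = ∑ i < f, (ζ ^ (l ^ i)) ^ j * (φ ^ i · h)` are decomposition-equivariant, and the
Vandermonde matrix `((ζ ^ (l ^ i)) ^ j)` is invertible over `A`, so the `T j h` generate the
same `A`-algebra as `s₁`.
-/
import Mathlib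
import Fermat.Agent.Padic.LocalOrderD
import Fermat.Agent.Lib.TeichLift
import Fermat.Agent.TW.Local.FrobGen

set_option autoImplicit false

namespace Fermat.Agent.Lib.FinFlat.DescentUnram

open Fermat.Agent.Padic

/-! ### The twisted action on functions -/

section Twist

variable {V : Type} (act : GQ → V → V)

/-- The twisted action of the Galois group on functions `V → ℚ̄`. -/
noncomputable def tw (σ : GQ) (f : V → Qb) : V → Qb := fun v => σ (f (act σ⁻¹ v))

theorem tw_apply (σ : GQ) (f : V → Qb) (v : V) : tw act σ f v = σ (f (act σ⁻¹ v)) := rfl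

theorem tw_add (σ : GQ) (f g : V → Qb) : tw act σ (f + g) = tw act σ f + tw act σ g := by
  funext v
  simp only [tw_apply, Pi.add_apply, map_add]

theorem tw_mul (σ : GQ) (f g : V → Qb) : tw act σ (f * g) = tw act σ f * tw act σ g := by
  funext v
  simp only [tw_apply, Pi.mul_apply, map_mul]

theorem tw_sum {ι : Type} (σ : GQ) (t : Finset ι) (F : ι → V → Qb) :
    tw act σ (∑ i ∈ t, F i) = ∑ i ∈ t, tw act σ (F i) := by
  funext v
  simp only [tw_apply, Finset.sum_apply, map_sum]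

theorem tw_const (σ : GQ) (a : Qb) : tw act σ (fun _ => a) = fun _ => σ a := rfl

theorem tw_one (h1 : ∀ v, act 1 v = v) (f : V → Qb) : tw act 1 f = f := by
  funext v
  rw [tw_apply, inv_one, h1]
  rfl

theorem tw_mul_apply (hmul : ∀ σ τ v, act (σ * τ) v = act σ (act τ v)) (σ τ : GQ)
    (f : V → Qb) : tw act (σ * τ) f = tw act σ (tw act τ f) := by
  funext v
  rw [tw_apply, tw_apply, tw_apply, mul_inv_rev, hmul]
  rfl

theorem tw_pow_succ (hmul : ∀ σ τ v, act (σ * τ) v = act σ (act τ v)) (φ : GQ) (n : ℕ)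
    (f : V → Qb) : tw act (φ ^ (n + 1)) f = tw act φ (tw act (φ ^ n) f) := by
  rw [pow_succ', tw_mul_apply act hmul]

/-- A function is fixed by `σ` for the twisted action iff it is `σ`-equivariant. -/
theorem tw_eq_self_iff (h1 : ∀ v, act 1 v = v)
    (hmul : ∀ σ τ v, act (σ * τ) v = act σ (act τ v)) (σ : GQ) (f : V → Qb) :
    tw act σ f = f ↔ ∀ v, f (act σ v) = σ (f v) := by
  constructor
  · intro h v
    have h2 := congrFun h (act σ v)
    rw [tw_apply, ← hmul, inv_mul_cancel, h1] at h2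
    exact h2.symm
  · intro h
    funext v
    rw [tw_apply, ← h, ← hmul, mul_inv_cancel, h1]

theorem tw_injective (h1 : ∀ v, act 1 v = v)
    (hmul : ∀ σ τ v, act (σ * τ) v = act σ (act τ v)) (σ : GQ) :
    Function.Injective (tw act σ) := by
  intro f g hfg
  have h2 := congrArg (tw act σ⁻¹) hfg
  rwa [← tw_mul_apply act hmul, ← tw_mul_apply act hmul, inv_mul_cancel, tw_one act h1,
    tw_one act h1] at h2

end Twist

/-! ### Decomposition conjugates -/

section Conj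

variable {V : Type} (A : ValuationSubring Qb) (act : GQ → V → V)

theorem apply_mem_of_mem_decomp {τ : GQ} (hτ : τ ∈ A.decompositionSubgroup ℚ) {x : Qb}
    (hx : x ∈ A) : τ x ∈ A :=
  ((⟨τ, hτ⟩ : A.decompositionSubgroup ℚ) • (⟨x, hx⟩ : A) : A).2

/-- The set of decomposition conjugates of the elements of `s`. -/
def conjSet (s : Set (V → Qb)) : Set (V → Qb) :=
  {h | ∃ τ ∈ A.decompositionSubgroup ℚ, ∃ f ∈ s, h = tw act τ f}

theorem subset_conjSet (h1 : ∀ v, act 1 v = v) (s : Set (V → Qb)) : s ⊆ conjSet A act s :=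
  fun f hf => ⟨1, one_mem _, f, hf, (tw_one act h1 f).symm⟩

theorem tw_mem_conjSet (hmul : ∀ σ τ v, act (σ * τ) v = act σ (act τ v)) {s : Set (V → Qb)}
    {σ : GQ} (hσ : σ ∈ A.decompositionSubgroup ℚ) {h : V → Qb} (hh : h ∈ conjSet A act s) :
    tw act σ h ∈ conjSet A act s := by
  obtain ⟨τ, hτ, f, hf, rfl⟩ := hh
  exact ⟨σ * τ, mul_mem hσ hτ, f, hf, (tw_mul_apply act hmul σ τ f).symm⟩

theorem tw_pow_mem_conjSet (hmul : ∀ σ τ v, act (σ * τ) v = act σ (act τ v))
    {s : Set (V → Qb)} {σ : GQ} (hσ : σ ∈ A.decompositionSubgroup ℚ) (n : ℕ) {h : V → Qb}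
    (hh : h ∈ conjSet A act s) : tw act (σ ^ n) h ∈ conjSet A act s :=
  tw_mem_conjSet A act hmul (pow_mem hσ n) hh

theorem conjSet_finite [Finite V] {s : Set (V → Qb)} (hs : s.Finite) :
    (conjSet A act s).Finite := by
  classical
  let C : Set Qb := ⋃ f ∈ s, ⋃ v : V, (minpoly ℚ (f v)).rootSet Qb
  have hC : C.Finite :=
    hs.biUnion fun f _ => Set.finite_iUnion fun v => Polynomial.rootSet_finite _ _
  have hpi : (Set.pi Set.univ fun _ : V => C).Finite := Set.Finite.pi fun _ => hC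
  refine hpi.subset ?_
  rintro h ⟨τ, -, f, hf, rfl⟩ v -
  refine Set.mem_biUnion hf (Set.mem_iUnion.mpr ⟨act τ⁻¹ v, ?_⟩)
  have hint : IsIntegral ℚ (f (act τ⁻¹ v)) :=
    ((AlgebraicClosure.isAlgebraic ℚ).isAlgebraic _).isIntegral
  rw [Polynomial.mem_rootSet]
  refine ⟨minpoly.ne_zero hint, ?_⟩
  rw [tw_apply, Polynomial.aeval_algEquiv, AlgHom.comp_apply, minpoly.aeval]
  exact map_zero _

theorem conjSet_mem {s : Set (V → Qb)} (hs : ∀ f ∈ s, ∀ v, f v ∈ A) {h : V → Qb}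
    (hh : h ∈ conjSet A act s) (v : V) : h v ∈ A := by
  obtain ⟨τ, hτ, f, hf, rfl⟩ := hh
  exact apply_mem_of_mem_decomp A hτ (hs f hf _)

theorem conjSet_inertia (h1 : ∀ v, act 1 v = v)
    (hmul : ∀ σ τ v, act (σ * τ) v = act σ (act τ v)) {s : Set (V → Qb)}
    (hs : ∀ f ∈ s, ∀ σ ∈ A.inertiaSubgroupIn ℚ, ∀ v, f (act σ v) = σ (f v)) {h : V → Qb}
    (hh : h ∈ conjSet A act s) {σ : GQ} (hσ : σ ∈ A.inertiaSubgroupIn ℚ) :
    tw act σ h = h := by
  obtain ⟨τ, hτ, f, hf, rfl⟩ := hh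
  have hconj : τ⁻¹ * σ * τ ∈ A.inertiaSubgroupIn ℚ := by
    have := Fermat.Agent.TW.Away.conj_mem_inertiaSubgroupIn A (inv_mem hτ) hσ
    rwa [inv_inv] at this
  have h2 : tw act (τ⁻¹ * σ * τ) f = f :=
    (tw_eq_self_iff act h1 hmul _ f).mpr (hs f hf _ hconj)
  have h3 : σ * τ = τ * (τ⁻¹ * σ * τ) := by group
  rw [← tw_mul_apply act hmul, h3, tw_mul_apply act hmul, h2]

end Conj

/-! ### Roots of unity of order prime to `l` -/

section Roots

theorem not_dvd_pow_sub_one {l : ℕ} (hl : l.Prime) {f : ℕ} (hf : 0 < f) : ¬ l ∣ l ^ f - 1 := by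
  intro h
  have h1 : l ∣ l ^ f := dvd_pow_self l hf.ne'
  have h2 : 1 ≤ l ^ f := Nat.one_le_pow _ _ hl.pos
  have h3 : l ∣ l ^ f - (l ^ f - 1) := Nat.dvd_sub h1 h
  have h4 : l ^ f - (l ^ f - 1) = 1 := by omega
  rw [h4] at h3
  exact hl.one_lt.ne' (Nat.dvd_one.mp h3)

theorem pow_pow_ne {l : ℕ} (hl : l.Prime) {f : ℕ} {ζ : Qb}
    (hζ : IsPrimitiveRoot ζ (l ^ f - 1)) {i j : ℕ} (hij : i < j) (hj : j < f) :
    ζ ^ (l ^ i) ≠ ζ ^ (l ^ j) := by
  intro h
  have h2 := hl.two_le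
  have hlt : l ^ j + 2 ≤ l ^ f := by
    have h3 : l ^ (j + 1) ≤ l ^ f := Nat.pow_le_pow_right hl.pos hj
    have h4 : l ^ 1 ≤ l ^ j := Nat.pow_le_pow_right hl.pos (by omega)
    rw [pow_succ] at h3
    rw [pow_one] at h4
    nlinarith
  have hi : l ^ i < l ^ j := Nat.pow_lt_pow_right hl.one_lt hij
  have h5 := hζ.pow_inj (by omega) (by omega) h
  omega

variable (A : ValuationSubring Qb) {l : ℕ} (hl : l.Prime) (hA : A.LiesOverPrime l)

include hl hA in
/-- A Frobenius element raises roots of unity of order prime to `l` to the `l`-th power. -/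
theorem frob_root {φ : GQ} (hφ : A.IsFrobeniusAt φ l) {n : ℕ} (hn : ¬ l ∣ n) {ζ : Qb}
    (hζ : ζ ^ n = 1) : φ ζ = ζ ^ l := by
  obtain ⟨hφD, hφq⟩ := hφ
  have hn0 : 0 < n := Nat.pos_of_ne_zero (by rintro rfl; exact hn (dvd_zero l))
  have hmem : ζ ∈ A := TeichLift.mem_of_pow_eq_one A hn0 hζ
  let z : A := ⟨ζ, hmem⟩
  let g : A.decompositionSubgroup ℚ := ⟨φ, hφD⟩
  have hz : z ^ n = 1 := Subtype.ext hζ
  have h1 : IsLocalRing.residue A (g • z) = IsLocalRing.residue A (z ^ l) := by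
    rw [IsLocalRing.ResidueField.residue_smul, hφq, map_pow]
  have h2 : g • z = z ^ l :=
    TeichLift.eq_of_residue_eq A hl hA hn (by rw [← smul_pow', hz, smul_one])
      (by rw [← pow_mul, mul_comm, pow_mul, hz, one_pow]) h1
  exact congrArg Subtype.val h2

include hl hA in
theorem frob_pow_root {φ : GQ} (hφ : A.IsFrobeniusAt φ l) {n : ℕ} (hn : ¬ l ∣ n) {ζ : Qb}
    (hζ : ζ ^ n = 1) (i : ℕ) : (φ ^ i) ζ = ζ ^ (l ^ i) := by
  induction i with
  | zero => simp
  | succ i ih =>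
    rw [pow_succ', AlgEquiv.mul_apply, ih, map_pow, frob_root A hl hA hφ hn hζ, ← pow_mul,
      pow_succ']

include hl hA in
/-- Distinct roots of unity of order prime to `l` differ by a unit of `A`. -/
theorem isUnit_sub_of_pow_eq_one {n : ℕ} (hn : ¬ l ∣ n) {x y : A} (hx : x ^ n = 1)
    (hy : y ^ n = 1) (hxy : x ≠ y) : IsUnit (x - y) := by
  by_contra hu
  have h1 : x - y ∈ IsLocalRing.maximalIdeal A := hu
  have h2 : IsLocalRing.residue A x = IsLocalRing.residue A y := by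
    rw [← sub_eq_zero, ← map_sub, IsLocalRing.residue_eq_zero_iff]
    exact h1
  exact hxy (TeichLift.eq_of_residue_eq A hl hA hn hx hy h2)

end Roots

/-! ### The period of Frobenius on a finite stable set -/

section Period

variable {V : Type} (act : GQ → V → V)

theorem exists_pow_tw_eq (h1 : ∀ v, act 1 v = v)
    (hmul : ∀ σ τ v, act (σ * τ) v = act σ (act τ v)) (φ : GQ) {S : Set (V → Qb)}
    (hS : S.Finite) (hφS : ∀ h ∈ S, tw act φ h ∈ S) :
    ∃ f : ℕ, 2 ≤ f ∧ ∀ h ∈ S, tw act (φ ^ f) h = h := by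
  classical
  have : Finite S := hS.to_subtype
  let T : S → S := fun h => ⟨tw act φ h, hφS h h.2⟩
  have hT : Function.Injective T := fun a b hab =>
    Subtype.ext (tw_injective act h1 hmul φ (congrArg Subtype.val hab))
  let π : Equiv.Perm S := Equiv.ofBijective T (Finite.injective_iff_bijective.mp hT)
  have hπ : ∀ (n : ℕ) (h : S), (((π ^ n) h : S) : V → Qb) = tw act (φ ^ n) h := by
    intro n
    induction n with
    | zero =>
      intro h
      simp [tw_one act h1]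
    | succ n ih =>
      intro h
      rw [pow_succ', Equiv.Perm.mul_apply, tw_pow_succ act hmul, ← ih]
      rfl
  refine ⟨2 * orderOf π, ?_, fun h hh => ?_⟩
  · have := orderOf_pos π
    omega
  · rw [← hπ (2 * orderOf π) ⟨h, hh⟩, mul_comm, pow_mul, pow_orderOf_eq_one, one_pow]
    rfl

/-- At every finite level an element of the decomposition group acts like a power of
Frobenius on inertia-invariant data. -/
theorem exists_pow_agree {l : ℕ} (hl : l.Prime) (A : ValuationSubring Qb)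
    (hA : A.LiesOverPrime l)
    (hmul : ∀ σ τ v, act (σ * τ) v = act σ (act τ v))
    (hlev : ∃ L : IntermediateField ℚ Qb, FiniteDimensional ℚ L ∧
      ∀ σ : GQ, (∀ x ∈ L, σ x = x) → ∀ v, act σ v = v)
    {φ : GQ} (hφ : A.IsFrobeniusAt φ l) {S : Set (V → Qb)} (hS : S.Finite)
    (hSI : ∀ h ∈ S, ∀ σ ∈ A.inertiaSubgroupIn ℚ, tw act σ h = h)
    (ζ : Qb) (hζI : ∀ σ ∈ A.inertiaSubgroupIn ℚ, σ ζ = ζ) {σ : GQ}
    (hσ : σ ∈ A.decompositionSubgroup ℚ) [Finite V] :
    ∃ k : ℕ, σ ζ = (φ ^ k) ζ ∧ ∀ h ∈ S, tw act σ h = tw act (φ ^ k) h := by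
  classical
  obtain ⟨L, hL, hLact⟩ := hlev
  let X : Set Qb := {ζ} ∪ ⋃ h ∈ S, Set.range h
  have hX : X.Finite :=
    (Set.finite_singleton ζ).union (hS.biUnion fun h _ => Set.finite_range h)
  have : Finite X := hX.to_subtype
  have hF2 : FiniteDimensional ℚ (IntermediateField.adjoin ℚ X) :=
    IntermediateField.finiteDimensional_adjoin
      (fun x _ => ((AlgebraicClosure.isAlgebraic ℚ).isAlgebraic x).isIntegral)
  let F : IntermediateField ℚ Qb := L ⊔ IntermediateField.adjoin ℚ X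
  have hF : FiniteDimensional ℚ F := IntermediateField.finiteDimensional_sup L _
  have hproc := Fermat.Agent.TW.Away.procyclicAt_of_isFrobeniusAt hl A hA φ hφ
  obtain ⟨j, τ, hτ, hx⟩ := hproc F hF σ hσ
  have hXF : ∀ x ∈ X, x ∈ F := fun x hxX =>
    (le_sup_right : IntermediateField.adjoin ℚ X ≤ F) (IntermediateField.subset_adjoin ℚ X hxX)
  refine ⟨j, ?_, fun h hh => ?_⟩
  · rw [hx ζ (hXF ζ (Or.inl rfl)), AlgEquiv.mul_apply, hζI τ hτ]
  · have hact : ∀ v, act σ⁻¹ v = act (φ ^ j * τ)⁻¹ v := by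
      intro v
      have h3 : σ⁻¹ = (σ⁻¹ * (φ ^ j * τ)) * (φ ^ j * τ)⁻¹ := by group
      have h4 : ∀ x ∈ L, (σ⁻¹ * (φ ^ j * τ)) x = x := by
        intro x hxL
        rw [AlgEquiv.mul_apply, ← hx x ((le_sup_left : L ≤ F) hxL)]
        exact σ.symm_apply_apply x
      conv_lhs => rw [h3]
      rw [hmul, hLact _ h4]
    have h5 : tw act σ h = tw act (φ ^ j * τ) h := by
      funext v
      rw [tw_apply, tw_apply, hact v]
      exact hx _ (hXF _ (Or.inr (Set.mem_biUnion hh (Set.mem_range_self _))))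
    rw [h5, tw_mul_apply act hmul, hSI h hh τ hτ]

end Period

/-! ### Traces -/

section Trace

variable {V : Type} (act : GQ → V → V)

/-- The `i`-th summand of the trace `tr`. -/
noncomputable def trTerm (l : ℕ) (φ : GQ) (ζ : Qb) (j : ℕ) (h : V → Qb) (i : ℕ) : V → Qb :=
  (fun _ => (ζ ^ (l ^ i)) ^ j) * tw act (φ ^ i) h

/-- The trace `∑ i < f, (ζ ^ (l ^ i)) ^ j * (φ ^ i · h)`. -/
noncomputable def tr (l f : ℕ) (φ : GQ) (ζ : Qb) (j : ℕ) (h : V → Qb) : V → Qb :=
  ∑ i ∈ Finset.range f, trTerm act l φ ζ j h i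

variable {act}

theorem tw_trTerm (hmul : ∀ σ τ v, act (σ * τ) v = act σ (act τ v)) {l : ℕ} {φ : GQ} {ζ : Qb}
    (hφζ : ∀ i, (φ ^ i) ζ = ζ ^ (l ^ i)) (j : ℕ) (h : V → Qb) (i : ℕ) :
    tw act φ (trTerm act l φ ζ j h i) = trTerm act l φ ζ j h (i + 1) := by
  unfold trTerm
  rw [tw_mul, tw_const, ← tw_pow_succ act hmul]
  congr 1
  funext _
  rw [map_pow, ← hφζ i, ← AlgEquiv.mul_apply, ← pow_succ', hφζ]

theorem tw_tr (h1 : ∀ v, act 1 v = v) (hmul : ∀ σ τ v, act (σ * τ) v = act σ (act τ v))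
    {l f : ℕ} {φ : GQ} {ζ : Qb} (hφζ : ∀ i, (φ ^ i) ζ = ζ ^ (l ^ i))
    (hζf : ζ ^ (l ^ f) = ζ) (j : ℕ) {h : V → Qb} (hh : tw act (φ ^ f) h = h) :
    tw act φ (tr act l f φ ζ j h) = tr act l f φ ζ j h := by
  unfold tr
  rw [tw_sum]
  simp_rw [tw_trTerm hmul hφζ]
  have h0 : trTerm act l φ ζ j h f = trTerm act l φ ζ j h 0 := by
    unfold trTerm
    rw [hh, hζf, pow_zero, pow_zero, pow_one, tw_one act h1]
  have e1 := Finset.sum_range_succ (fun i => trTerm act l φ ζ j h i) f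
  have e2 := Finset.sum_range_succ' (fun i => trTerm act l φ ζ j h i) f
  rw [e1, h0] at e2
  exact (add_right_cancel e2).symm

theorem tw_pow_tr (h1 : ∀ v, act 1 v = v) (hmul : ∀ σ τ v, act (σ * τ) v = act σ (act τ v))
    {l f : ℕ} {φ : GQ} {ζ : Qb} (hφζ : ∀ i, (φ ^ i) ζ = ζ ^ (l ^ i))
    (hζf : ζ ^ (l ^ f) = ζ) (j : ℕ) {h : V → Qb} (hh : tw act (φ ^ f) h = h) (k : ℕ) :
    tw act (φ ^ k) (tr act l f φ ζ j h) = tr act l f φ ζ j h := by
  induction k with
  | zero => rw [pow_zero, tw_one act h1]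
  | succ k ih => rw [tw_pow_succ act hmul, ih, tw_tr h1 hmul hφζ hζf j hh]

/-- The trace is fixed by every `σ` which acts like a power of `φ` on `ζ` and on the
`φ`-conjugates of `h`. -/
theorem tw_tr_of_agree (h1 : ∀ v, act 1 v = v)
    (hmul : ∀ σ τ v, act (σ * τ) v = act σ (act τ v))
    {l f : ℕ} {φ : GQ} {ζ : Qb} (hφζ : ∀ i, (φ ^ i) ζ = ζ ^ (l ^ i))
    (hζf : ζ ^ (l ^ f) = ζ) (j : ℕ) {h : V → Qb} (hh : tw act (φ ^ f) h = h) {σ : GQ} {k : ℕ}
    (hσζ : σ ζ = (φ ^ k) ζ)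
    (hσ : ∀ i, tw act σ (tw act (φ ^ i) h) = tw act (φ ^ k) (tw act (φ ^ i) h)) :
    tw act σ (tr act l f φ ζ j h) = tr act l f φ ζ j h := by
  refine Eq.trans ?_ (tw_pow_tr h1 hmul hφζ hζf j hh k)
  unfold tr
  rw [tw_sum, tw_sum]
  refine Finset.sum_congr rfl fun i _ => ?_
  unfold trTerm
  rw [tw_mul, tw_mul, tw_const, tw_const, hσ i]
  congr 1
  funext _
  rw [map_pow, map_pow, map_pow, map_pow, hσζ]

theorem tr_apply_mem (A : ValuationSubring Qb) {l f : ℕ} {φ : GQ} {ζ : Qb} (hζA : ζ ∈ A)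
    (j : ℕ) {h : V → Qb} (hA : ∀ i v, tw act (φ ^ i) h v ∈ A) (v : V) :
    tr act l f φ ζ j h v ∈ A := by
  unfold tr
  rw [Finset.sum_apply]
  exact sum_mem fun i _ => mul_mem (pow_mem (pow_mem hζA _) _) (hA i v)

theorem tr_mem_adjoin (A : ValuationSubring Qb) {l f : ℕ} {φ : GQ} {ζ : Qb} (hζA : ζ ∈ A)
    (j : ℕ) {h : V → Qb} {S : Set (V → Qb)} (hS : ∀ i, tw act (φ ^ i) h ∈ S) :
    tr act l f φ ζ j h ∈ Algebra.adjoin A S := by
  unfold tr
  refine Subalgebra.sum_mem _ fun i _ => ?_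
  have e : trTerm act l φ ζ j h i
      = (⟨(ζ ^ (l ^ i)) ^ j, pow_mem (pow_mem hζA _) _⟩ : A) • tw act (φ ^ i) h := by
    funext v
    rfl
  rw [e]
  exact Subalgebra.smul_mem _ (Algebra.subset_adjoin (hS i)) _

/-- **Vandermonde inversion**: `h` is an `A`-linear combination of its traces. -/
theorem mem_adjoin_tr (h1 : ∀ v, act 1 v = v) (A : ValuationSubring Qb) {l : ℕ} (hl : l.Prime)
    (hA : A.LiesOverPrime l) {f : ℕ} (hf : 0 < f) (φ : GQ) {ζ : Qb}
    (hζ : IsPrimitiveRoot ζ (l ^ f - 1)) (h : V → Qb) :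
    h ∈ Algebra.adjoin A ((fun j => tr act l f φ ζ j h) '' Set.Iio f) := by
  classical
  have hn : ¬ l ∣ l ^ f - 1 := not_dvd_pow_sub_one hl hf
  have hm : 0 < l ^ f - 1 := Nat.pos_of_ne_zero (by rintro h0; rw [h0] at hn; exact hn (dvd_zero l))
  have hζA : ζ ∈ A := TeichLift.mem_of_pow_eq_one A hm hζ.pow_eq_one
  let z : A := ⟨ζ, hζA⟩
  have hz : z ^ (l ^ f - 1) = 1 := Subtype.ext hζ.pow_eq_one
  let w : Fin f → A := fun i => z ^ (l ^ (i : ℕ))
  have hw : ∀ i, w i ^ (l ^ f - 1) = 1 := fun i => by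
    show (z ^ (l ^ (i : ℕ))) ^ (l ^ f - 1) = 1
    rw [← pow_mul, mul_comm, pow_mul, hz, one_pow]
  let W : Matrix (Fin f) (Fin f) A := Matrix.vandermonde w
  have hdet : IsUnit W.det := by
    rw [Matrix.det_vandermonde, IsUnit.prod_univ_iff]
    intro i
    rw [IsUnit.prod_iff]
    intro j hj
    have hij : i < j := Finset.mem_Ioi.mp hj
    refine isUnit_sub_of_pow_eq_one A hl hA hn (hw j) (hw i) fun hji => ?_
    have h3 : ζ ^ (l ^ (i : ℕ)) = ζ ^ (l ^ (j : ℕ)) := (congrArg Subtype.val hji).symm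
    exact pow_pow_ne hl hζ hij j.2 h3
  have hW : ∀ i : Fin f, (∑ j : Fin f, (W i j : Qb) * ((W⁻¹ j ⟨0, hf⟩ : A) : Qb))
      = if i = ⟨0, hf⟩ then 1 else 0 := by
    intro i
    have h2 := congrFun (congrFun (Matrix.mul_nonsing_inv W hdet) i) ⟨0, hf⟩
    rw [Matrix.mul_apply, Matrix.one_apply] at h2
    have h3 := congrArg A.subtype h2
    rw [map_sum, apply_ite A.subtype, map_one, map_zero] at h3
    simp only [map_mul] at h3
    exact h3
  have key : h = ∑ j : Fin f, (W⁻¹ j ⟨0, hf⟩) • tr act l f φ ζ (j : ℕ) h := by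
    funext v
    rw [Finset.sum_apply]
    have e : ∀ j : Fin f, ((W⁻¹ j ⟨0, hf⟩) • tr act l f φ ζ (j : ℕ) h) v
        = ∑ i : Fin f, ((W i j : Qb) * ((W⁻¹ j ⟨0, hf⟩ : A) : Qb))
            * tw act (φ ^ (i : ℕ)) h v := by
      intro j
      show ((W⁻¹ j ⟨0, hf⟩ : A) : Qb) * tr act l f φ ζ (j : ℕ) h v = _
      unfold tr
      rw [Finset.sum_apply, Finset.sum_range, Finset.mul_sum]
      refine Finset.sum_congr rfl fun i _ => ?_
      show _ * ((ζ ^ (l ^ (i : ℕ))) ^ (j : ℕ) * tw act (φ ^ (i : ℕ)) h v) = _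
      have e2 : (W i j : Qb) = (ζ ^ (l ^ (i : ℕ))) ^ (j : ℕ) := rfl
      rw [e2]
      ring
    simp_rw [e]
    rw [Finset.sum_comm]
    simp_rw [← Finset.sum_mul, hW]
    simp [tw_one act h1]
  have hmem : (∑ j : Fin f, (W⁻¹ j ⟨0, hf⟩) • tr act l f φ ζ (j : ℕ) h)
      ∈ Algebra.adjoin A ((fun j => tr act l f φ ζ j h) '' Set.Iio f) := by
    refine Subalgebra.sum_mem _ fun j _ => Subalgebra.smul_mem _ (Algebra.subset_adjoin ?_) _
    exact ⟨(j : ℕ), j.2, rfl⟩
  rw [← key] at hmem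
  exact hmem

end Trace

/-! ### Comultiplication-closedness -/

section Split

variable {V : Type} [AddCommGroup V] (A : ValuationSubring Qb)

/-- The comultiplication of `F` is a finite sum of products of elements of `Λ`. -/
def Split (Λ : Subalgebra A (V → Qb)) (F : V → Qb) : Prop :=
  ∃ (n : ℕ) (g h : Fin n → Λ), ∀ v w : V,
    F (v + w) = ∑ i, (g i : V → Qb) v * (h i : V → Qb) w

variable {A}

theorem split_of_fintype {Λ : Subalgebra A (V → Qb)} {F : V → Qb} {ι : Type} [Fintype ι]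
    (g h : ι → Λ)
    (hF : ∀ v w : V, F (v + w) = ∑ i, (g i : V → Qb) v * (h i : V → Qb) w) :
    Split A Λ F := by
  classical
  let e := Fintype.equivFin ι
  refine ⟨Fintype.card ι, g ∘ e.symm, h ∘ e.symm, fun v w => ?_⟩
  rw [hF]
  exact (Equiv.sum_comp e.symm (fun i => (g i : V → Qb) v * (h i : V → Qb) w)).symm

theorem split_algebraMap (Λ : Subalgebra A (V → Qb)) (a : A) :
    Split A Λ (algebraMap A (V → Qb) a) :=
  ⟨1, fun _ => ⟨algebraMap A (V → Qb) a, Λ.algebraMap_mem a⟩, fun _ => 1, fun v w => by simp⟩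

theorem split_add {Λ : Subalgebra A (V → Qb)} {F G : V → Qb} (hF : Split A Λ F)
    (hG : Split A Λ G) : Split A Λ (F + G) := by
  obtain ⟨n, g, h, hF⟩ := hF
  obtain ⟨m, g', h', hG⟩ := hG
  refine split_of_fintype (ι := Fin n ⊕ Fin m) (Sum.elim g g') (Sum.elim h h') fun v w => ?_
  rw [Fintype.sum_sum_type, Pi.add_apply, hF, hG]
  rfl

theorem split_mul {Λ : Subalgebra A (V → Qb)} {F G : V → Qb} (hF : Split A Λ F)
    (hG : Split A Λ G) : Split A Λ (F * G) := by
  obtain ⟨n, g, h, hF⟩ := hF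
  obtain ⟨m, g', h', hG⟩ := hG
  refine split_of_fintype (ι := Fin n × Fin m) (fun p => g p.1 * g' p.2)
    (fun p => h p.1 * h' p.2) fun v w => ?_
  rw [Pi.mul_apply, hF, hG, Finset.sum_mul_sum, Fintype.sum_prod_type]
  refine Finset.sum_congr rfl fun i _ => Finset.sum_congr rfl fun j _ => ?_
  show _ = ((g i : V → Qb) v * (g' j : V → Qb) v) * ((h i : V → Qb) w * (h' j : V → Qb) w)
  ring

theorem split_of_mem_adjoin {S : Set (V → Qb)}
    (hS : ∀ F ∈ S, Split A (Algebra.adjoin A S) F) {F : V → Qb}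
    (hF : F ∈ Algebra.adjoin A S) : Split A (Algebra.adjoin A S) F := by
  induction hF using Algebra.adjoin_induction with
  | mem x hx => exact hS x hx
  | algebraMap r => exact split_algebraMap _ r
  | add x y _ _ hx hy => exact split_add hx hy
  | mul x y _ _ hx hy => exact split_mul hx hy

variable (A)

omit [AddCommGroup V] in
/-- The twisted action of an element of the decomposition group is semilinear over `A`. -/
theorem tw_mem_adjoin (act : GQ → V → V) {S S' : Set (V → Qb)} {τ : GQ}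
    (hτ : τ ∈ A.decompositionSubgroup ℚ) (hSS' : ∀ f ∈ S, tw act τ f ∈ S') {g : V → Qb}
    (hg : g ∈ Algebra.adjoin A S) : tw act τ g ∈ Algebra.adjoin A S' := by
  induction hg using Algebra.adjoin_induction with
  | mem x hx => exact Algebra.subset_adjoin (hSS' x hx)
  | algebraMap r =>
    have e : tw act τ (algebraMap A (V → Qb) r)
        = algebraMap A (V → Qb) ⟨τ r, apply_mem_of_mem_decomp A hτ r.2⟩ := by
      funext v
      rfl
    rw [e]
    exact Subalgebra.algebraMap_mem _ _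
  | add x y _ _ hx hy =>
    rw [tw_add]
    exact add_mem hx hy
  | mul x y _ _ hx hy =>
    rw [tw_mul]
    exact mul_mem hx hy

theorem split_conj (act : GQ → V → V)
    (hadd : ∀ σ v w, act σ (v + w) = act σ v + act σ w) {s : Set (V → Qb)}
    (hcomul : ∀ f ∈ s, Split A (Algebra.adjoin A s) f) {h : V → Qb}
    (hh : h ∈ conjSet A act s) : Split A (Algebra.adjoin A (conjSet A act s)) h := by
  obtain ⟨τ, hτ, f, hf, rfl⟩ := hh
  obtain ⟨n, g, k, hgk⟩ := hcomul f hf
  have hmem : ∀ x ∈ Algebra.adjoin A s, tw act τ x ∈ Algebra.adjoin A (conjSet A act s) :=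
    fun x hx => tw_mem_adjoin A act (S' := conjSet A act s) hτ
      (fun f hf => ⟨τ, hτ, f, hf, rfl⟩) hx
  refine ⟨n, fun i => ⟨tw act τ (g i), hmem _ (g i).2⟩,
    fun i => ⟨tw act τ (k i), hmem _ (k i).2⟩, fun v w => ?_⟩
  show τ (f (act τ⁻¹ (v + w)))
    = ∑ i, τ ((g i : V → Qb) (act τ⁻¹ v)) * τ ((k i : V → Qb) (act τ⁻¹ w))
  rw [hadd, hgk, map_sum]
  simp only [map_mul]

end Split

/-! ### The descent -/

/-- **Unramified descent of local orders** (DL-1): a local order with inertia-equivariant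
generators can be replaced by one with decomposition-equivariant generators. -/
theorem hasLocalOrderD_of_hasLocalOrder (l : ℕ) [Fact l.Prime] (A : ValuationSubring Qb)
    (hA : A.LiesOverPrime l) {V : Type} [AddCommGroup V] [Finite V] (act : GQ → V → V)
    (h1 : ∀ v, act 1 v = v) (hmul : ∀ σ τ v, act (σ * τ) v = act σ (act τ v))
    (hadd : ∀ σ v w, act σ (v + w) = act σ v + act σ w)
    (hlev : ∃ L : IntermediateField ℚ Qb, FiniteDimensional ℚ L ∧
      ∀ σ : GQ, (∀ x ∈ L, σ x = x) → ∀ v, act σ v = v)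
    (h : HasLocalOrder A V act) : HasLocalOrderD A V act := by
  classical
  have hl : l.Prime := Fact.out
  obtain ⟨s, hsfin, hs, hsep, hcomul⟩ := h
  -- the decomposition conjugates of the generators
  have hs₁fin : (conjSet A act s).Finite := conjSet_finite A act hsfin
  have hs₁A : ∀ h ∈ conjSet A act s, ∀ v, h v ∈ A := fun h hh =>
    conjSet_mem A act (fun f hf => (hs f hf).1) hh
  have hs₁I : ∀ h ∈ conjSet A act s, ∀ σ ∈ A.inertiaSubgroupIn ℚ, tw act σ h = h :=
    fun h hh σ hσ => conjSet_inertia A act h1 hmul (fun f hf => (hs f hf).2) hh hσ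
  -- a Frobenius element and its period on the conjugates
  obtain ⟨φ, hφ⟩ :=
    Fermat.Agent.Lib.FrobeniusExists.exists_isFrobeniusAt_of_liesOverPrime hl A hA
  have hφD : φ ∈ A.decompositionSubgroup ℚ := hφ.mem_decompositionSubgroup
  obtain ⟨f, hf2, hfper⟩ := exists_pow_tw_eq act h1 hmul φ hs₁fin
    (fun h hh => tw_mem_conjSet A act hmul hφD hh)
  have hf : 0 < f := by omega
  -- a primitive root of unity of order `l ^ f - 1`
  have hn : ¬ l ∣ l ^ f - 1 := not_dvd_pow_sub_one hl hf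
  have hm : 0 < l ^ f - 1 :=
    Nat.pos_of_ne_zero (by rintro h0; rw [h0] at hn; exact hn (dvd_zero l))
  have : NeZero ((l ^ f - 1 : ℕ) : Qb) := ⟨Nat.cast_ne_zero.mpr hm.ne'⟩
  obtain ⟨ζ, hζ⟩ := HasEnoughRootsOfUnity.exists_primitiveRoot Qb (l ^ f - 1)
  have hζ1 : ζ ^ (l ^ f - 1) = 1 := hζ.pow_eq_one
  have hζA : ζ ∈ A := TeichLift.mem_of_pow_eq_one A hm hζ1
  have hζI : ∀ σ ∈ A.inertiaSubgroupIn ℚ, σ ζ = ζ := fun σ hσ =>
    TeichLift.inertia_fixed_of_pow_eq_one A hl hA hn hζ1 hσ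
  have hφζ : ∀ i, (φ ^ i) ζ = ζ ^ (l ^ i) := frob_pow_root A hl hA hφ hn hζ1
  have hζf : ζ ^ (l ^ f) = ζ := by
    have e : l ^ f = (l ^ f - 1) + 1 := by omega
    rw [e, pow_succ, hζ1, one_mul]
  -- the new generators: the traces of the conjugates
  have hpow : ∀ (i : ℕ) {h : V → Qb}, h ∈ conjSet A act s →
      tw act (φ ^ i) h ∈ conjSet A act s := fun i _ hh =>
    tw_pow_mem_conjSet A act hmul hφD i hh
  have hadj : Algebra.adjoin A (Set.image2 (fun j h => tr act l f φ ζ j h) (Set.Iio f)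
      (conjSet A act s)) = Algebra.adjoin A (conjSet A act s) := by
    apply le_antisymm
    · refine Algebra.adjoin_le ?_
      rintro _ ⟨j, -, h, hh, rfl⟩
      exact tr_mem_adjoin A hζA j (fun i => hpow i hh)
    · refine Algebra.adjoin_le fun h hh => ?_
      refine Algebra.adjoin_mono ?_ (mem_adjoin_tr h1 A hl hA hf φ hζ h)
      rintro _ ⟨j, hj, rfl⟩
      exact ⟨j, hj, h, hh, rfl⟩
  refine ⟨Set.image2 (fun j h => tr act l f φ ζ j h) (Set.Iio f) (conjSet A act s),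
    Set.Finite.image2 _ (Set.finite_Iio f) hs₁fin, ?_, ?_, ?_⟩
  · rintro _ ⟨j, -, h, hh, rfl⟩
    refine ⟨fun v => tr_apply_mem A hζA j (fun i v => hs₁A _ (hpow i hh) v) v, fun σ hσ => ?_⟩
    rw [← tw_eq_self_iff act h1 hmul]
    obtain ⟨k, hk1, hk2⟩ := exists_pow_agree act hl A hA hmul hlev hφ hs₁fin hs₁I ζ hζI hσ
    exact tw_tr_of_agree h1 hmul hφζ hζf j (hfper h hh) hk1 (fun i => hk2 _ (hpow i hh))
  · intro v w hvw
    refine hsep v w fun g hg => ?_
    have hg' : g ∈ Algebra.adjoin A (Set.image2 (fun j h => tr act l f φ ζ j h) (Set.Iio f)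
        (conjSet A act s)) := by
      rw [hadj]
      exact Algebra.subset_adjoin (subset_conjSet A act h1 s hg)
    exact AlgHom.adjoin_le_equalizer (Pi.evalAlgHom A (fun _ : V => Qb) v)
      (Pi.evalAlgHom A (fun _ : V => Qb) w) (fun x hx => hvw x hx) hg'
  · rintro _ ⟨j, -, h, hh, rfl⟩
    have h5 : tr act l f φ ζ j h ∈ Algebra.adjoin A (conjSet A act s) :=
      tr_mem_adjoin A hζA j (fun i => hpow i hh)
    have h6 : Split A (Algebra.adjoin A (conjSet A act s)) (tr act l f φ ζ j h) :=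
      split_of_mem_adjoin (fun F hF => split_conj A act hadd hcomul hF) h5
    rw [← hadj] at h6
    exact h6

end Fermat.Agent.Lib.FinFlat.DescentUnram
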