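/-
Lib/FinFlat: the dual of a `P`-order, and the additive characters of a finite abelian group with
values in `ℚ̄`.

* `IsPOrder.dual` : the dual order `{x ∈ ℚ̄[V] | ⟨x, B⟩ ⊆ P}`, a `P`-subalgebra of the group
  algebra (`pair` is the pairing of `POrder.lean`);
* `IsPOrder.addChar_mem'` : additive characters (as `AddChar V ℚ̄`) lie in the order;
  `IsPOrder.pair_addChar_mem` : the dual order is integral at every character;
* `pair_mul_addChar`, `pair_prod_addChar` : characters are algebra homomorphisms of the group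
  algebra;
* `finite_addChar`, `exists_addChar_ne_one`, `sum_addChar_apply`, `eq_of_pair_addChar_eq` :
  finiteness, separation of points, orthogonality, and Fourier inversion (an element of the
  group algebra is determined by its character values);
* `exists_addChar_extend` : characters of a subgroup extend.
-/
import Fermat.Agent.Lib.FinFlat.Conn

set_option autoImplicit false
set_option linter.unusedSectionVars false

namespace Fermat.Agent.Lib.FinFlat

local notation "Qb" => AlgebraicClosure ℚ
local notation "GQ" => (AlgebraicClosure ℚ ≃ₐ[ℚ] AlgebraicClosure ℚ)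

variable {P : ValuationSubring Qb} {Γ : Subgroup GQ} {V : Type} [AddCommGroup V]
  {act : GQ → V → V} {B : Subalgebra P (V → Qb)}

/-! ### Additive characters -/

/-- Additive characters lie in the order. -/
theorem IsPOrder.addChar_mem' [Finite V] (hB : IsPOrder P Γ act B) (ψ : AddChar V Qb) :
    (ψ : V → Qb) ∈ B :=
  hB.addChar_mem ψ ψ.map_zero_eq_one ψ.map_add_eq_mul

theorem addChar_pow_card [Finite V] (ψ : AddChar V Qb) (v : V) : ψ v ^ Nat.card V = 1 := by
  rw [← AddChar.map_nsmul_eq_pow, card_nsmul_eq_zero', AddChar.map_zero_eq_one]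

theorem addChar_ne_zero [Finite V] (ψ : AddChar V Qb) (v : V) : ψ v ≠ 0 := by
  intro h
  have := addChar_pow_card ψ v
  rw [h, zero_pow Nat.card_pos.ne'] at this
  exact zero_ne_one this

theorem finite_addChar [Finite V] : Finite (AddChar V Qb) := by
  classical
  cases nonempty_fintype V
  let F : AddChar V Qb → (V → ↥(Polynomial.nthRootsFinset (Nat.card V) (1 : Qb))) :=
    fun ψ v => ⟨ψ v, (Polynomial.mem_nthRootsFinset Nat.card_pos 1).2 (addChar_pow_card ψ v)⟩
  refine Finite.of_injective F fun ψ φ h => ?_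
  ext v
  exact congrArg Subtype.val (congrFun h v)

/-- Additive characters separate the points of a finite abelian group. -/
theorem exists_addChar_ne_one [Finite V] {v : V} (hv : v ≠ 0) : ∃ ψ : AddChar V Qb, ψ v ≠ 1 := by
  have hexp : Monoid.exponent (Multiplicative V) ≠ 0 := Monoid.exponent_ne_zero_of_finite
  have : NeZero ((Monoid.exponent (Multiplicative V) : ℕ) : Qb) := ⟨Nat.cast_ne_zero.mpr hexp⟩
  have hv' : Multiplicative.ofAdd v ≠ 1 := fun h => hv (by simpa using h)
  obtain ⟨φ, hφ⟩ := CommGroup.exists_apply_ne_one_of_hasEnoughRootsOfUnity (Multiplicative V) Qb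
    hv'
  refine ⟨AddChar.toMonoidHomEquiv.symm ((Units.coeHom Qb).comp φ), ?_⟩
  intro h
  apply hφ
  apply Units.ext
  exact h

/-- Orthogonality: the sum of the values of all characters at a nonzero point vanishes. -/
theorem sum_addChar_apply [Finite V] [Fintype (AddChar V Qb)] {v : V} (hv : v ≠ 0) :
    ∑ ψ : AddChar V Qb, ψ v = 0 := by
  obtain ⟨ψ₀, hψ₀⟩ := exists_addChar_ne_one hv
  have h1 : ∑ ψ : AddChar V Qb, ψ v = ψ₀ v * ∑ ψ : AddChar V Qb, ψ v := by
    rw [Finset.mul_sum]
    exact (Fintype.sum_bijective (fun ψ => ψ₀ * ψ) (Group.mulLeft_bijective ψ₀) _ _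
      (fun ψ => by rw [AddChar.mul_apply])).symm
  have h2 : (ψ₀ v - 1) * ∑ ψ : AddChar V Qb, ψ v = 0 := by
    rw [sub_mul, one_mul, ← h1, sub_self]
  rcases mul_eq_zero.1 h2 with h | h
  · exact absurd (sub_eq_zero.1 h) hψ₀
  · exact h

section pairing

variable [Fintype V]

theorem pair_one (f : V → Qb) : pair (1 : AddMonoidAlgebra Qb V) f = f 0 := by
  classical
  rw [AddMonoidAlgebra.one_def, pair_single, one_mul]

theorem pair_neg (a : AddMonoidAlgebra Qb V) (f : V → Qb) : pair (-a) f = -pair a f := by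
  have := pair_smul (-1) a f
  rwa [neg_one_smul, neg_one_mul] at this

theorem pair_sub (a a' : AddMonoidAlgebra Qb V) (f : V → Qb) :
    pair (a - a') f = pair a f - pair a' f := by
  rw [sub_eq_add_neg, pair_add, pair_neg, sub_eq_add_neg]

theorem pair_mul_addChar (x y : AddMonoidAlgebra Qb V) (ψ : AddChar V Qb) :
    pair (x * y) ψ = pair x ψ * pair y ψ := by
  have := map_mul (charHom ψ ψ.map_zero_eq_one ψ.map_add_eq_mul) x y
  rwa [charHom_apply, charHom_apply, charHom_apply] at this

theorem pair_one_addChar (ψ : AddChar V Qb) : pair (1 : AddMonoidAlgebra Qb V) ψ = 1 := by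
  rw [pair_one, AddChar.map_zero_eq_one]

theorem pair_prod_addChar {ι : Type*} (s : Finset ι) (x : ι → AddMonoidAlgebra Qb V)
    (ψ : AddChar V Qb) : pair (∏ i ∈ s, x i) ψ = ∏ i ∈ s, pair (x i) ψ := by
  have := map_prod (charHom ψ ψ.map_zero_eq_one ψ.map_add_eq_mul) x s
  rw [charHom_apply] at this
  rw [this]
  exact Finset.prod_congr rfl fun i _ => charHom_apply _ _ _ _

theorem pair_algebraMap_addChar (c : Qb) (ψ : AddChar V Qb) :
    pair (algebraMap Qb (AddMonoidAlgebra Qb V) c) ψ = c := by
  have := (charHom ψ ψ.map_zero_eq_one ψ.map_add_eq_mul).commutes c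
  rw [charHom_apply] at this
  rw [this]
  rfl

/-- Fourier inversion: an element of the group algebra is determined by its character values. -/
theorem eq_of_pair_addChar_eq (x y : AddMonoidAlgebra Qb V)
    (h : ∀ ψ : AddChar V Qb, pair x ψ = pair y ψ) : x = y := by
  classical
  have := finite_addChar (V := V)
  cases nonempty_fintype (AddChar V Qb)
  have key : ∀ (z : AddMonoidAlgebra Qb V) (v : V),
      ∑ ψ : AddChar V Qb, ψ (-v) * pair z ψ = z.coeff v * (Fintype.card (AddChar V Qb) : Qb) := by
    intro z v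
    have h1 : ∀ ψ : AddChar V Qb, ψ (-v) * pair z ψ = ∑ w, z.coeff w * ψ (w - v) := by
      intro ψ
      rw [pair, Finset.mul_sum]
      refine Finset.sum_congr rfl fun w _ => ?_
      rw [sub_eq_add_neg, AddChar.map_add_eq_mul]
      ring
    rw [Finset.sum_congr rfl fun ψ _ => h1 ψ, Finset.sum_comm]
    have h2 : ∀ w : V, ∑ ψ : AddChar V Qb, z.coeff w * ψ (w - v) =
        if w = v then z.coeff v * (Fintype.card (AddChar V Qb) : Qb) else 0 := by
      intro w
      split_ifs with hw
      · subst hw
        simp only [sub_self, AddChar.map_zero_eq_one, mul_one, Finset.sum_const, Finset.card_univ,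
          nsmul_eq_mul]
        ring
      · rw [← Finset.mul_sum, sum_addChar_apply (sub_ne_zero.2 hw), mul_zero]
    rw [Finset.sum_congr rfl fun w _ => h2 w, Finset.sum_ite_eq' Finset.univ v, if_pos
      (Finset.mem_univ v)]
  have hN : (Fintype.card (AddChar V Qb) : Qb) ≠ 0 := Nat.cast_ne_zero.mpr Fintype.card_ne_zero
  refine AddMonoidAlgebra.coeff_injective (Finsupp.ext fun v => ?_)
  have h3 := key x v
  rw [Finset.sum_congr rfl fun ψ _ => by rw [h ψ], key y v] at h3
  exact (mul_right_cancel₀ hN h3).symm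

/-! ### The dual order -/

/-- The dual order of a `P`-order: the elements of the group algebra pairing integrally with
the order; a `P`-subalgebra by comultiplication. -/
def IsPOrder.dual (hB : IsPOrder P Γ act B) : Subalgebra P (AddMonoidAlgebra Qb V) where
  carrier := {x | ∀ f ∈ B, pair x f ∈ P}
  mul_mem' := by
    intro x y hx hy f hf
    obtain ⟨n, g, h, hg, hh, hfgh⟩ := hB.comul f hf
    rw [pair_mul x y f g h hfgh]
    exact P.toSubring.sum_mem fun i _ => P.mul_mem _ _ (hx _ (hg i)) (hy _ (hh i))
  one_mem' := by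
    intro f hf
    rw [pair_one]
    exact hB.integral f hf 0
  add_mem' := by
    intro x y hx hy f hf
    rw [pair_add]
    exact P.add_mem _ _ (hx f hf) (hy f hf)
  zero_mem' := by
    intro f _
    simp only [pair, AddMonoidAlgebra.coeff_zero, Finsupp.coe_zero, Pi.zero_apply, zero_mul,
      Finset.sum_const_zero]
    exact P.zero_mem
  algebraMap_mem' := by
    classical
    intro c f hf
    rw [Algebra.algebraMap_eq_smul_one, AddMonoidAlgebra.one_def]
    have : (c • (AddMonoidAlgebra.single (0 : V) (1 : Qb)) : AddMonoidAlgebra Qb V) =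
        AddMonoidAlgebra.single (0 : V) (c : Qb) := by
      rw [AddMonoidAlgebra.smul_single]
      congr 1
      rw [Algebra.smul_def, mul_one]
      rfl
    rw [this, pair_single]
    exact P.mul_mem _ _ c.2 (hB.integral f hf 0)

theorem IsPOrder.mem_dual_iff (hB : IsPOrder P Γ act B) (x : AddMonoidAlgebra Qb V) :
    x ∈ hB.dual ↔ ∀ f ∈ B, pair x f ∈ P := Iff.rfl

/-- The dual order is integral at every character. -/
theorem IsPOrder.pair_addChar_mem (hB : IsPOrder P Γ act B) {x : AddMonoidAlgebra Qb V}
    (hx : x ∈ hB.dual) (ψ : AddChar V Qb) : pair x ψ ∈ P :=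
  hx _ (hB.addChar_mem' ψ)

/-- Constants of `P` in the dual order. -/
theorem IsPOrder.single_zero_mem_dual (hB : IsPOrder P Γ act B) {c : Qb} (hc : c ∈ P) :
    AddMonoidAlgebra.single (0 : V) c ∈ hB.dual := by
  classical
  intro f hf
  rw [pair_single]
  exact P.mul_mem _ _ hc (hB.integral f hf 0)

theorem pair_single_zero_addChar (c : Qb) (ψ : AddChar V Qb) :
    pair (AddMonoidAlgebra.single (0 : V) c) ψ = c := by
  classical
  rw [pair_single, AddChar.map_zero_eq_one, mul_one]

/-- The dual basis of a basis of the function space, inside the group algebra. -/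
theorem exists_dual_basis {ι : Type} [Fintype ι] (b : Module.Basis ι Qb (V → Qb)) (i : ι) :
    ∃ a : AddMonoidAlgebra Qb V, ∀ f : V → Qb, pair a f = b.repr f i := by
  classical
  refine ⟨∑ v, AddMonoidAlgebra.single v (b.coord i (Pi.single v 1)), fun f => ?_⟩
  have hfun : f = ∑ v, f v • (Pi.single v (1 : Qb) : V → Qb) := by
    funext w
    rw [Finset.sum_apply, Finset.sum_eq_single w]
    · simp
    · intro v _ hv
      simp [Ne.symm hv]
    · intro h
      exact absurd (Finset.mem_univ w) h
  rw [pair_sum_left]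
  have h1 : b.repr f i = b.coord i f := rfl
  rw [h1]
  conv_rhs => rw [hfun, map_sum]
  refine Finset.sum_congr rfl fun v _ => ?_
  rw [pair_single, map_smul, smul_eq_mul, mul_comm]

/-- The dual basis lies in the dual order. -/
theorem IsPOrder.exists_dual_basis_mem (hB : IsPOrder P Γ act B) {ι : Type} [Fintype ι]
    (b : Module.Basis ι Qb (V → Qb)) (hmem : ∀ f, f ∈ B ↔ ∀ i, b.repr f i ∈ P) (i : ι) :
    ∃ a ∈ hB.dual, ∀ f : V → Qb, pair a f = b.repr f i := by
  obtain ⟨a, ha⟩ := exists_dual_basis b i
  exact ⟨a, fun f hf => by rw [ha]; exact (hmem f).1 hf i, ha⟩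

end pairing

/-! ### Extension of characters -/

/-- A character of a subgroup extends to the group. -/
theorem exists_addChar_extend [Finite V] (W : AddSubgroup V) (ψ : AddChar W Qb) :
    ∃ χ : AddChar V Qb, ∀ w : W, χ (w : V) = ψ w := by
  classical
  -- characters of `V` restricted to `W` separate the points of `W`, hence span
  have hfinV := finite_addChar (V := V)
  have hfinW := finite_addChar (V := W)
  cases nonempty_fintype (AddChar V Qb)
  cases nonempty_fintype (AddChar W Qb)
  cases nonempty_fintype V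
  by_contra hcon
  push Not at hcon
  -- the restriction map on characters
  let res : AddChar V Qb → AddChar W Qb := fun χ =>
    { toFun := fun w => χ (w : V)
      map_zero_eq_one' := by simp
      map_add_eq_mul' := fun a b => by simp [AddChar.map_add_eq_mul] }
  have hres : ∀ χ : AddChar V Qb, res χ ≠ ψ := by
    intro χ h
    obtain ⟨w, hw⟩ := hcon χ
    exact hw (by rw [← h]; rfl)
  -- `S := ∑_χ (res χ)⁻¹ ψ` as a function on `W`, evaluated by orthogonality
  have horth : ∀ w : W, (w : V) ≠ 0 → ∑ χ : AddChar V Qb, χ (w : V) = 0 := fun w hw =>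
    sum_addChar_apply hw
  -- count: `∑_w ψ(-w) ∑_χ χ(w) = card (AddChar V)` (only `w = 0` contributes)
  have h1 : ∑ w : W, ψ (-w) * ∑ χ : AddChar V Qb, χ (w : V) =
      (Fintype.card (AddChar V Qb) : Qb) := by
    rw [Finset.sum_eq_single (0 : W)]
    · simp [Finset.card_univ]
    · intro w _ hw
      rw [horth w (fun h => hw (Subtype.ext h)), mul_zero]
    · intro h
      exact absurd (Finset.mem_univ _) h
  -- but each `∑_w ψ(-w) χ(w) = 0` since `res χ ≠ ψ`
  have h2 : ∀ χ : AddChar V Qb, ∑ w : W, ψ (-w) * χ (w : V) = 0 := by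
    intro χ
    have hne : res χ * ψ⁻¹ ≠ 1 := by
      intro h
      exact hres χ (mul_inv_eq_one.1 h)
    obtain ⟨w₀, hw₀⟩ : ∃ w₀ : W, (res χ * ψ⁻¹) w₀ ≠ 1 := by
      by_contra hall
      push Not at hall
      exact hne (DFunLike.ext _ _ fun w => by rw [hall w, AddChar.one_apply])
    have hsum : ∑ w : W, (res χ * ψ⁻¹) w = (res χ * ψ⁻¹) w₀ * ∑ w : W, (res χ * ψ⁻¹) w := by
      rw [Finset.mul_sum]
      exact (Fintype.sum_bijective (fun w => w₀ + w) (AddGroup.addLeft_bijective w₀) _ _
        (fun w => by rw [AddChar.map_add_eq_mul])).symm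
    have hz : ∑ w : W, (res χ * ψ⁻¹) w = 0 := by
      have h3 : ((res χ * ψ⁻¹) w₀ - 1) * ∑ w : W, (res χ * ψ⁻¹) w = 0 := by
        rw [sub_mul, one_mul, ← hsum, sub_self]
      rcases mul_eq_zero.1 h3 with h | h
      · exact absurd (sub_eq_zero.1 h) hw₀
      · exact h
    rw [← hz]
    refine Finset.sum_congr rfl fun w _ => ?_
    rw [AddChar.mul_apply, AddChar.inv_apply, mul_comm]
    rfl
  have h4 : ∑ w : W, ψ (-w) * ∑ χ : AddChar V Qb, χ (w : V) = 0 := by
    have : ∀ w : W, ψ (-w) * ∑ χ : AddChar V Qb, χ (w : V) =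
        ∑ χ : AddChar V Qb, ψ (-w) * χ (w : V) := fun w => Finset.mul_sum _ _ _
    rw [Finset.sum_congr rfl fun w _ => this w, Finset.sum_comm]
    exact Finset.sum_eq_zero fun χ _ => h2 χ
  rw [h4] at h1
  exact (Nat.cast_ne_zero.mpr Fintype.card_ne_zero : (Fintype.card (AddChar V Qb) : Qb) ≠ 0)
    h1.symm

end Fermat.Agent.Lib.FinFlat
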