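/-
Lib/FinFlat/Fontaine: Fontaine's counting lemmas for `P`-orders (FLAT-T1), literal forms.

Standing hypotheses: `P` a valuation subring of `Qb = AlgebraicClosure ℚ` in which the prime `p`
is a non-unit, `V` a finite abelian group killed by `p`, `B` a `P`-order on `V` (`IsPOrder`),
`c ∈ P` with `c ^ (p - 1) = p * m` for a non-unit `m` of `P`.  "`x ≡ y` modulo `d`" is written
`∃ t ∈ P, x - y = d * t`.

* `IsPOrder.eq_of_forall_congr` (INJ) : points of `V` which are congruent modulo `c` on all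
  equivariant elements of the order are equal;
* `IsPOrder.exists_point_of_approx_hom` (SURJ) : a linear functional which is a ring homomorphism
  `B → P` modulo `p c` is congruent modulo `c` to the evaluation at a point of `V`;
* `IsPOrder.fontaine` (FC) : a ring homomorphism `η : S → P` modulo `p c`, which is the identity
  modulo `p c` on the `Γ`-fixed elements of `P`, induces an additive map `φ : V → V` with
  `f (φ v) ≡ η (f v)` modulo `c` (with invariance and injectivity criteria).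
-/
import Mathlib
import Fermat.Agent.Lib.FinFlat.POrder
import Fermat.Agent.Lib.FinFlat.Fontaine.Val
import Fermat.Agent.Lib.FinFlat.Fontaine.Lev
import Fermat.Agent.Lib.FinFlat.Fontaine.Char
import Fermat.Agent.Lib.FinFlat.Fontaine.Surj
import Fermat.Agent.Lib.FinFlat.Fontaine.Frob

set_option autoImplicit false

namespace Fermat.Agent.Lib.FinFlat

open Fontaine

local notation "Qb" => AlgebraicClosure ℚ
local notation "GQ" => (AlgebraicClosure ℚ ≃ₐ[ℚ] AlgebraicClosure ℚ)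

variable {P : ValuationSubring Qb} {Γ : Subgroup GQ} {V : Type} [AddCommGroup V] [Finite V]
  {act : GQ → V → V} {B : Subalgebra P (V → Qb)}

/-- **(INJ).** Two points of `V` which are congruent modulo `c` on all equivariant elements of
the order are equal. -/
theorem IsPOrder.eq_of_forall_congr (hB : IsPOrder P Γ act B) {p : ℕ} (hp : p.Prime)
    (hpV : ∀ v : V, p • v = 0) {c : Qb}
    (hc : ∃ m ∈ P, m⁻¹ ∉ P ∧ c ^ (p - 1) = (p : Qb) * m) {v w : V}
    (h : ∀ f ∈ B, Equivar Γ act f → ∃ t ∈ P, f v - f w = c * t) : v = w := by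
  cases nonempty_fintype V
  obtain ⟨m, hmP, hmP', hcm⟩ := hc
  obtain ⟨-, hm⟩ := (nonunit_iff P m).mp ⟨hmP, hmP'⟩
  exact eq_of_forall_val hB hp hpV hcm hm (fun f hfB hf => (pdvd_iff P _ _).mp (h f hfB hf))

/-- **(SURJ).** A linear functional on the functions on `V` which is a ring homomorphism
`B → P` modulo `p c` is congruent modulo `c` to the evaluation at a point of `V`. -/
theorem IsPOrder.exists_point_of_approx_hom (hB : IsPOrder P Γ act B) {p : ℕ} (hp : p.Prime)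
    (hpP : (p : Qb) ∈ P) (hpP' : (p : Qb)⁻¹ ∉ P) (hpV : ∀ v : V, p • v = 0) {c : Qb}
    (hc : ∃ m ∈ P, m⁻¹ ∉ P ∧ c ^ (p - 1) = (p : Qb) * m)
    (y : (V → Qb) →ₗ[Qb] Qb) (hyP : ∀ f ∈ B, y f ∈ P)
    (hy1 : ∃ t ∈ P, y 1 - 1 = (p : Qb) * c * t)
    (hymul : ∀ f ∈ B, ∀ g ∈ B, ∃ t ∈ P, y (f * g) - y f * y g = (p : Qb) * c * t) :
    ∃ v : V, ∀ f ∈ B, ∃ t ∈ P, y f - f v = c * t := by
  cases nonempty_fintype V
  obtain ⟨m, hmP, hmP', hcm⟩ := hc
  obtain ⟨hm0, hm⟩ := (nonunit_iff P m).mp ⟨hmP, hmP'⟩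
  obtain ⟨-, hpv⟩ := (nonunit_iff P (p : Qb)).mp ⟨hpP, hpP'⟩
  obtain ⟨v₀, hv₀⟩ := exists_point_val hB hp hpv hpV hcm hm0 hm y
    (fun f hf => (P.valuation_le_one_iff _).mpr (hyP f hf)) ((pdvd_iff P _ _).mp hy1)
    (fun f hf g hg => (pdvd_iff P _ _).mp (hymul f hf g hg))
  exact ⟨v₀, fun f hf => (pdvd_iff P _ _).mpr (hv₀ f hf)⟩

/-- **(FC), Fontaine's lifting.** Let `Γ` act additively on `V`, let `S` be a subring of `Qb`
containing the values of the equivariant elements of the order, and let `η : S → P` be a ring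
homomorphism modulo `p c` which is the identity modulo `p c` on the `Γ`-fixed elements of `P`.
Then there is an additive `φ : V → V` with `f (φ v) ≡ η (f v)` modulo `c` for all equivariant
`f ∈ B`; `φ v` is fixed by every `σ ∈ Γ` preserving `P` with `σ ∘ η ≡ η` modulo `c`, and `φ` is
injective if `η` reflects divisibility by `c`. -/
theorem IsPOrder.fontaine (hB : IsPOrder P Γ act B) {p : ℕ} (hp : p.Prime)
    (hpP : (p : Qb) ∈ P) (hpP' : (p : Qb)⁻¹ ∉ P) (hpV : ∀ v : V, p • v = 0) {c : Qb}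
    (hc : ∃ m ∈ P, m⁻¹ ∉ P ∧ c ^ (p - 1) = (p : Qb) * m)
    (hact : ∀ σ ∈ Γ, ∀ v w, act σ (v + w) = act σ v + act σ w)
    (S : Subring Qb) (η : Qb → Qb)
    (hS : ∀ f ∈ B, Equivar Γ act f → ∀ v, f v ∈ S)
    (hηP : ∀ x ∈ S, η x ∈ P) (hη1 : ∃ t ∈ P, η 1 - 1 = (p : Qb) * c * t)
    (hηadd : ∀ x ∈ S, ∀ y ∈ S, ∃ t ∈ P, η (x + y) - (η x + η y) = (p : Qb) * c * t)
    (hηmul : ∀ x ∈ S, ∀ y ∈ S, ∃ t ∈ P, η (x * y) - η x * η y = (p : Qb) * c * t)
    (hηΓ : ∀ a ∈ P, (∀ σ ∈ Γ, σ a = a) → a ∈ S ∧ ∃ t ∈ P, η a - a = (p : Qb) * c * t) :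
    ∃ φ : V → V, (∀ v w, φ (v + w) = φ v + φ w) ∧
      (∀ v, ∀ f ∈ B, Equivar Γ act f → ∃ t ∈ P, f (φ v) - η (f v) = c * t) ∧
      (∀ σ ∈ Γ, (∀ x ∈ P, σ x ∈ P) → (∀ x ∈ S, ∃ t ∈ P, σ (η x) - η x = c * t) →
        ∀ v, act σ (φ v) = φ v) ∧
      ((∀ x ∈ S, (∃ t ∈ P, η x = c * t) → ∃ t ∈ P, x = c * t) → Function.Injective φ) := by
  cases nonempty_fintype V
  obtain ⟨m, hmP, hmP', hcm⟩ := hc
  obtain ⟨hm0, hm⟩ := (nonunit_iff P m).mp ⟨hmP, hmP'⟩
  obtain ⟨-, hpv⟩ := (nonunit_iff P (p : Qb)).mp ⟨hpP, hpP'⟩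
  have hη : ApproxHom P Γ S η ((p : Qb) * c) :=
    { val_le := fun x hx => (P.valuation_le_one_iff _).mpr (hηP x hx)
      one := (pdvd_iff P _ _).mp hη1
      add := fun x hx y hy => (pdvd_iff P _ _).mp (hηadd x hx y hy)
      mul := fun x hx y hy => (pdvd_iff P _ _).mp (hηmul x hx y hy)
      fixed := fun a ha hfix => ⟨(hηΓ a ha hfix).1, (pdvd_iff P _ _).mp (hηΓ a ha hfix).2⟩ }
  obtain ⟨φ, h1, h2, h3, h4⟩ := fontaine_val hB hp hpv hpV hcm hm0 hm hact S η hS hη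
  refine ⟨φ, h1, fun v f hfB hf => (pdvd_iff P _ _).mpr (h2 v f hfB hf), ?_, ?_⟩
  · intro σ hσ hσP hση v
    exact h3 σ hσ hσP (fun x hx => (pdvd_iff P _ _).mp (hση x hx)) v
  · intro hinj
    exact h4 (fun x hx hv => (pdvd_iff P c x).mp (hinj x hx ((pdvd_iff P c (η x)).mpr hv)))

end Fermat.Agent.Lib.FinFlat
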