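/-
Lib/FinFlat: operations on `P`-orders (`IsPOrder`).

* `IsPOrder.of_span` : a `P`-subalgebra of `V → ℚ̄` with integral values and comultiplication,
  which is the `P`-span of a finite set of `Γ`-equivariant functions spanning `V → ℚ̄` over `ℚ̄`,
  is a `P`-order (a minimal spanning subset is a basis: valuation ring argument).
* `IsPOrder.pullback` : pull-back along an injective `Γ`-equivariant additive map `V' → V`
  (restriction to a stable subgroup, transport along an isomorphism).
* `IsPOrder.exists_saturation` : for a set `M` of `Γ`-equivariant additive endomorphisms of `V`,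
  closed under composition, there is an order `B' ⊇ B` stable under `f ↦ f ∘ j`, `j ∈ M`.
-/
import Fermat.Agent.Lib.FinFlat.POrder

set_option autoImplicit false
set_option linter.unusedSectionVars false

namespace Fermat.Agent.Lib.FinFlat

local notation "Qb" => AlgebraicClosure ℚ
local notation "GQ" => (AlgebraicClosure ℚ ≃ₐ[ℚ] AlgebraicClosure ℚ)

variable {P : ValuationSubring Qb} {Γ : Subgroup GQ} {V : Type} [AddCommGroup V]
  {act : GQ → V → V} {B : Subalgebra P (V → Qb)}

/-! ### Comultiplication with an arbitrary finite index type -/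

/-- `f` has a comultiplication formula with components in `B`. -/
def ComulIn (B : Subalgebra P (V → Qb)) (f : V → Qb) : Prop :=
  ∃ (ι : Type) (_ : Fintype ι) (g h : ι → V → Qb), (∀ i, g i ∈ B) ∧ (∀ i, h i ∈ B) ∧
    ∀ v w, f (v + w) = ∑ i, g i v * h i w

theorem ComulIn.fin {f : V → Qb} (hf : ComulIn B f) :
    ∃ (n : ℕ) (g h : Fin n → V → Qb), (∀ i, g i ∈ B) ∧ (∀ i, h i ∈ B) ∧
      ∀ v w, f (v + w) = ∑ i, g i v * h i w := by
  obtain ⟨ι, hι, g, h, hg, hh, hf⟩ := hf
  let e := Fintype.equivFin ι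
  refine ⟨Fintype.card ι, fun i => g (e.symm i), fun i => h (e.symm i), fun i => hg _,
    fun i => hh _, fun v w => ?_⟩
  rw [hf, ← Equiv.sum_comp e.symm]

theorem comulIn_of_fin {f : V → Qb} (hf : ∃ (n : ℕ) (g h : Fin n → V → Qb), (∀ i, g i ∈ B) ∧
    (∀ i, h i ∈ B) ∧ ∀ v w, f (v + w) = ∑ i, g i v * h i w) : ComulIn B f := by
  obtain ⟨n, g, h, hg, hh, hf⟩ := hf
  exact ⟨Fin n, inferInstance, g, h, hg, hh, hf⟩

theorem ComulIn.mono {B B' : Subalgebra P (V → Qb)} (h : B ≤ B') {f : V → Qb}
    (hf : ComulIn B f) : ComulIn B' f := by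
  obtain ⟨ι, hι, g, h', hg, hh, hf⟩ := hf
  exact ⟨ι, hι, g, h', fun i => h (hg i), fun i => h (hh i), hf⟩

theorem ComulIn.add {f f' : V → Qb} (hf : ComulIn B f) (hf' : ComulIn B f') :
    ComulIn B (f + f') := by
  obtain ⟨ι, hι, g, h, hg, hh, hf⟩ := hf
  obtain ⟨ι', hι', g', h', hg', hh', hf'⟩ := hf'
  refine ⟨ι ⊕ ι', inferInstance, Sum.elim g g', Sum.elim h h', ?_, ?_, fun v w => ?_⟩
  · rintro (i | i)
    · exact hg i
    · exact hg' i
  · rintro (i | i)
    · exact hh i
    · exact hh' i
  · rw [Pi.add_apply, hf, hf', Fintype.sum_sum_type]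
    rfl

theorem ComulIn.mul {f f' : V → Qb} (hf : ComulIn B f) (hf' : ComulIn B f') :
    ComulIn B (f * f') := by
  obtain ⟨ι, hι, g, h, hg, hh, hf⟩ := hf
  obtain ⟨ι', hι', g', h', hg', hh', hf'⟩ := hf'
  refine ⟨ι × ι', inferInstance, fun i => g i.1 * g' i.2, fun i => h i.1 * h' i.2,
    fun i => B.mul_mem (hg _) (hg' _), fun i => B.mul_mem (hh _) (hh' _), fun v w => ?_⟩
  rw [Pi.mul_apply, hf, hf', Finset.sum_mul_sum, Fintype.sum_prod_type]
  refine Finset.sum_congr rfl fun i _ => Finset.sum_congr rfl fun i' _ => ?_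
  simp only [Pi.mul_apply]
  ring

theorem comulIn_algebraMap (B : Subalgebra P (V → Qb)) (c : P) :
    ComulIn B (algebraMap P (V → Qb) c) := by
  refine ⟨Unit, inferInstance, fun _ => algebraMap P (V → Qb) c, fun _ => 1,
    fun _ => B.algebraMap_mem c, fun _ => B.one_mem, fun v w => ?_⟩
  simp

/-! ### From a finite equivariant spanning set to a basis -/

/-- The `P`-span of a finite family in `V → ℚ̄`, in terms of `ℚ̄`-coefficients lying in `P`. -/
theorem mem_span_finset_iff (F : Finset (V → Qb)) (f : V → Qb) :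
    f ∈ Submodule.span P (F : Set (V → Qb)) ↔
      ∃ c : (V → Qb) → Qb, (∀ t, c t ∈ P) ∧ f = ∑ t ∈ F, c t • t := by
  classical
  constructor
  · intro hf
    obtain ⟨c, -, hc⟩ := Submodule.mem_span_finset.1 hf
    refine ⟨fun t => (c t : Qb), fun t => (c t).2, ?_⟩
    rw [← hc]
    exact Finset.sum_congr rfl fun t _ => rfl
  · rintro ⟨c, hc, rfl⟩
    refine Submodule.sum_mem _ fun t ht => ?_
    have : c t • t = (⟨c t, hc t⟩ : P) • t := rfl
    rw [this]
    exact Submodule.smul_mem _ _ (Submodule.subset_span ht)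

/-- A `P`-subalgebra of `V → ℚ̄` with integral values and comultiplication, which is the `P`-span
of a finite set of `Γ`-equivariant functions spanning `V → ℚ̄`, is a `P`-order. -/
theorem IsPOrder.of_span (B : Subalgebra P (V → Qb)) (hint : ∀ f ∈ B, ∀ v, f v ∈ P)
    (hcomul : ∀ f ∈ B, ComulIn B f) (F : Finset (V → Qb)) (hFeq : ∀ t ∈ F, Equivar Γ act t)
    (hFspan : Subalgebra.toSubmodule B = Submodule.span P (F : Set (V → Qb)))
    (hFtop : Submodule.span Qb (F : Set (V → Qb)) = ⊤) : IsPOrder P Γ act B := by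
  classical
  -- a spanning subset of minimal cardinality
  have hex : ∃ n : ℕ, ∃ F' : Finset (V → Qb), F' ⊆ F ∧
      Submodule.span P (F' : Set (V → Qb)) = Subalgebra.toSubmodule B ∧ F'.card = n :=
    ⟨F.card, F, subset_rfl, hFspan.symm, rfl⟩
  obtain ⟨F', hF'F, hF'span, hF'card⟩ := Nat.find_spec hex
  have hmin : ∀ F'' : Finset (V → Qb), F'' ⊆ F →
      Submodule.span P (F'' : Set (V → Qb)) = Subalgebra.toSubmodule B → F'.card ≤ F''.card := by
    intro F'' h1 h2
    rw [hF'card]
    exact Nat.find_min' hex ⟨F'', h1, h2, rfl⟩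
  -- linear independence over `ℚ̄`
  have hli : LinearIndependent Qb (fun t : F' => (t : V → Qb)) := by
    rw [Fintype.linearIndependent_iff]
    intro a ha
    by_contra hcon
    push Not at hcon
    obtain ⟨t₁, ht₁⟩ := hcon
    obtain ⟨t₀, -, hmax⟩ := Finset.exists_max_image (Finset.univ : Finset F')
      (fun t => P.valuation (a t)) ⟨t₁, Finset.mem_univ _⟩
    have ha0 : a t₀ ≠ 0 := by
      intro h0
      have := hmax t₁ (Finset.mem_univ _)
      rw [h0, map_zero] at this
      exact ht₁ ((map_eq_zero _).1 (le_antisymm this zero_le))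
    -- `t₀` is a `P`-combination of the others
    have hcoef : ∀ t : F', -(a t / a t₀) ∈ P := by
      intro t
      rw [← P.valuation_le_one_iff, Valuation.map_neg, map_div₀]
      exact div_le_one_of_le₀ (hmax t (Finset.mem_univ _)) zero_le
    have ht₀ : (t₀ : V → Qb) = ∑ t ∈ (Finset.univ : Finset F').erase t₀,
        (-(a t / a t₀)) • (t : V → Qb) := by
      have h1 : a t₀ • (t₀ : V → Qb) + ∑ t ∈ (Finset.univ : Finset F').erase t₀,
          a t • (t : V → Qb) = 0 := by
        rw [Finset.add_sum_erase Finset.univ (fun t : F' => a t • (t : V → Qb))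
          (Finset.mem_univ t₀)]
        exact ha
      have h2 : (t₀ : V → Qb) = -((a t₀)⁻¹ • ∑ t ∈ (Finset.univ : Finset F').erase t₀,
          a t • (t : V → Qb)) := by
        rw [← eq_neg_iff_add_eq_zero] at h1
        calc (t₀ : V → Qb) = (a t₀)⁻¹ • (a t₀ • (t₀ : V → Qb)) := by
              rw [smul_smul, inv_mul_cancel₀ ha0, one_smul]
          _ = _ := by rw [h1, smul_neg]
      rw [h2, Finset.smul_sum, ← Finset.sum_neg_distrib]
      refine Finset.sum_congr rfl fun t _ => ?_
      rw [smul_smul, neg_smul, div_eq_inv_mul]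
    have hmem : (t₀ : V → Qb) ∈ Submodule.span P ((F'.erase (t₀ : V → Qb) : Finset (V → Qb)) :
        Set (V → Qb)) := by
      have hsum : (∑ t ∈ (Finset.univ : Finset F').erase t₀, (-(a t / a t₀)) • (t : V → Qb)) ∈
          Submodule.span P ((F'.erase (t₀ : V → Qb) : Finset (V → Qb)) : Set (V → Qb)) := ?_
      · rwa [← ht₀] at hsum
      refine Submodule.sum_mem _ fun t ht => ?_
      have h3 : (-(a t / a t₀)) • (t : V → Qb) = (⟨-(a t / a t₀), hcoef t⟩ : P) • (t : V → Qb) :=
        rfl
      rw [h3]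
      refine Submodule.smul_mem _ _ (Submodule.subset_span ?_)
      rw [Finset.mem_coe, Finset.mem_erase]
      refine ⟨fun h => ?_, t.2⟩
      exact (Finset.mem_erase.1 ht).1 (Subtype.ext h)
    have hspan : Submodule.span P ((F'.erase (t₀ : V → Qb) : Finset (V → Qb)) : Set (V → Qb)) =
        Subalgebra.toSubmodule B := by
      rw [← hF'span]
      apply le_antisymm
      · exact Submodule.span_mono (Finset.coe_subset.2 (Finset.erase_subset _ _))
      · rw [Submodule.span_le]
        intro t ht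
        by_cases h : t = (t₀ : V → Qb)
        · rw [h]
          exact hmem
        · exact Submodule.subset_span (Finset.mem_coe.2 (Finset.mem_erase.2 ⟨h, ht⟩))
    have hle := hmin _ ((Finset.erase_subset _ _).trans hF'F) hspan
    rw [Finset.card_erase_of_mem t₀.2] at hle
    have hpos : 0 < F'.card := Finset.card_pos.2 ⟨t₀, t₀.2⟩
    omega
  -- spanning over `ℚ̄`
  have hPQ : ∀ f, f ∈ Submodule.span P (F' : Set (V → Qb)) →
      f ∈ Submodule.span Qb (F' : Set (V → Qb)) := by
    intro f hf
    obtain ⟨c, -, rfl⟩ := (mem_span_finset_iff F' f).1 hf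
    exact Submodule.sum_mem _ fun t ht => Submodule.smul_mem _ _ (Submodule.subset_span ht)
  have hsp : ⊤ ≤ Submodule.span Qb (Set.range (fun t : F' => (t : V → Qb))) := by
    have hr : Set.range (fun t : F' => (t : V → Qb)) = (F' : Set (V → Qb)) := by
      ext t
      simp
    rw [hr, ← hFtop, Submodule.span_le]
    intro t ht
    apply hPQ
    rw [hF'span, hFspan]
    exact Submodule.subset_span ht
  let b : Module.Basis F' Qb (V → Qb) := Module.Basis.mk hli hsp
  have hb : ∀ t : F', b t = (t : V → Qb) := fun t => Module.Basis.mk_apply hli hsp t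
  refine ⟨hint, fun f hf => (hcomul f hf).fin, F', inferInstance, b, fun t => ?_, fun f => ?_⟩
  · rw [hb]
    exact hFeq _ (hF'F t.2)
  · constructor
    · intro hf
      have hf' : f ∈ Submodule.span P (F' : Set (V → Qb)) := by
        rw [hF'span]
        exact hf
      obtain ⟨c, hc, rfl⟩ := (mem_span_finset_iff F' f).1 hf'
      intro t
      have h1 : ∑ t ∈ F', c t • t = ∑ t : F', c (t : V → Qb) • b t := by
        rw [← Finset.sum_coe_sort F' (fun t => c t • t)]
        exact Finset.sum_congr rfl fun t _ => by rw [hb]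
      rw [h1, Module.Basis.repr_sum_self]
      exact hc _
    · intro h
      rw [← b.sum_repr f]
      refine B.sum_mem fun t _ => ?_
      have h1 : b.repr f t • b t = (⟨b.repr f t, h t⟩ : P) • b t := rfl
      rw [h1]
      refine B.smul_mem ?_ _
      rw [hb]
      have : (t : V → Qb) ∈ Subalgebra.toSubmodule B := by
        rw [← hF'span]
        exact Submodule.subset_span t.2
      exact this

/-! ### Pull-back -/

/-- Composition with a map, as an algebra homomorphism of function algebras. -/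
def compHom {V' : Type} (P : ValuationSubring Qb) (j : V' → V) :
    (V → Qb) →ₐ[P] (V' → Qb) where
  toFun f := fun v => f (j v)
  map_one' := rfl
  map_mul' _ _ := rfl
  map_zero' := rfl
  map_add' _ _ := rfl
  commutes' _ := rfl

theorem compHom_apply {V' : Type} (j : V' → V) (f : V → Qb) (v : V') :
    compHom P j f v = f (j v) := rfl

/-- **Pull-back of an order** along an injective `Γ`-equivariant additive map. -/
theorem IsPOrder.pullback {V' : Type} [AddCommGroup V'] {act' : GQ → V' → V'}
    (hB : IsPOrder P Γ act B) (j : V' → V) (hjadd : ∀ v w, j (v + w) = j v + j w)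
    (hj : Function.Injective j) (hjeq : ∀ σ ∈ Γ, ∀ v, j (act' σ v) = act σ (j v)) :
    IsPOrder P Γ act' (B.map (compHom P j)) := by
  classical
  obtain ⟨ι, hι, b, hb, hmem⟩ := hB.exists_basis
  refine IsPOrder.of_span _ ?_ ?_ (Finset.univ.image fun i => compHom P j (b i)) ?_ ?_ ?_
  · rintro _ ⟨f, hf, rfl⟩ v
    exact hB.integral f hf (j v)
  · rintro _ ⟨f, hf, rfl⟩
    obtain ⟨n, g, h, hg, hh, hfgh⟩ := hB.comul f hf
    refine ⟨Fin n, inferInstance, fun i => compHom P j (g i), fun i => compHom P j (h i),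
      fun i => ⟨g i, hg i, rfl⟩, fun i => ⟨h i, hh i, rfl⟩, fun v w => ?_⟩
    show f (j (v + w)) = _
    rw [hjadd, hfgh]
    rfl
  · intro t ht
    obtain ⟨i, -, rfl⟩ := Finset.mem_image.1 ht
    intro σ hσ v
    show b i (j (act' σ v)) = σ (b i (j v))
    rw [hjeq σ hσ, hb i σ hσ]
  · apply le_antisymm
    · rintro _ ⟨f, hf, rfl⟩
      have hf' := (hmem _).1 hf
      have e : (fun v => f (j v)) = ∑ i, (⟨b.repr f i, hf' i⟩ : P) • compHom P j (b i) := by
        funext v
        have h1 := congrFun (b.sum_repr f) (j v)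
        rw [Finset.sum_apply] at h1
        rw [← h1, Finset.sum_apply]
        exact Finset.sum_congr rfl fun i _ => rfl
      show (fun v => f (j v)) ∈ _
      rw [e]
      refine Submodule.sum_mem _ fun i _ => Submodule.smul_mem _ _ (Submodule.subset_span ?_)
      exact Finset.mem_coe.2 (Finset.mem_image.2 ⟨i, Finset.mem_univ i, rfl⟩)
    · rw [Submodule.span_le]
      intro t ht
      obtain ⟨i, -, rfl⟩ := Finset.mem_image.1 (Finset.mem_coe.1 ht)
      exact ⟨b i, mem_of_basis b hmem i, rfl⟩
  · rw [eq_top_iff]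
    intro g _
    -- extend `g` to `V`
    have hext : (fun v => Function.extend j g 0 (j v)) = g := by
      funext v
      exact hj.extend_apply g 0 v
    rw [← hext, ← b.sum_repr (Function.extend j g 0)]
    have h2 : (fun v => (∑ i, b.repr (Function.extend j g 0) i • b i) (j v)) =
        ∑ i, b.repr (Function.extend j g 0) i • compHom P j (b i) := by
      funext v
      simp only [Finset.sum_apply, Pi.smul_apply, compHom_apply]
    rw [h2]
    refine Submodule.sum_mem _ fun i _ => Submodule.smul_mem _ _ (Submodule.subset_span ?_)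
    exact Finset.mem_coe.2 (Finset.mem_image.2 ⟨i, Finset.mem_univ i, rfl⟩)

theorem mem_map_compHom {V' : Type} (j : V' → V) (f' : V' → Qb) :
    f' ∈ B.map (compHom P j) ↔ ∃ f ∈ B, f' = fun v => f (j v) := by
  constructor
  · rintro ⟨f, hf, rfl⟩
    exact ⟨f, hf, rfl⟩
  · rintro ⟨f, hf, rfl⟩
    exact ⟨f, hf, rfl⟩

/-! ### Saturation -/

/-- A function with values in `P` is integral over `P`. -/
theorem isIntegral_of_forall_mem [Finite V] (t : V → Qb) (ht : ∀ v, t v ∈ P) :
    IsIntegral P t := by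
  have hfin : Module.Finite P (V → P) := Module.Finite.pi
  let φ : (V → P) →ₐ[P] (V → Qb) := AlgHom.compLeft (Algebra.ofId P Qb) V
  have h1 : IsIntegral P (fun v => (⟨t v, ht v⟩ : P)) := IsIntegral.of_finite P _
  have h2 := h1.map φ
  have h3 : φ (fun v => (⟨t v, ht v⟩ : P)) = t := by
    funext v
    rfl
  rwa [h3] at h2

/-- **Saturation.** For a set `M` of `Γ`-equivariant additive endomorphisms of `V`, closed under
composition, there is an order containing `B` and stable under `f ↦ f ∘ j` for `j ∈ M`. -/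
theorem IsPOrder.exists_saturation [Finite V] (hB : IsPOrder P Γ act B) (M : Set (V → V))
    (hMmul : ∀ j ∈ M, ∀ j' ∈ M, (fun v => j (j' v)) ∈ M)
    (hMadd : ∀ j ∈ M, ∀ v w, j (v + w) = j v + j w)
    (hMeq : ∀ j ∈ M, ∀ σ ∈ Γ, ∀ v, j (act σ v) = act σ (j v)) :
    ∃ B' : Subalgebra P (V → Qb), IsPOrder P Γ act B' ∧ B ≤ B' ∧
      ∀ j ∈ M, ∀ f ∈ B', (fun v => f (j v)) ∈ B' := by
  classical
  obtain ⟨ι, hι, b, hb, hmem⟩ := hB.exists_basis
  -- generators
  set T : Set (V → Qb) := Set.range b ∪ {t | ∃ i, ∃ j ∈ M, t = fun v => b i (j v)} with hT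
  have hTfin : T.Finite := by
    refine (Set.finite_range b).union ?_
    refine (Set.finite_range (fun x : ι × (V → V) => fun v => b x.1 (x.2 v))).subset ?_
    rintro t ⟨i, j, -, rfl⟩
    exact ⟨(i, j), rfl⟩
  set B' : Subalgebra P (V → Qb) := Algebra.adjoin P T with hB'
  have hTB' : T ⊆ B' := Algebra.subset_adjoin
  have hbB' : ∀ i, b i ∈ B' := fun i => hTB' (Or.inl ⟨i, rfl⟩)
  have hBB' : B ≤ B' := by
    intro f hf
    rw [← b.sum_repr f]
    refine B'.sum_mem fun i _ => ?_
    have h1 : b.repr f i • b i = (⟨b.repr f i, (hmem f).1 hf i⟩ : P) • b i := rfl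
    rw [h1]
    exact B'.smul_mem (hbB' i) _
  have hTeq : ∀ t ∈ T, Equivar Γ act t := by
    rintro t (⟨i, rfl⟩ | ⟨i, j, hj, rfl⟩)
    · exact hb i
    · intro σ hσ v
      show b i (j (act σ v)) = σ (b i (j v))
      rw [hMeq j hj σ hσ, hb i σ hσ]
  have hTint : ∀ t ∈ T, ∀ v, t v ∈ P := by
    rintro t (⟨i, rfl⟩ | ⟨i, j, hj, rfl⟩) v
    · exact hB.integral _ (mem_of_basis b hmem i) v
    · exact hB.integral _ (mem_of_basis b hmem i) (j v)
  -- stability
  have hstab : ∀ j ∈ M, ∀ f ∈ B', (fun v => f (j v)) ∈ B' := by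
    intro j hj f hf
    have hle : B' ≤ B'.comap (compHom P j) := by
      rw [hB']
      refine Algebra.adjoin_le ?_
      rintro t (⟨i, rfl⟩ | ⟨i, j', hj', rfl⟩)
      · exact hTB' (Or.inr ⟨i, j, hj, rfl⟩)
      · exact hTB' (Or.inr ⟨i, fun v => j' (j v), hMmul j' hj' j hj, rfl⟩)
    exact hle hf
  -- integrality of values
  have hint : ∀ f ∈ B', ∀ v, f v ∈ P := by
    intro f hf
    refine Algebra.adjoin_induction (p := fun f _ => ∀ v, f v ∈ P) ?_ ?_ ?_ ?_ hf
    · intro t ht
      exact hTint t ht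
    · intro c v
      exact c.2
    · intro x y _ _ hx hy v
      exact P.add_mem _ _ (hx v) (hy v)
    · intro x y _ _ hx hy v
      exact P.mul_mem _ _ (hx v) (hy v)
  -- comultiplication
  have hcomul : ∀ f ∈ B', ComulIn B' f := by
    intro f hf
    refine Algebra.adjoin_induction (p := fun f _ => ComulIn B' f) ?_ ?_ ?_ ?_ hf
    · rintro t (⟨i, rfl⟩ | ⟨i, j, hj, rfl⟩)
      · exact (comulIn_of_fin (hB.comul _ (mem_of_basis b hmem i))).mono hBB'
      · obtain ⟨n, g, h, hg, hh, hfgh⟩ := hB.comul _ (mem_of_basis b hmem i)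
        refine ⟨Fin n, inferInstance, fun k v => g k (j v), fun k v => h k (j v),
          fun k => hstab j hj _ (hBB' (hg k)), fun k => hstab j hj _ (hBB' (hh k)),
          fun v w => ?_⟩
        show b i (j (v + w)) = _
        rw [hMadd j hj, hfgh]
    · intro c
      exact comulIn_algebraMap B' c
    · intro x y _ _ hx hy
      exact hx.add hy
    · intro x y _ _ hx hy
      exact hx.mul hy
  -- the equivariant elements span
  set E : Set (V → Qb) := {t | t ∈ B' ∧ Equivar Γ act t} with hE
  have hEmul : ∀ x ∈ E, ∀ y ∈ E, x * y ∈ E := by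
    rintro x ⟨hx, hxe⟩ y ⟨hy, hye⟩
    refine ⟨B'.mul_mem hx hy, fun σ hσ v => ?_⟩
    rw [Pi.mul_apply, Pi.mul_apply, hxe σ hσ, hye σ hσ, map_mul]
  have hE1 : (1 : V → Qb) ∈ E := ⟨B'.one_mem, fun σ _ v => by simp⟩
  have hspanE : Subalgebra.toSubmodule B' = Submodule.span P E := by
    apply le_antisymm
    · intro f hf
      refine Algebra.adjoin_induction (p := fun f _ => f ∈ Submodule.span P E) ?_ ?_ ?_ ?_ hf
      · intro t ht
        exact Submodule.subset_span ⟨hTB' ht, hTeq t ht⟩
      · intro c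
        rw [Algebra.algebraMap_eq_smul_one]
        exact Submodule.smul_mem _ _ (Submodule.subset_span hE1)
      · intro x y _ _ hx hy
        exact Submodule.add_mem _ hx hy
      · intro x y _ _ hx hy
        have h1 : x * y ∈ Submodule.span P E * Submodule.span P E := Submodule.mul_mem_mul hx hy
        rw [Submodule.span_mul_span] at h1
        refine Submodule.span_mono ?_ h1
        rintro _ ⟨x', hx', y', hy', rfl⟩
        exact hEmul x' hx' y' hy'
    · rw [Submodule.span_le]
      intro t ht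
      exact ht.1
  -- finite generation
  have hfg : (Subalgebra.toSubmodule B').FG :=
    fg_adjoin_of_finite hTfin fun t ht => isIntegral_of_forall_mem t (hTint t ht)
  rw [hspanE] at hfg
  obtain ⟨F, hFE, hFspan⟩ := (Submodule.fg_span_iff_fg_span_finset_subset E).1 hfg
  refine ⟨B', IsPOrder.of_span B' hint hcomul F (fun t ht => (hFE ht).2)
    (hspanE.trans hFspan) ?_, hBB', hstab⟩
  rw [eq_top_iff, ← b.span_eq, Submodule.span_le]
  rintro _ ⟨i, rfl⟩
  have h1 : b i ∈ Submodule.span P (F : Set (V → Qb)) := by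
    rw [← hFspan, ← hspanE]
    exact hbB' i
  obtain ⟨c, -, hc⟩ := (mem_span_finset_iff F (b i)).1 h1
  rw [hc]
  exact Submodule.sum_mem _ fun t ht => Submodule.smul_mem _ _ (Submodule.subset_span ht)

end Fermat.Agent.Lib.FinFlat
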