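/-
Lib/FinFlat: "[UNR]" — the inertia-fixed subfield of `ℚ̄` at a place over `q` is unramified: its
nonzero elements have the valuation of a power of `q`.

`A` a valuation subring of `ℚ̄` over the prime `q`, `D`, `I` its decomposition and inertia groups.

* `exists_pow_sub_mem_nonunits` : for `a ∈ A` there is `N ≥ 1` with `a ^ (q ^ N) ≡ a` mod `𝔪`
  (powers of a Frobenius element; `a` has finitely many conjugates);
* `exists_root_of_unity_sub_mem_nonunits` : every unit of `A` is congruent mod `𝔪` to a root of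
  unity of order dividing some `q ^ N - 1` (Teichmüller representatives);
* `mem_inertia_of_fixes_roots_of_unity` : an element of `D` fixing all these roots of unity lies
  in `I`;
* `exists_level_of_inertia_fixed` : compactness — an `I`-fixed `x` is fixed by all elements of
  `D` fixing the `(q ^ N - 1)`-th roots of unity, for some `N ≥ 1`;
* **`exists_zpow_valuation_eq_of_inertia_fixed`** : `I`-fixed `x ≠ 0` ⇒ `v(x) = v(q) ^ n`;
* `exists_eq_mul_of_inertia_fixed` : `I`-fixed `x ∈ 𝔪` ⇒ `x ∈ q A`.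
-/
import Fermat.Agent.PT.G.KumUnram
import Fermat.Agent.PT.G.KumLocal
import Fermat.Agent.PT.G.CycloField
import Fermat.Agent.PT.G.DecompBasic

set_option autoImplicit false
set_option linter.unusedSectionVars false

namespace Fermat.Agent.Lib.FinFlat

open Fermat.Agent.PT Fermat.Agent.PT.Levels Fermat.Agent.Lib.FrobeniusExists

local notation "Qb" => AlgebraicClosure ℚ
local notation "GQ" => (AlgebraicClosure ℚ ≃ₐ[ℚ] AlgebraicClosure ℚ)

attribute [local instance] isAlgClosure_rat isGalois_rat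

variable {q : ℕ} (hq : q.Prime) (A : ValuationSubring Qb) (hA : A.LiesOverPrime q)

/-- The stabiliser of a point of `ℚ̄` is open and closed in the Krull topology. -/
theorem isClopen_setOf_apply_eq (y : Qb) : IsClopen {σ : GQ | σ y = y} := by
  have hint : IsIntegral ℚ y := Algebra.IsIntegral.isIntegral y
  have : FiniteDimensional ℚ (IntermediateField.adjoin ℚ {y}) :=
    IntermediateField.adjoin.finiteDimensional hint
  have hset : {σ : GQ | σ y = y} = ((IntermediateField.adjoin ℚ {y}).fixingSubgroup : Set GQ) := by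
    ext σ
    exact (mem_fixingSubgroup_adjoin_simple_iff y σ).symm
  rw [hset]
  exact ⟨InfiniteGalois.fixingSubgroup_isClosed _, IntermediateField.fixingSubgroup_isOpen _⟩

include hq hA in
/-- Powers of the Frobenius: every `a ∈ A` satisfies `a ^ (q ^ N) ≡ a` modulo the maximal ideal
for some `N ≥ 1`. -/
theorem exists_pow_sub_mem_nonunits {a : Qb} (ha : a ∈ A) :
    ∃ N : ℕ, 0 < N ∧ a ^ q ^ N - a ∈ A.nonunits := by
  obtain ⟨φ, hφ⟩ := exists_isFrobeniusAt_of_liesOverPrime hq A hA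
  have hφD := hφ.mem_decompositionSubgroup
  -- `φ ^ j a ≡ a ^ (q ^ j)`
  have hpow : ∀ j : ℕ, (φ ^ j) a - a ^ q ^ j ∈ A.nonunits := by
    intro j
    induction j with
    | zero =>
      simp only [pow_zero, pow_one, AlgEquiv.one_apply, sub_self]
      rw [A.mem_nonunits_iff, map_zero]
      exact zero_lt_one
    | succ j ih =>
      have h1 : φ ((φ ^ j) a - a ^ q ^ j) ∈ A.nonunits :=
        G.apply_mem_nonunits_of_mem_decompositionSubgroup A hφD ih
      have h2 : φ (a ^ q ^ j) - (a ^ q ^ j) ^ q ∈ A.nonunits :=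
        G.frobenius_sub_pow_mem_nonunits A φ q hφ (pow_mem ha _)
      have e : (φ ^ (j + 1)) a - a ^ q ^ (j + 1) =
          φ ((φ ^ j) a - a ^ q ^ j) + (φ (a ^ q ^ j) - (a ^ q ^ j) ^ q) := by
        rw [pow_succ', AlgEquiv.mul_apply, map_sub, ← pow_mul, ← pow_succ]
        ring
      rw [e]
      rw [A.mem_nonunits_iff] at h1 h2 ⊢
      exact A.valuation.map_add_lt h1 h2
  -- the orbit of `a` is finite
  have hint : IsIntegral ℚ a := Algebra.IsIntegral.isIntegral a
  have hroot : ∀ j : ℕ, (φ ^ j) a ∈ (minpoly ℚ a).rootSet Qb := by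
    intro j
    rw [Polynomial.mem_rootSet_of_ne (minpoly.ne_zero hint)]
    have := Polynomial.aeval_algHom_apply ((φ ^ j : GQ) : Qb →ₐ[ℚ] Qb) a (minpoly ℚ a)
    rw [minpoly.aeval, map_zero] at this
    exact this
  obtain ⟨i, j, hij, heq⟩ := Set.Finite.exists_lt_map_eq_of_forall_mem hroot
    (Polynomial.rootSet_finite (minpoly ℚ a) Qb)
  have hfix : (φ ^ (j - i)) a = a := by
    have h1 : (φ ^ j) a = (φ ^ i) ((φ ^ (j - i)) a) := by
      rw [← AlgEquiv.mul_apply, ← pow_add, Nat.add_sub_cancel' hij.le]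
    rw [h1] at heq
    exact ((φ ^ i).injective heq).symm
  refine ⟨j - i, Nat.sub_pos_of_lt hij, ?_⟩
  have := hpow (j - i)
  rw [hfix] at this
  rw [← neg_sub, A.mem_nonunits_iff, Valuation.map_neg]
  exact A.mem_nonunits_iff.mp this

include hq hA in
/-- Teichmüller representatives: every unit of `A` is congruent modulo the maximal ideal to a
root of unity of order dividing `q ^ N - 1` for some `N ≥ 1`. -/
theorem exists_root_of_unity_sub_mem_nonunits {a : Qb} (ha : a ∈ A) (ha' : a ∉ A.nonunits) :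
    ∃ (N : ℕ) (ζ : Qb), 0 < N ∧ ζ ^ (q ^ N - 1) = 1 ∧ a - ζ ∈ A.nonunits := by
  obtain ⟨N, hN, h⟩ := exists_pow_sub_mem_nonunits hq A hA ha
  refine ⟨N, ?_⟩
  have hqN : 2 ≤ q ^ N := by
    calc 2 ≤ q := hq.two_le
      _ = q ^ 1 := (pow_one q).symm
      _ ≤ q ^ N := Nat.pow_le_pow_right hq.pos hN
  set m : ℕ := q ^ N - 1 with hm
  have hmpos : 0 < m := by omega
  have hm1 : m + 1 = q ^ N := by omega
  have hva : A.valuation a = 1 := by
    rw [A.mem_nonunits_iff, not_lt] at ha'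
    exact le_antisymm ((A.valuation_le_one_iff a).mpr ha) ha'
  -- `a ^ m ≡ 1`
  have h1 : A.valuation (a ^ m - 1) < 1 := by
    have e : a ^ q ^ N - a = a * (a ^ m - 1) := by
      rw [← hm1, pow_succ]
      ring
    rw [e, A.mem_nonunits_iff, map_mul, hva, one_mul] at h
    exact h
  -- factor `X ^ m - 1`
  have : NeZero (m : Qb) := ⟨Nat.cast_ne_zero.mpr hmpos.ne'⟩
  obtain ⟨ζ₀, hζ₀⟩ := HasEnoughRootsOfUnity.exists_primitiveRoot Qb m
  have hprod := Polynomial.X_pow_sub_one_eq_prod hmpos hζ₀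
  have hev : a ^ m - 1 = ∏ ζ ∈ Polynomial.nthRootsFinset m (1 : Qb), (a - ζ) := by
    have := congrArg (Polynomial.eval a) hprod
    rw [Polynomial.eval_sub, Polynomial.eval_pow, Polynomial.eval_X, Polynomial.eval_one,
      Polynomial.eval_prod] at this
    rw [this]
    exact Finset.prod_congr rfl fun ζ _ => by
      rw [Polynomial.eval_sub, Polynomial.eval_X, Polynomial.eval_C]
  by_contra hcon
  push Not at hcon
  have hall : ∀ ζ ∈ Polynomial.nthRootsFinset m (1 : Qb), A.valuation (a - ζ) = 1 := by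
    intro ζ hζ
    have hζm : ζ ^ m = 1 := (Polynomial.mem_nthRootsFinset hmpos 1).1 hζ
    have hζA : ζ ∈ A := by
      rw [← A.valuation_le_one_iff, valuation_eq_one_of_pow_eq_one A hmpos.ne' hζm]
    have h2 := hcon ζ hN hζm
    rw [A.mem_nonunits_iff, not_lt] at h2
    exact le_antisymm ((A.valuation_le_one_iff _).mpr (A.sub_mem ha hζA)) h2
  rw [hev, map_prod, Finset.prod_eq_one hall] at h1
  exact lt_irrefl _ h1

include hq hA in
/-- An element of the decomposition group which fixes all roots of unity of order dividing some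
`q ^ N - 1` lies in the inertia group. -/
theorem mem_inertia_of_fixes_roots_of_unity {σ : GQ} (hσ : σ ∈ A.decompositionSubgroup ℚ)
    (hfix : ∀ (N : ℕ) (ζ : Qb), 0 < N → ζ ^ (q ^ N - 1) = 1 → σ ζ = ζ) :
    σ ∈ A.inertiaSubgroupIn ℚ := by
  rw [mem_inertiaSubgroupIn_iff]
  refine ⟨hσ, fun x hx => ?_⟩
  by_cases hx' : x ∈ A.nonunits
  · have h1 := G.apply_mem_nonunits_of_mem_decompositionSubgroup A hσ hx'
    rw [A.mem_nonunits_iff] at h1 hx' ⊢
    exact lt_of_le_of_lt (A.valuation.map_sub _ _) (max_lt h1 hx')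
  · obtain ⟨N, ζ, hN, hζ, h⟩ := exists_root_of_unity_sub_mem_nonunits hq A hA hx hx'
    have h1 := G.apply_mem_nonunits_of_mem_decompositionSubgroup A hσ h
    have e : σ x - x = σ (x - ζ) - (x - ζ) := by
      rw [map_sub, hfix N ζ hN hζ]
      ring
    rw [e]
    rw [A.mem_nonunits_iff] at h1 h ⊢
    exact lt_of_le_of_lt (A.valuation.map_sub _ _) (max_lt h1 h)

include hq in
theorem pow_factorial_sub_one_dvd (N j : ℕ) (hN : 0 < N) (hNj : N ≤ j) :
    q ^ N - 1 ∣ q ^ j.factorial - 1 := by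
  obtain ⟨k, hk⟩ := Nat.dvd_factorial hN hNj
  rw [hk, pow_mul]
  simpa using Nat.sub_dvd_pow_sub_pow (q ^ N) 1 k

include hq hA in
/-- Compactness: an element fixed by the inertia group is fixed by all elements of the
decomposition group which fix the `(q ^ N - 1)`-th roots of unity, for some `N ≥ 1`. -/
theorem exists_level_of_inertia_fixed {x : Qb} (hx : ∀ σ ∈ A.inertiaSubgroupIn ℚ, σ x = x) :
    ∃ N : ℕ, 0 < N ∧ ∀ σ ∈ A.decompositionSubgroup ℚ,
      (∀ ζ : Qb, ζ ^ (q ^ N - 1) = 1 → σ ζ = ζ) → σ x = x := by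
  by_contra hcon
  push Not at hcon
  let T : ℕ → Set GQ := fun j => (A.decompositionSubgroup ℚ : Set GQ) ∩
    (⋂ ζ ∈ {ζ : Qb | ζ ^ (q ^ j.factorial - 1) = 1}, {σ : GQ | σ ζ = ζ}) ∩ {σ : GQ | σ x = x}ᶜ
  have hTmem : ∀ j σ, σ ∈ T j ↔ σ ∈ A.decompositionSubgroup ℚ ∧
      (∀ ζ : Qb, ζ ^ (q ^ j.factorial - 1) = 1 → σ ζ = ζ) ∧ σ x ≠ x := by
    intro j σ
    simp only [T, Set.mem_inter_iff, Set.mem_iInter, Set.mem_ofPred_eq, Set.mem_compl_iff,
      SetLike.mem_coe, and_assoc]
  have hclosed : ∀ j, IsClosed (T j) := by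
    intro j
    refine ((G.isClosed_decompositionSubgroup A).inter ?_).inter
      (isClopen_setOf_apply_eq x).2.isClosed_compl
    exact isClosed_biInter fun ζ _ => (isClopen_setOf_apply_eq ζ).1
  have hanti : ∀ j, T (j + 1) ⊆ T j := by
    intro j σ hσ
    rw [hTmem] at hσ ⊢
    refine ⟨hσ.1, fun ζ hζ => hσ.2.1 ζ ?_, hσ.2.2⟩
    have hdvd : q ^ j.factorial - 1 ∣ q ^ (j + 1).factorial - 1 := by
      rw [Nat.factorial_succ, mul_comm, pow_mul]
      simpa using Nat.sub_dvd_pow_sub_pow (q ^ j.factorial) 1 (j + 1)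
    obtain ⟨k, hk⟩ := hdvd
    rw [hk, pow_mul, hζ, one_pow]
  have hne : ∀ j, (T j).Nonempty := by
    intro j
    obtain ⟨σ, hσD, hσfix, hσx⟩ := hcon j.factorial (Nat.factorial_pos j)
    exact ⟨σ, (hTmem j σ).2 ⟨hσD, hσfix, hσx⟩⟩
  obtain ⟨σ, hσ⟩ := IsCompact.nonempty_iInter_of_sequence_nonempty_isCompact_isClosed T hanti hne
    (hclosed 0).isCompact hclosed
  rw [Set.mem_iInter] at hσ
  have hσ0 := (hTmem 0 σ).1 (hσ 0)
  apply hσ0.2.2
  apply hx
  refine mem_inertia_of_fixes_roots_of_unity hq A hA hσ0.1 fun N ζ hN hζ => ?_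
  have hσN := (hTmem N σ).1 (hσ N)
  apply hσN.2.1
  obtain ⟨k, hk⟩ := pow_factorial_sub_one_dvd hq N N hN le_rfl
  rw [hk, pow_mul, hζ, one_pow]

include hq hA in
/-- The inertia group fixes the roots of unity of order `q ^ N - 1`. -/
theorem apply_eq_of_mem_inertia_of_pow_eq_one {σ : GQ} (hσ : σ ∈ A.inertiaSubgroupIn ℚ) {N : ℕ}
    (hN : 0 < N) {ζ : Qb} (hζ : ζ ^ (q ^ N - 1) = 1) : σ ζ = ζ := by
  have hqN : 2 ≤ q ^ N := by
    calc 2 ≤ q := hq.two_le
      _ = q ^ 1 := (pow_one q).symm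
      _ ≤ q ^ N := Nat.pow_le_pow_right hq.pos hN
  set m : ℕ := q ^ N - 1 with hm
  have hmpos : 0 < m := by omega
  have hζA : ζ ∈ A := by
    rw [← A.valuation_le_one_iff, valuation_eq_one_of_pow_eq_one A hmpos.ne' hζ]
  have hvζ : A.valuation ζ = 1 := valuation_eq_one_of_pow_eq_one A hmpos.ne' hζ
  have hζ0 : ζ ≠ 0 := by
    rintro rfl
    rw [zero_pow hmpos.ne'] at hζ
    exact zero_ne_one hζ
  have h1 := ((mem_inertiaSubgroupIn_iff A σ).mp hσ).2 ζ hζA
  by_contra hne
  set z : Qb := σ ζ * ζ⁻¹ with hz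
  have hz1 : z ≠ 1 := by
    intro h
    apply hne
    rw [hz] at h
    field_simp at h
    exact h
  have hzm : z ^ m = 1 := by
    rw [hz, mul_pow, inv_pow, ← map_pow, hζ, map_one, inv_one, mul_one]
  have hvz : A.valuation z = 1 := valuation_eq_one_of_pow_eq_one A hmpos.ne' hzm
  have hv1 : A.valuation (1 - z) < 1 := by
    have e : 1 - z = -((σ ζ - ζ) * ζ⁻¹) := by
      rw [hz]
      field_simp
      ring
    rw [e, Valuation.map_neg, map_mul, map_inv₀, hvζ, inv_one, mul_one]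
    exact A.mem_nonunits_iff.mp h1
  have hvm : A.valuation (m : Qb) < 1 := by
    rw [natCast_eq_one_sub_mul_sum hzm hz1, map_mul]
    have hc : A.valuation (∑ j ∈ Finset.range m, ∑ i ∈ Finset.range j, z ^ i) ≤ 1 := by
      rw [A.valuation_le_one_iff]
      refine sum_mem fun j _ => sum_mem fun i _ => pow_mem ?_ i
      rw [← A.valuation_le_one_iff, hvz]
    calc A.valuation (1 - z) * A.valuation (∑ j ∈ Finset.range m, ∑ i ∈ Finset.range j, z ^ i)
        ≤ A.valuation (1 - z) * 1 := mul_le_mul_right hc _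
      _ < 1 := by rwa [mul_one]
  have hvq : A.valuation ((q : Qb) ^ N) < 1 := by
    rw [map_pow]
    exact pow_lt_one₀ zero_le (A.mem_nonunits_iff.mp hA) hN.ne'
  have e1 : (1 : Qb) = (q : Qb) ^ N - (m : Qb) := by
    have : (m : Qb) = (q : Qb) ^ N - 1 := by
      rw [hm, Nat.cast_sub (by omega), Nat.cast_pow, Nat.cast_one]
    rw [this]
    ring
  have hlt : A.valuation (1 : Qb) < 1 := by
    rw [e1]
    exact lt_of_le_of_lt (A.valuation.map_sub _ _) (max_lt hvq hvm)
  rw [map_one] at hlt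
  exact lt_irrefl _ hlt

include hq hA in
/-- **[UNR]** A nonzero element of `ℚ̄` fixed by the inertia group of `A` (over `q`) has the
valuation of a power of `q`. -/
theorem exists_zpow_valuation_eq_of_inertia_fixed {x : Qb}
    (hx : ∀ σ ∈ A.inertiaSubgroupIn ℚ, σ x = x) (hx0 : x ≠ 0) :
    ∃ n : ℤ, A.valuation x = A.valuation ((q : Qb) ^ n) := by
  obtain ⟨N, hN, hfix⟩ := exists_level_of_inertia_fixed hq A hA hx
  set S : Set Qb := {ζ : Qb | ζ ^ (q ^ N - 1) = 1} with hS
  have hqN : 2 ≤ q ^ N := by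
    calc 2 ≤ q := hq.two_le
      _ = q ^ 1 := (pow_one q).symm
      _ ≤ q ^ N := Nat.pow_le_pow_right hq.pos hN
  have hmpos : 0 < q ^ N - 1 := by omega
  -- the splitting field of `X ^ m - 1`
  set f : Polynomial ℚ := Polynomial.X ^ (q ^ N - 1) - 1 with hf
  have hf0 : f ≠ 0 := Polynomial.X_pow_sub_C_ne_zero hmpos 1
  have hSroot : S = f.rootSet Qb := by
    ext ζ
    rw [Polynomial.mem_rootSet_of_ne hf0, hS, hf]
    simp [sub_eq_zero]
  set K : IntermediateField ℚ Qb := IntermediateField.adjoin ℚ S with hK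
  have hsplit : (f.map (algebraMap ℚ Qb)).Splits := IsAlgClosed.splits _
  have hSF : Polynomial.IsSplittingField ℚ K f := by
    rw [hK, hSroot]
    exact IntermediateField.adjoin_rootSet_isSplittingField hsplit
  have hKfin : FiniteDimensional ℚ K := Polynomial.IsSplittingField.finiteDimensional K f
  have hKnorm : Normal ℚ K := Normal.of_isSplittingField f
  -- inertia acts trivially on `K`
  have hmemfix : ∀ σ : GQ, (∀ ζ ∈ S, σ ζ = ζ) → σ ∈ K.fixingSubgroup := by
    intro σ hσ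
    rw [IntermediateField.mem_fixingSubgroup_iff]
    have hle : K ≤ IntermediateField.fixedField (Subgroup.zpowers σ) := by
      rw [hK, IntermediateField.adjoin_le_iff]
      intro ζ hζ
      rw [SetLike.mem_coe, IntermediateField.mem_fixedField_iff]
      intro g hg
      have hstab : σ ∈ MulAction.stabilizer GQ ζ := MulAction.mem_stabilizer_iff.2 (hσ ζ hζ)
      exact MulAction.mem_stabilizer_iff.1 ((Subgroup.zpowers_le.2 hstab) hg)
    intro y hy
    exact (IntermediateField.mem_fixedField_iff _ y).1 (hle hy) σ (Subgroup.mem_zpowers σ)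
  have hI : A.inertiaSubgroupIn ℚ ≤ K.fixingSubgroup := fun σ hσ =>
    hmemfix σ fun ζ hζ => apply_eq_of_mem_inertia_of_pow_eq_one hq A hA hσ hN hζ
  -- `x` lies in the decomposition field of `K`
  have hxK : x ∈ Kummer.decompField K A := by
    rw [Kummer.mem_decompField_iff]
    rintro g ⟨hgD, hgK⟩
    refine hfix g hgD fun ζ hζ => ?_
    exact (IntermediateField.mem_fixingSubgroup_iff K g).1 hgK ζ
      (IntermediateField.subset_adjoin ℚ S hζ)
  obtain ⟨y, hy, hvy⟩ := Kummer.exists_mem_valuation_eq hq hA K (Kummer.decompField K A)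
    (Kummer.dense_decompField K hq A hA) hxK hx0
  have hy0 : y ≠ 0 := by
    rintro rfl
    rw [map_zero] at hvy
    exact hx0 ((map_eq_zero _).1 hvy.symm)
  obtain ⟨n, hn⟩ := Kummer.exists_zpow_valuation_eq K hq A hA hI hy hy0
  exact ⟨n, hvy.symm.trans hn⟩

include hq hA in
/-- **[UNR], ideal form.** An element of the maximal ideal of `A` fixed by the inertia group is
divisible by `q` in `A`. -/
theorem exists_eq_mul_of_inertia_fixed {x : Qb} (hx : ∀ σ ∈ A.inertiaSubgroupIn ℚ, σ x = x)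
    (hx1 : x ∈ A.nonunits) : ∃ t ∈ A, x = (q : Qb) * t := by
  have hq0 : (q : Qb) ≠ 0 := Nat.cast_ne_zero.mpr hq.ne_zero
  rcases eq_or_ne x 0 with rfl | hx0
  · exact ⟨0, A.zero_mem, by rw [mul_zero]⟩
  obtain ⟨n, hn⟩ := exists_zpow_valuation_eq_of_inertia_fixed hq A hA hx hx0
  have hvq : A.valuation (q : Qb) < 1 := A.mem_nonunits_iff.mp hA
  have hvq0 : A.valuation (q : Qb) ≠ 0 := (Valuation.ne_zero_iff _).2 hq0
  have hvx : A.valuation x < 1 := A.mem_nonunits_iff.mp hx1
  have hn1 : 1 ≤ n := by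
    by_contra hcon
    push Not at hcon
    have hn0 : n ≤ 0 := by omega
    rw [hn, map_zpow₀] at hvx
    have : 1 ≤ A.valuation (q : Qb) ^ n := by
      obtain ⟨k, rfl⟩ : ∃ k : ℕ, n = -(k : ℤ) := ⟨n.natAbs, by omega⟩
      rw [zpow_neg, zpow_natCast]
      exact (one_le_inv₀ (zero_lt_iff.mpr (pow_ne_zero _ hvq0))).2 (pow_le_one₀ zero_le hvq.le)
    exact absurd hvx (not_lt.mpr this)
  refine ⟨x / q, ?_, by field_simp⟩
  rw [← A.valuation_le_one_iff, map_div₀, hn, map_zpow₀]
  obtain ⟨k, rfl⟩ : ∃ k : ℕ, n = (k : ℤ) + 1 := ⟨(n - 1).toNat, by omega⟩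
  rw [zpow_add_one₀ hvq0, zpow_natCast, mul_div_assoc, div_self hvq0, mul_one]
  exact pow_le_one₀ zero_le hvq.le

end Fermat.Agent.Lib.FinFlat
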