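/-
Lib/FinFlat: orders of multiplicative type, "(INJ-0)" and "(MULT)".

`P` a valuation subring of `ℚ̄` over the odd prime `p`, `I` its inertia group, `B` a `P`-order on
a finite `p`-torsion group `V` with a `Γ`-equivariant basis, `I ≤ Γ`.

* `sub_one_not_mul_prime` : `ζ - 1 ∉ p P` for a `p`-th root of unity `ζ ≠ 1`, `p` odd;
* `IsPOrder.repr_fixed` : the coordinates of an equivariant function in an equivariant basis are
  `Γ`-fixed;
* `IsPOrder.eq_zero_of_mem_conn_of_fixed` (INJ-0) : the connected component has no nonzero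
  `I`-fixed point;
* `IsPOrder.average_mem` (MULT) : if every additive character of `V` is `Γ`-equivariant (inertia
  acts "through the cyclotomic character"), then the averages `|V|⁻¹ ∑_v f v`, `f ∈ B`, lie in
  `P` (the order is the order of a group of multiplicative type);
* `IsPOrder.average_subgroup_mem`, `IsPOrder.proj_mem` : the same along a subgroup `W` on which
  `Γ` acts through the cyclotomic character; the `ψ`-isotypic projectors along `W` preserve `B`;
* `IsPOrder.exists_unit_witness` : the unit Kummer witnesses ("peu ramifié").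
-/
import Fermat.Agent.Lib.FinFlat.Dual
import Fermat.Agent.Lib.FinFlat.Unr
import Fermat.Agent.Lib.FinFlat.POps

set_option autoImplicit false
set_option linter.unusedSectionVars false

namespace Fermat.Agent.Lib.FinFlat

open Fermat.Agent.PT.Levels

local notation "Qb" => AlgebraicClosure ℚ
local notation "GQ" => (AlgebraicClosure ℚ ≃ₐ[ℚ] AlgebraicClosure ℚ)

variable {P : ValuationSubring Qb} {Γ : Subgroup GQ} {V : Type} [AddCommGroup V]
  {act : GQ → V → V} {B : Subalgebra P (V → Qb)}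

/-! ### `ζ - 1 ∉ p P` -/

theorem prime_dvd_sum_range {p : ℕ} (hp : p.Prime) (hp2 : p ≠ 2) :
    p ∣ ∑ i ∈ Finset.range p, i := by
  have h1 : (∑ i ∈ Finset.range p, i) * 2 = p * (p - 1) := Finset.sum_range_id_mul_two p
  have h2 : p ∣ (∑ i ∈ Finset.range p, i) * 2 := ⟨p - 1, h1⟩
  rcases (Nat.Prime.dvd_mul hp).1 h2 with h | h
  · exact h
  · exact absurd ((Nat.prime_dvd_prime_iff_eq hp Nat.prime_two).1 h) hp2

theorem natCast_mem_nonunits {p : ℕ} (hP : P.LiesOverPrime p) (k : ℕ) :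
    ((p * k : ℕ) : Qb) ∈ P.nonunits := by
  rw [Nat.cast_mul, mul_comm]
  refine nonunits_mul_mem_left ?_ hP
  exact natCast_mem P k

/-- For an odd prime `p` and a `p`-th root of unity `ζ ≠ 1`, `ζ - 1` is not divisible by `p` in a
valuation ring over `p`. -/
theorem sub_one_not_mul_prime {p : ℕ} (hp : p.Prime) (hp2 : p ≠ 2) (hP : P.LiesOverPrime p)
    {ζ : Qb} (hζ : ζ ^ p = 1) (hζ1 : ζ ≠ 1) : ¬ ∃ t ∈ P, ζ - 1 = (p : Qb) * t := by
  rintro ⟨t, ht, h⟩
  have hp0 : (p : Qb) ≠ 0 := Nat.cast_ne_zero.mpr hp.ne_zero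
  have hζm : ζ - 1 ∈ P.nonunits := by
    rw [h]
    exact nonunits_mul_mem_right hP ht
  have hζP : ζ ∈ P := by
    have : ζ = (ζ - 1) + 1 := by ring
    rw [this]
    exact P.add_mem _ _ (mem_of_mem_nonunits hζm) P.one_mem
  set s : Qb := ∑ j ∈ Finset.range p, ∑ i ∈ Finset.range j, ζ ^ i with hs
  have hps : (p : Qb) = (1 - ζ) * s := natCast_eq_one_sub_mul_sum hζ hζ1
  -- `s` lies in the maximal ideal
  have hpow : ∀ i : ℕ, ζ ^ i - 1 ∈ P.nonunits := by
    intro i
    have : ζ ^ i - 1 = (∑ j ∈ Finset.range i, ζ ^ j) * (ζ - 1) := (geom_sum_mul ζ i).symm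
    rw [this]
    exact nonunits_mul_mem_left (P.toSubring.sum_mem fun j _ => pow_mem hζP j) hζm
  have hsm : s ∈ P.nonunits := by
    have e : s = (∑ j ∈ Finset.range p, ∑ i ∈ Finset.range j, (ζ ^ i - 1)) +
        ((∑ j ∈ Finset.range p, j : ℕ) : Qb) := by
      rw [hs, Nat.cast_sum, ← Finset.sum_add_distrib]
      refine Finset.sum_congr rfl fun j _ => ?_
      rw [Finset.sum_sub_distrib]
      simp
    rw [e]
    refine nonunits_add_mem (nonunits_sum_mem _ _ fun j _ => nonunits_sum_mem _ _ fun i _ =>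
      hpow i) ?_
    obtain ⟨k, hk⟩ := prime_dvd_sum_range hp hp2
    rw [hk]
    exact natCast_mem_nonunits hP k
  -- but `t s = -1`
  have hts : t * s = -1 := by
    have h1 : (p : Qb) = (p : Qb) * (-(t * s)) := by
      conv_lhs => rw [hps]
      have : (1 - ζ) = -((p : Qb) * t) := by rw [← h]; ring
      rw [this]
      ring
    have h2 : (1 : Qb) = -(t * s) := by
      have := mul_left_cancel₀ hp0 (by rw [mul_one]; exact h1 : (p : Qb) * 1 = (p : Qb) * (-(t * s)))
      exact this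
    rw [h2, neg_neg]
  have : (1 : Qb) ∈ P.nonunits := by
    have h3 : (1 : Qb) = -(t * s) := by rw [hts, neg_neg]
    rw [h3]
    exact nonunits_neg_mem (nonunits_mul_mem_left ht hsm)
  exact one_notMem_nonunits P this

/-! ### Coordinates of equivariant functions -/

/-- The coordinates of a `Γ`-equivariant function in a `Γ`-equivariant basis are `Γ`-fixed. -/
theorem repr_fixed_of_equivar {ι : Type} [Fintype ι] (b : Module.Basis ι Qb (V → Qb))
    (hb : ∀ i, Equivar Γ act (b i)) (hsurj : ∀ σ ∈ Γ, Function.Surjective (act σ)) {f : V → Qb}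
    (hf : Equivar Γ act f) {σ : GQ} (hσ : σ ∈ Γ) (i : ι) : σ (b.repr f i) = b.repr f i := by
  have h1 : (∑ i, σ (b.repr f i) • b i) = f := by
    funext v
    obtain ⟨u, rfl⟩ := hsurj σ hσ v
    rw [hf σ hσ]
    conv_rhs => rw [← b.sum_repr f]
    rw [Finset.sum_apply, Finset.sum_apply, map_sum]
    refine Finset.sum_congr rfl fun i _ => ?_
    rw [Pi.smul_apply, Pi.smul_apply, smul_eq_mul, smul_eq_mul, map_mul, hb i σ hσ]
  have h2 := congrArg (fun g => b.repr g i) h1
  simp only [Module.Basis.repr_sum_self] at h2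
  exact h2

/-! ### (INJ-0) -/

/-- **(INJ-0)** For an odd prime `p`: a point of the connected component of an order on a
`p`-torsion group which is fixed by the inertia group is zero. -/
theorem IsPOrder.eq_zero_of_mem_conn_of_fixed [Finite V] {p : ℕ} (hp : p.Prime) (hp2 : p ≠ 2)
    (hP : P.LiesOverPrime p) (hB : IsPOrder P Γ act B) (hI : P.inertiaSubgroupIn ℚ ≤ Γ)
    (hpV : ∀ v : V, p • v = 0) (h0 : ∀ σ ∈ Γ, act σ 0 = 0) {v : V} (hv : v ∈ hB.conn)
    (hfix : ∀ σ ∈ P.inertiaSubgroupIn ℚ, act σ v = v) : v = 0 := by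
  by_contra hne
  obtain ⟨ψ, hψ⟩ := exists_addChar_ne_one hne
  obtain ⟨n, c, g, hg, hge, hsum⟩ := hB.exists_eq_sum (hB.addChar_mem' ψ)
  have hdiff : ∀ i, ∃ t ∈ P, g i v - g i 0 = (p : Qb) * t := by
    intro i
    refine exists_eq_mul_of_inertia_fixed hp P hP (fun σ hσ => ?_) (hv _ (hg i))
    rw [map_sub, ← hge i σ (hI hσ), ← hge i σ (hI hσ), hfix σ hσ, h0 σ (hI hσ)]
  choose t ht htv using hdiff
  apply sub_one_not_mul_prime hp hp2 hP (ζ := ψ v) ?_ hψ
  · refine ⟨∑ i, (c i : Qb) * t i, P.toSubring.sum_mem fun i _ => P.mul_mem _ _ (c i).2 (ht i), ?_⟩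
    have h1 : ψ v - 1 = ∑ i, (c i : Qb) * (g i v - g i 0) := by
      have e1 := congrFun hsum v
      have e2 := congrFun hsum 0
      rw [Finset.sum_apply] at e1 e2
      rw [AddChar.map_zero_eq_one] at e2
      rw [e1, e2, ← Finset.sum_sub_distrib]
      refine Finset.sum_congr rfl fun i _ => ?_
      simp only [Pi.smul_apply, smul_eq_mul]
      ring
    rw [h1, Finset.mul_sum]
    refine Finset.sum_congr rfl fun i _ => ?_
    rw [htv i]
    ring
  · rw [← AddChar.map_nsmul_eq_pow, hpV, AddChar.map_zero_eq_one]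

/-! ### (MULT) -/

/-- **(MULT)** If the inertia group is contained in `Γ` and every additive character of the
`p`-torsion group `V` is `Γ`-equivariant, then the averages of the elements of the order are
integral. -/
theorem IsPOrder.average_mem [Fintype V] {p : ℕ} (hp : p.Prime) (hp2 : p ≠ 2)
    (hP : P.LiesOverPrime p) (hB : IsPOrder P Γ act B) (hI : P.inertiaSubgroupIn ℚ ≤ Γ)
    (hpV : ∀ v : V, p • v = 0) (hsurj : ∀ σ ∈ Γ, Function.Surjective (act σ))
    (hchar : ∀ ψ : AddChar V Qb, Equivar Γ act ψ) {f : V → Qb} (hf : f ∈ B) :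
    (∑ v, f v) / (Fintype.card V : Qb) ∈ P := by
  classical
  have hfinC := finite_addChar (V := V)
  cases nonempty_fintype (AddChar V Qb)
  obtain ⟨ι, hι, b, hb, hmem⟩ := hB.exists_basis
  -- coordinates of the characters
  let d : AddChar V Qb → ι → Qb := fun ψ i => b.repr ψ i
  have hdP : ∀ ψ i, d ψ i ∈ P := fun ψ i => (hmem _).1 (hB.addChar_mem' ψ) i
  have hdfix : ∀ ψ i, ∀ σ ∈ P.inertiaSubgroupIn ℚ, σ (d ψ i) = d ψ i := fun ψ i σ hσ =>
    repr_fixed_of_equivar b hb hsurj (hchar ψ) (hI hσ) i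
  -- separation of each nontrivial character from the trivial one by a unit
  have hsep : ∀ ψ : AddChar V Qb, ψ ≠ 1 → ∃ i, d 1 i - d ψ i ∉ P.nonunits := by
    intro ψ hψ
    by_contra hcon
    push Not at hcon
    have hdiv : ∀ i, ∃ t ∈ P, d 1 i - d ψ i = (p : Qb) * t := fun i =>
      exists_eq_mul_of_inertia_fixed hp P hP (fun σ hσ => by
        rw [map_sub, hdfix 1 i σ hσ, hdfix ψ i σ hσ]) (hcon i)
    choose t ht htd using hdiv
    obtain ⟨v, hv⟩ : ∃ v, ψ v ≠ 1 := by
      by_contra hall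
      push Not at hall
      exact hψ (DFunLike.ext _ _ fun v => by rw [hall v, AddChar.one_apply])
    apply sub_one_not_mul_prime hp hp2 hP (ζ := ψ v) ?_ hv
    · refine ⟨-∑ i, t i * b i v, P.neg_mem _ (P.toSubring.sum_mem fun i _ =>
        P.mul_mem _ _ (ht i) (hB.integral _ (mem_of_basis b hmem i) v)), ?_⟩
      have e1 : ψ v = ∑ i, d ψ i * b i v := by
        have := congrFun (b.sum_repr ψ) v
        rw [Finset.sum_apply] at this
        rw [← this]
        rfl
      have e2 : (1 : Qb) = ∑ i, d 1 i * b i v := by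
        have := congrFun (b.sum_repr ((1 : AddChar V Qb) : V → Qb)) v
        rw [Finset.sum_apply, AddChar.one_apply] at this
        rw [← this]
        rfl
      conv_lhs => rw [e1, e2]
      rw [← Finset.sum_sub_distrib, mul_neg, Finset.mul_sum, ← Finset.sum_neg_distrib]
      refine Finset.sum_congr rfl fun i _ => ?_
      have := htd i
      have h3 : d ψ i = d 1 i - (p : Qb) * t i := by rw [← this]; ring
      rw [h3]
      ring
    · rw [← AddChar.map_nsmul_eq_pow, hpV, AddChar.map_zero_eq_one]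
  -- the idempotent of the trivial character, as a product in the dual order
  have hfac : ∀ ψ : AddChar V Qb, ∃ x ∈ hB.dual, (ψ ≠ 1 → pair x ψ = 0) ∧
      pair x ((1 : AddChar V Qb) : V → Qb) = 1 := by
    intro ψ
    by_cases hψ : ψ = 1
    · exact ⟨1, hB.dual.one_mem, fun h => absurd hψ h, pair_one_addChar 1⟩
    · obtain ⟨i, hi⟩ := hsep ψ hψ
      obtain ⟨a, haA, ha⟩ := hB.exists_dual_basis_mem b hmem i
      set u : Qb := d 1 i - d ψ i with hu
      have huP : u ∈ P := P.sub_mem (hdP 1 i) (hdP ψ i)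
      have hu0 : u ≠ 0 := fun h => hi (by rw [h]; exact nonunits_zero_mem P)
      refine ⟨AddMonoidAlgebra.single (0 : V) u⁻¹ * (a - AddMonoidAlgebra.single (0 : V) (d ψ i)),
        hB.dual.mul_mem (hB.single_zero_mem_dual (inv_mem_of_notMem_nonunits huP hi))
          (hB.dual.sub_mem haA (hB.single_zero_mem_dual (hdP ψ i))), fun _ => ?_, ?_⟩
      · rw [pair_mul_addChar, pair_sub, ha, pair_single_zero_addChar, pair_single_zero_addChar,
          sub_self, mul_zero]
      · rw [pair_mul_addChar, pair_sub, ha, pair_single_zero_addChar, pair_single_zero_addChar]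
        exact inv_mul_cancel₀ hu0
  choose x hxA hx0 hx1 using hfac
  set e : AddMonoidAlgebra Qb V := ∏ ψ : AddChar V Qb, x ψ with he
  have heA : e ∈ hB.dual := hB.dual.prod_mem fun ψ _ => hxA ψ
  set avg : AddMonoidAlgebra Qb V :=
    ∑ v : V, AddMonoidAlgebra.single v ((Fintype.card V : Qb)⁻¹) with havg
  have hN : (Fintype.card V : Qb) ≠ 0 := Nat.cast_ne_zero.mpr Fintype.card_ne_zero
  have hpavg : ∀ g : V → Qb, pair avg g = (∑ v, g v) / (Fintype.card V : Qb) := by
    intro g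
    rw [havg, pair_sum_left, div_eq_inv_mul, Finset.mul_sum]
    exact Finset.sum_congr rfl fun v _ => pair_single v _ g
  have heq : e = avg := by
    apply eq_of_pair_addChar_eq
    intro φ
    rw [he, pair_prod_addChar, hpavg]
    by_cases hφ : φ = 1
    · subst hφ
      rw [Finset.prod_eq_one fun ψ _ => hx1 ψ]
      simp only [AddChar.one_apply, Finset.sum_const, Finset.card_univ, nsmul_eq_mul, mul_one]
      rw [div_self hN]
    · rw [Finset.prod_eq_zero (Finset.mem_univ φ) (hx0 φ hφ)]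
      obtain ⟨v₀, hv₀⟩ : ∃ v, φ v ≠ 1 := by
        by_contra hall
        push Not at hall
        exact hφ (DFunLike.ext _ _ fun v => by rw [hall v, AddChar.one_apply])
      have hsum : ∑ v, φ v = φ v₀ * ∑ v, φ v := by
        rw [Finset.mul_sum]
        exact (Fintype.sum_bijective (fun v => v₀ + v) (AddGroup.addLeft_bijective v₀) _ _
          (fun v => by rw [AddChar.map_add_eq_mul])).symm
      have hz : ∑ v, φ v = 0 := by
        have h3 : (φ v₀ - 1) * ∑ v, φ v = 0 := by rw [sub_mul, one_mul, ← hsum, sub_self]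
        rcases mul_eq_zero.1 h3 with h | h
        · exact absurd (sub_eq_zero.1 h) hv₀
        · exact h
      rw [hz, zero_div]
  rw [← hpavg, ← heq]
  exact heA f hf

/-! ### Along a subgroup -/

open Classical in
/-- The action restricted to a subgroup (junk value `0` where the subgroup is not preserved). -/
noncomputable def restrictAct (act : GQ → V → V) (W : AddSubgroup V) (σ : GQ) (w : W) : W :=
  if h : act σ w ∈ W then ⟨act σ w, h⟩ else 0

theorem restrictAct_coe (W : AddSubgroup V) {σ : GQ} {w : W} (h : act σ w ∈ W) :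
    ((restrictAct act W σ w : W) : V) = act σ w := by
  rw [restrictAct, dif_pos h]

/-- Restriction of an order to a `Γ`-stable subgroup. -/
theorem IsPOrder.restrict (hB : IsPOrder P Γ act B) (W : AddSubgroup V)
    (hW : ∀ σ ∈ Γ, ∀ w ∈ W, act σ w ∈ W) :
    IsPOrder P Γ (restrictAct act W) (B.map (compHom P (fun w : W => (w : V)))) :=
  hB.pullback _ (fun _ _ => rfl) Subtype.val_injective
    (fun σ hσ w => restrictAct_coe W (hW σ hσ w w.2))

/-- If `σ` acts on the `p`-th roots of unity by the `a`-th power then `a` is prime to `p`. -/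
theorem not_dvd_of_apply_eq_pow {p : ℕ} (hp : p.Prime) {σ : GQ} {a : ℕ}
    (h : ∀ ζ : Qb, ζ ^ p = 1 → σ ζ = ζ ^ a) : ¬ p ∣ a := by
  rintro ⟨k, rfl⟩
  have : NeZero (p : Qb) := ⟨Nat.cast_ne_zero.mpr hp.ne_zero⟩
  obtain ⟨ζ, hζ⟩ := HasEnoughRootsOfUnity.exists_primitiveRoot Qb p
  have h1 := h ζ hζ.pow_eq_one
  rw [pow_mul, hζ.pow_eq_one, one_pow] at h1
  have h2 : σ ζ = σ 1 := by rw [h1, map_one]
  exact hζ.ne_one hp.one_lt (σ.injective h2)

/-- If `σ` fixes the `p`-th roots of unity and acts on them by the `a`-th power, then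
`a ≡ 1 mod p`. -/
theorem modEq_one_of_apply_eq_pow {p : ℕ} (hp : p.Prime) {σ : GQ} {a : ℕ}
    (h : ∀ ζ : Qb, ζ ^ p = 1 → σ ζ = ζ ^ a) (hfix : ∀ ζ : Qb, ζ ^ p = 1 → σ ζ = ζ) :
    a ≡ 1 [MOD p] := by
  have : NeZero (p : Qb) := ⟨Nat.cast_ne_zero.mpr hp.ne_zero⟩
  obtain ⟨ζ, hζ⟩ := HasEnoughRootsOfUnity.exists_primitiveRoot Qb p
  have h1 : ζ ^ a = ζ := by rw [← h ζ hζ.pow_eq_one, hfix ζ hζ.pow_eq_one]
  have hζ0 : ζ ≠ 0 := hζ.ne_zero hp.ne_zero
  have ha : 1 ≤ a := by
    rcases Nat.eq_zero_or_pos a with rfl | h0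
    · rw [pow_zero] at h1
      exact absurd h1.symm (hζ.ne_one hp.one_lt)
    · exact h0
  have h2 : ζ ^ (a - 1) = 1 := by
    have h3 : ζ ^ (a - 1) * ζ = 1 * ζ := by
      rw [← pow_succ, Nat.sub_add_cancel ha, one_mul, h1]
    exact mul_right_cancel₀ hζ0 h3
  exact ((Nat.modEq_iff_dvd' ha).2 ((hζ.pow_eq_one_iff_dvd _).1 h2)).symm

theorem nsmul_eq_of_modEq {p : ℕ} {a b : ℕ} (h : a ≡ b [MOD p]) {w : V} (hw : p • w = 0) :
    a • w = b • w := by
  have key : ∀ c : ℕ, c • w = (c % p) • w := by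
    intro c
    conv_lhs => rw [← Nat.mod_add_div c p, add_smul, mul_comm, mul_smul, hw, smul_zero, add_zero]
  rw [key a, key b, h]

/-- **(MULT) along a subgroup.** If `Γ ⊇ I` acts on the `p`-torsion subgroup `W` through the
cyclotomic character (each `σ ∈ Γ` multiplies `W` by an integer `a` with `σ ζ = ζ ^ a` on `μ_p`),
then the averages over `W` of the elements of the order are integral. -/
theorem IsPOrder.average_subgroup_mem {p : ℕ} (hp : p.Prime) (hp2 : p ≠ 2)
    (hP : P.LiesOverPrime p) (hB : IsPOrder P Γ act B) (hI : P.inertiaSubgroupIn ℚ ≤ Γ)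
    (W : AddSubgroup V) (hpW : ∀ w ∈ W, p • w = 0)
    (hact : ∀ σ ∈ Γ, ∃ a : ℕ, (∀ w ∈ W, act σ w = a • w) ∧ ∀ ζ : Qb, ζ ^ p = 1 → σ ζ = ζ ^ a)
    [Fintype W] {f : V → Qb} (hf : f ∈ B) : (∑ w : W, f w) / (Fintype.card W : Qb) ∈ P := by
  classical
  have hW : ∀ σ ∈ Γ, ∀ w ∈ W, act σ w ∈ W := by
    intro σ hσ w hw
    obtain ⟨a, ha, -⟩ := hact σ hσ
    rw [ha w hw]
    exact W.nsmul_mem hw a
  have hB' := hB.restrict W hW
  have hcoe : ∀ σ ∈ Γ, ∀ a : ℕ, (∀ w ∈ W, act σ w = a • w) → ∀ w : W,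
      restrictAct act W σ w = a • w := by
    intro σ hσ a ha w
    apply Subtype.ext
    rw [restrictAct_coe W (hW σ hσ w w.2), ha w w.2]
    rfl
  refine hB'.average_mem hp hp2 hP hI (fun w => Subtype.ext (hpW w w.2)) ?_ ?_
    (f := fun w : W => f w) ⟨f, hf, rfl⟩
  · intro σ hσ w
    obtain ⟨a, ha, haζ⟩ := hact σ hσ
    have hcop : Nat.Coprime a p :=
      (Nat.Coprime.symm ((Nat.Prime.coprime_iff_not_dvd hp).2 (not_dvd_of_apply_eq_pow hp haζ)))
    obtain ⟨m, -, hm⟩ := Nat.exists_mul_mod_eq_one_of_coprime hcop hp.one_lt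
    refine ⟨m • w, ?_⟩
    rw [hcoe σ hσ a ha, smul_smul]
    have h1 : a * m ≡ 1 [MOD p] := by
      rw [Nat.ModEq, hm, Nat.mod_eq_of_lt hp.one_lt]
    have := nsmul_eq_of_modEq h1 (w := w) (Subtype.ext (hpW w w.2))
    rw [this, one_smul]
  · intro ψ σ hσ w
    obtain ⟨a, ha, haζ⟩ := hact σ hσ
    rw [hcoe σ hσ a ha, AddChar.map_nsmul_eq_pow]
    refine (haζ _ ?_).symm
    have hpw : p • w = 0 := Subtype.ext (hpW w w.2)
    rw [← AddChar.map_nsmul_eq_pow, hpw, AddChar.map_zero_eq_one]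

/-- The `ψ`-isotypic projector along a subgroup `W` on which `Γ ⊇ I` acts through the cyclotomic
character preserves the order. -/
theorem IsPOrder.proj_mem [Finite V] {p : ℕ} (hp : p.Prime) (hp2 : p ≠ 2)
    (hP : P.LiesOverPrime p) (hB : IsPOrder P Γ act B) (hI : P.inertiaSubgroupIn ℚ ≤ Γ)
    (W : AddSubgroup V) (hpW : ∀ w ∈ W, p • w = 0)
    (hact : ∀ σ ∈ Γ, ∃ a : ℕ, (∀ w ∈ W, act σ w = a • w) ∧ ∀ ζ : Qb, ζ ^ p = 1 → σ ζ = ζ ^ a)
    [Fintype W] (ψ : AddChar W Qb) {f : V → Qb} (hf : f ∈ B) :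
    (fun v => (∑ w : W, ψ (-w) * f (v + w)) / (Fintype.card W : Qb)) ∈ B := by
  classical
  obtain ⟨n, g, h, hg, hh, hfgh⟩ := hB.comul f hf
  obtain ⟨χ, hχ⟩ := exists_addChar_extend W ψ
  have hF : ∀ i, (fun v => χ (-v) * h i v) ∈ B := by
    intro i
    have h1 : (fun v => χ (-v) * h i v) = (χ⁻¹ : AddChar V Qb) * h i := by
      funext v
      rw [Pi.mul_apply, AddChar.inv_apply]
    rw [h1]
    exact B.mul_mem (hB.addChar_mem' χ⁻¹) (hh i)
  have hc : ∀ i, (∑ w : W, χ (-(w : V)) * h i w) / (Fintype.card W : Qb) ∈ P := fun i =>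
    hB.average_subgroup_mem hp hp2 hP hI W hpW hact (hF i)
  have e : (fun v => (∑ w : W, ψ (-w) * f (v + w)) / (Fintype.card W : Qb)) =
      ∑ i, (fun v => ((∑ w : W, χ (-(w : V)) * h i w) / (Fintype.card W : Qb)) * g i v) := by
    funext v
    rw [Finset.sum_apply]
    have h1 : ∀ w : W, ψ (-w) * f (v + w) = ∑ i, g i v * (χ (-(w : V)) * h i w) := by
      intro w
      rw [hfgh, Finset.mul_sum]
      refine Finset.sum_congr rfl fun i _ => ?_
      have : χ (-(w : V)) = ψ (-w) := by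
        have := hχ (-w)
        rwa [AddSubgroup.coe_neg] at this
      rw [this]
      ring
    rw [Finset.sum_congr rfl fun w _ => h1 w, Finset.sum_comm, Finset.sum_div]
    refine Finset.sum_congr rfl fun i _ => ?_
    rw [← Finset.mul_sum]
    ring
  rw [e]
  exact B.sum_mem fun i _ => const_mul_mem (hc i) (hg i)

open Classical in
/-- Unit Kummer witnesses, for a subgroup `W` whose coset indicators lie in the order. -/
theorem IsPOrder.exists_unit_witness_of_indicator [Finite V] {p : ℕ} (hp : p.Prime)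
    (hp2 : p ≠ 2) (hP : P.LiesOverPrime p) (hB : IsPOrder P Γ act B)
    (hI : P.inertiaSubgroupIn ℚ ≤ Γ) (hpV : ∀ v : V, p • v = 0)
    (hadd : ∀ σ ∈ Γ, ∀ v w, act σ (v + w) = act σ v + act σ w) (W : AddSubgroup V)
    (hind : ∀ e : V, (fun v => if v - e ∈ W then (1 : Qb) else 0) ∈ B)
    (hact : ∀ σ ∈ Γ, ∃ a : ℕ, (∀ w ∈ W, act σ w = a • w) ∧
      ∀ ζ : Qb, ζ ^ p = 1 → σ ζ = ζ ^ a)
    (e : V) (ψ : AddChar W Qb) :
    ∃ z : Qb, z ∈ P ∧ z ∉ P.nonunits ∧ ∀ σ ∈ Γ, (∀ ζ : Qb, ζ ^ p = 1 → σ ζ = ζ) →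
      ∀ h : act σ e - e ∈ W, σ z = ψ ⟨act σ e - e, h⟩ * z := by
  cases nonempty_fintype V
  have hpW : ∀ w ∈ W, p • w = 0 := fun w _ => hpV w
  have hN : (Fintype.card W : Qb) ≠ 0 := Nat.cast_ne_zero.mpr Fintype.card_ne_zero
  obtain ⟨χ, hχ⟩ := exists_addChar_extend W ψ
  -- the projector
  let Pr : (V → Qb) → V → Qb := fun g v => (∑ w : W, ψ (-w) * g (v + w)) / (Fintype.card W : Qb)
  have hPrB : ∀ g ∈ B, Pr g ∈ B := fun g hg => hB.proj_mem hp hp2 hP hI W hpW hact ψ hg
  -- the test function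
  set f₀ : V → Qb := fun v => χ v * (if v - e ∈ W then (1 : Qb) else 0) with hf₀
  have hf₀B : f₀ ∈ B := B.mul_mem (hB.addChar_mem' χ) (hind e)
  have hPrf₀ : Pr f₀ e = χ e := by
    have h1 : ∀ w : W, ψ (-w) * f₀ (e + w) = χ e := by
      intro w
      have hmem : e + (w : V) - e ∈ W := by
        rw [add_sub_cancel_left]
        exact w.2
      rw [hf₀]
      simp only [if_pos hmem, mul_one]
      rw [AddChar.map_add_eq_mul, hχ w, AddChar.map_neg_eq_inv]
      have hw0 : ψ w ≠ 0 := addChar_ne_zero ψ w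
      field_simp
    show (∑ w : W, ψ (-w) * f₀ (e + w)) / (Fintype.card W : Qb) = χ e
    rw [Finset.sum_congr rfl fun w _ => h1 w, Finset.sum_const, Finset.card_univ, nsmul_eq_mul,
      mul_comm, mul_div_assoc, div_self hN, mul_one]
  obtain ⟨n, c, g, hg, hge, hsum⟩ := hB.exists_eq_sum hf₀B
  have hlin : Pr f₀ e = ∑ i, (c i : Qb) * Pr (g i) e := by
    show (∑ w : W, ψ (-w) * f₀ (e + w)) / (Fintype.card W : Qb) =
      ∑ i, (c i : Qb) * ((∑ w : W, ψ (-w) * g i (e + w)) / (Fintype.card W : Qb))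
    have h1 : ∀ w : W, ψ (-w) * f₀ (e + w) = ∑ i, (c i : Qb) * (ψ (-w) * g i (e + w)) := by
      intro w
      have := congrFun hsum (e + w)
      rw [Finset.sum_apply] at this
      rw [this, Finset.mul_sum]
      refine Finset.sum_congr rfl fun i _ => ?_
      simp only [Pi.smul_apply, smul_eq_mul]
      ring
    rw [Finset.sum_congr rfl fun w _ => h1 w, Finset.sum_comm, Finset.sum_div]
    refine Finset.sum_congr rfl fun i _ => ?_
    rw [← Finset.mul_sum, mul_div_assoc]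
  -- some `Pr (g i) e` is a unit
  have hχunit : χ e ∉ P.nonunits := by
    rw [P.mem_nonunits_iff, valuation_eq_one_of_pow_eq_one P Nat.card_pos.ne'
      (addChar_pow_card χ e)]
    exact lt_irrefl 1
  obtain ⟨i, hi⟩ : ∃ i, Pr (g i) e ∉ P.nonunits := by
    by_contra hcon
    push Not at hcon
    apply hχunit
    rw [← hPrf₀, hlin]
    exact nonunits_sum_mem _ _ fun i _ => nonunits_mul_mem_left (c i).2 (hcon i)
  refine ⟨Pr (g i) e, hB.integral _ (hPrB _ (hg i)) e, hi, fun σ hσ hσζ h => ?_⟩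
  obtain ⟨a, ha, haζ⟩ := hact σ hσ
  have ha1 : a ≡ 1 [MOD p] := modEq_one_of_apply_eq_pow hp haζ hσζ
  have hσW : ∀ w : W, act σ w = w := by
    intro w
    rw [ha w w.2, nsmul_eq_of_modEq ha1 (hpV w), one_smul]
  have hσψ : ∀ w : W, σ (ψ w) = ψ w := by
    intro w
    refine hσζ _ ?_
    have hpw : p • w = 0 := Subtype.ext (hpW w w.2)
    rw [← AddChar.map_nsmul_eq_pow, hpw, AddChar.map_zero_eq_one]
  set w₀ : W := ⟨act σ e - e, h⟩ with hw₀
  show σ ((∑ w : W, ψ (-w) * g i (e + w)) / (Fintype.card W : Qb)) =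
    ψ w₀ * ((∑ w : W, ψ (-w) * g i (e + w)) / (Fintype.card W : Qb))
  rw [map_div₀, map_natCast, map_sum, ← mul_div_assoc, Finset.mul_sum]
  congr 1
  have h1 : ∀ w : W, σ (ψ (-w) * g i (e + w)) = ψ (-w) * g i (e + ((w₀ + w : W) : V)) := by
    intro w
    rw [map_mul, hσψ, ← hge i σ hσ, hadd σ hσ, hσW w]
    have h5 : e + ((w₀ + w : W) : V) = act σ e + (w : V) := by
      show e + ((act σ e - e) + (w : V)) = act σ e + (w : V)
      abel
    rw [h5]
  rw [Finset.sum_congr rfl fun w _ => h1 w]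
  refine Fintype.sum_bijective (fun w => w₀ + w) (AddGroup.addLeft_bijective w₀) _ _ fun w => ?_
  have h2 : ψ (-w) = ψ w₀ * ψ (-(w₀ + w)) := by
    rw [← AddChar.map_add_eq_mul]
    congr 1
    abel
  rw [h2]
  ring

open Classical in
/-- **Unit Kummer witnesses ("peu ramifié").**  Let `W = V⁰` be the connected component of an
order on a finite `p`-torsion group, `p` odd, on which `Γ ⊇ I` acts through the cyclotomic
character.  For every point `e` and every character `ψ` of `W` there is a unit `z` of `P` with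
`σ z = ψ (σ e - e) z` for all `σ ∈ Γ` fixing the `p`-th roots of unity. -/
theorem IsPOrder.exists_unit_witness [Finite V] {p : ℕ} (hp : p.Prime) (hp2 : p ≠ 2)
    (hP : P.LiesOverPrime p) (hB : IsPOrder P Γ act B) (hI : P.inertiaSubgroupIn ℚ ≤ Γ)
    (hpV : ∀ v : V, p • v = 0)
    (hadd : ∀ σ ∈ Γ, ∀ v w, act σ (v + w) = act σ v + act σ w)
    (hact : ∀ σ ∈ Γ, ∃ a : ℕ, (∀ w ∈ hB.conn, act σ w = a • w) ∧
      ∀ ζ : Qb, ζ ^ p = 1 → σ ζ = ζ ^ a)
    (e : V) (ψ : AddChar hB.conn Qb) :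
    ∃ z : Qb, z ∈ P ∧ z ∉ P.nonunits ∧ ∀ σ ∈ Γ, (∀ ζ : Qb, ζ ^ p = 1 → σ ζ = ζ) →
      ∀ h : act σ e - e ∈ hB.conn, σ z = ψ ⟨act σ e - e, h⟩ * z :=
  hB.exists_unit_witness_of_indicator hp hp2 hP hI hpV hadd hB.conn
    (fun e => hB.indicator_coset_mem e) hact e ψ

end Fermat.Agent.Lib.FinFlat
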