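import Mathlib
import Fermat.Prelude.Def_GaloisRep_Flat
import Fermat.Agent.Lib.GalQbar

/-!
# Hopf orders give the Prelude's finite flat data

`R = ℤ_(p)` (`GaloisRep.ratLocalizedAt p`), `Qbar = AlgebraicClosure ℚ`, `GQ = Gal(Qbar/ℚ)`.

For a finite abelian group `V` with a map `act : GQ → V → V`, a *Hopf order* is an
`R`-subalgebra `B` of the algebra of functions `V → Qbar` which is finitely generated as a module,
consists of Galois-equivariant functions, separates the points of `V` and is stable under the
comultiplication `f ↦ ((v, w) ↦ f (v + w))` (in the sense that this function of two variables is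
a finite sum of products `g v * h w` with `g, h ∈ B`).

Main result: `IsHopfOrder.exists_hopfAlgebra` — such a `B` carries a structure of commutative
cocommutative Hopf algebra, finite and flat over `R`, whose `Qbar`-points with the convolution
product are `V` with its Galois action: this is literally the datum demanded by
`GaloisRepAdic.IsFlatAt` and by the finite flat statements of the Prelude.
-/

set_option autoImplicit false

open scoped TensorProduct

namespace Fermat.Agent.Lib.FinFlat

/-- The base ring `ℤ_(p)` of the Prelude's flat data. -/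
abbrev Rp (p : ℕ) : Type := ↥(GaloisRep.ratLocalizedAt p)

/-- The algebraic closure of `ℚ` used by the Prelude. -/
abbrev Qbar : Type := AlgebraicClosure ℚ

/-- The absolute Galois group of `ℚ`. -/
abbrev GQ : Type := Qbar ≃ₐ[ℚ] Qbar

section BaseRing

variable (p : ℕ)

theorem mem_ratLocalizedAt_iff (q : ℚ) : q ∈ GaloisRep.ratLocalizedAt p ↔ q.den.Coprime p :=
  Iff.rfl

theorem intCast_mem_ratLocalizedAt (z : ℤ) : (z : ℚ) ∈ GaloisRep.ratLocalizedAt p := by
  rw [mem_ratLocalizedAt_iff]; simp

variable [Fact p.Prime]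

theorem mem_or_inv_mem_ratLocalizedAt (q : ℚ) :
    q ∈ GaloisRep.ratLocalizedAt p ∨ q⁻¹ ∈ GaloisRep.ratLocalizedAt p := by
  have hp : p.Prime := Fact.out
  by_cases hq : q = 0
  · left; subst hq; exact Subring.zero_mem _
  by_cases h : q.den.Coprime p
  · exact Or.inl h
  · right
    rw [mem_ratLocalizedAt_iff, Rat.den_inv_of_ne_zero hq]
    have hpd : p ∣ q.den := by
      by_contra hpd
      exact h ((Nat.Prime.coprime_iff_not_dvd hp).mpr hpd).symm
    have hcop : q.num.natAbs.Coprime q.den := q.reduced
    refine ((Nat.Prime.coprime_iff_not_dvd hp).mpr fun hpn => ?_).symm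
    exact hp.one_lt.ne' (Nat.eq_one_of_dvd_coprimes hcop hpn hpd)

instance preValuationRing_Rp : PreValuationRing (Rp p) := by
  refine ⟨fun a b => ?_⟩
  by_cases hb : b = 0
  · exact ⟨0, Or.inl (by rw [hb, mul_zero])⟩
  by_cases ha : a = 0
  · exact ⟨0, Or.inr (by rw [ha, mul_zero])⟩
  have hb' : (b : ℚ) ≠ 0 := fun h => hb (Subtype.ext h)
  have ha' : (a : ℚ) ≠ 0 := fun h => ha (Subtype.ext h)
  rcases mem_or_inv_mem_ratLocalizedAt p ((a : ℚ) / b) with h | h
  · refine ⟨⟨_, h⟩, Or.inr (Subtype.ext ?_)⟩
    show (b : ℚ) * ((a : ℚ) / b) = a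
    field_simp
  · refine ⟨⟨_, h⟩, Or.inl (Subtype.ext ?_)⟩
    show (a : ℚ) * ((a : ℚ) / b)⁻¹ = b
    field_simp

/-- `ℤ_(p)` is a valuation ring. -/
instance valuationRing_Rp : ValuationRing (Rp p) := ⟨⟩

omit [Fact p.Prime] in
/-- `ℚ` is the fraction field of `ℤ_(p)`. -/
instance isFractionRing_Rp : IsFractionRing (Rp p) ℚ := by
  refine IsFractionRing.of_field (Rp p) ℚ fun z => ?_
  refine ⟨⟨(z.num : ℚ), intCast_mem_ratLocalizedAt p _⟩,
    ⟨((z.den : ℤ) : ℚ), intCast_mem_ratLocalizedAt p _⟩, ?_⟩
  show z = (z.num : ℚ) / ((z.den : ℤ) : ℚ)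
  simp [Rat.num_div_den]

/-- A rational number which is integral over `ℤ_(p)` lies in `ℤ_(p)`. -/
theorem exists_Rp_of_isIntegral (q : ℚ) (hq : IsIntegral (Rp p) q) :
    ∃ r : Rp p, algebraMap (Rp p) ℚ r = q :=
  IsIntegrallyClosed.isIntegral_iff.mp hq

end BaseRing

section Descent

/-- Galois descent of linear independence: a family of Galois-equivariant functions
`V → Qbar` which is linearly independent over `ℚ` is linearly independent over `Qbar`. -/
theorem linearIndependent_of_equivariant {V ι : Type*} (act : GQ → V → V) (b : ι → V → Qbar)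
    (hb : ∀ i (σ : GQ) v, b i (act σ v) = σ (b i v))
    (hind : LinearIndependent ℚ b) : LinearIndependent Qbar b := by
  classical
  rw [linearIndependent_iff']
  intro s
  induction s using Finset.induction_on with
  | empty => intro g _ i hi; exact absurd hi (Finset.notMem_empty i)
  | insert a s has ih =>
    intro g hg
    rw [Finset.sum_insert has] at hg
    by_cases hga : g a = 0
    · rw [hga, zero_smul, zero_add] at hg
      intro i hi
      rcases Finset.mem_insert.mp hi with rfl | hi
      · exact hga
      · exact ih g hg i hi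
    · exfalso
      set h : ι → Qbar := fun i => g i / g a with hh
      have hrel : ∀ v, b a v + ∑ i ∈ s, h i * b i v = 0 := by
        intro v
        have h1 := congrFun hg v
        simp only [Pi.add_apply, Pi.smul_apply, Finset.sum_apply, smul_eq_mul,
          Pi.zero_apply] at h1
        have h2 : g a * (b a v + ∑ i ∈ s, h i * b i v) = 0 := by
          rw [mul_add, Finset.mul_sum, ← h1]
          congr 1
          refine Finset.sum_congr rfl fun i _ => ?_
          simp only [hh]
          field_simp
        exact (mul_eq_zero.mp h2).resolve_left hga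
      have hfix : ∀ (σ : GQ) i, i ∈ s → σ (h i) = h i := by
        intro σ
        have hrel' : ∀ v, b a v + ∑ i ∈ s, σ (h i) * b i v = 0 := by
          intro v
          have h1 := congrArg σ (hrel (act σ.symm v))
          rw [map_add, map_sum, map_zero] at h1
          simp only [map_mul, hb, AlgEquiv.apply_symm_apply] at h1
          exact h1
        have hdiff : ∑ i ∈ s, (σ (h i) - h i) • b i = 0 := by
          funext v
          simp only [Finset.sum_apply, Pi.smul_apply, smul_eq_mul, Pi.zero_apply, sub_mul,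
            Finset.sum_sub_distrib]
          have h1 := hrel v
          have h2 := hrel' v
          linear_combination h2 - h1
        intro i hi
        exact sub_eq_zero.mp (ih _ hdiff i hi)
      choose! q hq using fun i (hi : i ∈ s) =>
        GalQbar.exists_rat_of_fixed (h i) (fun σ => hfix σ i hi)
      have hQ : ∑ i ∈ insert a s, (if i = a then (1 : ℚ) else q i) • b i = 0 := by
        rw [Finset.sum_insert has, if_pos rfl, one_smul]
        funext v
        simp only [Pi.add_apply, Finset.sum_apply, Pi.smul_apply, Pi.zero_apply]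
        rw [← hrel v]
        congr 1
        refine Finset.sum_congr rfl fun i hi => ?_
        have hia : i ≠ a := fun h => has (h ▸ hi)
        rw [if_neg hia, ← hq i hi, Algebra.smul_def]
      have h1 := linearIndependent_iff'.mp hind _ _ hQ a (Finset.mem_insert_self a s)
      simp at h1

/-- Linear independence of "external products" of independent families of functions. -/
theorem linearIndependent_prod {K X Y ι κ : Type*} [Field K] [Finite ι] [Finite κ]
    (b : ι → X → K) (c : κ → Y → K)
    (hb : LinearIndependent K b) (hc : LinearIndependent K c) :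
    LinearIndependent K (fun (ij : ι × κ) (xy : X × Y) => b ij.1 xy.1 * c ij.2 xy.2) := by
  classical
  have := Fintype.ofFinite ι
  have := Fintype.ofFinite κ
  rw [Fintype.linearIndependent_iff] at hb hc ⊢
  intro g hg ij
  obtain ⟨i, j⟩ := ij
  have h1 : ∀ y i, ∑ j, g (i, j) * c j y = 0 := by
    intro y
    refine hb (fun i => ∑ j, g (i, j) * c j y) ?_
    funext x
    have h2 := congrFun hg (x, y)
    simp only [Finset.sum_apply, Pi.smul_apply, smul_eq_mul, Pi.zero_apply] at h2 ⊢
    rw [← h2, Fintype.sum_prod_type]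
    refine Finset.sum_congr rfl fun i _ => ?_
    rw [Finset.sum_mul]
    refine Finset.sum_congr rfl fun j _ => ?_
    ring
  refine hc (fun j => g (i, j)) ?_ j
  funext y
  simpa using h1 y i

end Descent

section Box

variable {S K : Type} [CommRing S] [Field K] [Algebra S K]
variable {A A' X Y : Type} [CommRing A] [CommRing A'] [Algebra S A] [Algebra S A']

/-- The "external product" of two algebra maps into function algebras:
`a ⊗ a' ↦ ((x, y) ↦ φ a x * ψ a' y)`. -/
noncomputable def boxMap (φ : A →ₐ[S] (X → K)) (ψ : A' →ₐ[S] (Y → K)) :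
    A ⊗[S] A' →ₐ[S] (X × Y → K) :=
  Algebra.TensorProduct.productMap
    ((AlgHom.pi (fun xy : X × Y => Pi.evalAlgHom S (fun _ : X => K) xy.1)).comp φ)
    ((AlgHom.pi (fun xy : X × Y => Pi.evalAlgHom S (fun _ : Y => K) xy.2)).comp ψ)

@[simp]
theorem boxMap_tmul (φ : A →ₐ[S] (X → K)) (ψ : A' →ₐ[S] (Y → K)) (a : A) (a' : A')
    (xy : X × Y) : boxMap φ ψ (a ⊗ₜ[S] a') xy = φ a xy.1 * ψ a' xy.2 := by
  simp [boxMap]

/-- An algebra map `φ : A → (X → K)` is *independent* if it sends some finite `S`-basis of `A`
to a `K`-linearly independent family of functions. -/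
def IndepMap (φ : A →ₐ[S] (X → K)) : Prop :=
  ∃ (ι : Type) (_ : Fintype ι) (β : Module.Basis ι S A), LinearIndependent K (fun i => φ (β i))

theorem IndepMap.injective [FaithfulSMul S K] {φ : A →ₐ[S] (X → K)} (h : IndepMap φ) :
    Function.Injective φ := by
  obtain ⟨ι, _, β, hβ⟩ := h
  have hβ' : LinearIndependent S (fun i => φ (β i)) := hβ.restrict_scalars' S
  rw [injective_iff_map_eq_zero]
  intro a ha
  have h1 : ∑ i, β.repr a i • φ (β i) = 0 := by
    rw [← ha]
    conv_rhs => rw [← β.sum_repr a]
    rw [map_sum]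
    exact Finset.sum_congr rfl fun i _ => (map_smul φ _ _).symm
  have h2 := Fintype.linearIndependent_iff.mp hβ' _ h1
  rw [← β.sum_repr a]
  simp [h2]

theorem IndepMap.box {φ : A →ₐ[S] (X → K)} {ψ : A' →ₐ[S] (Y → K)} (hφ : IndepMap φ)
    (hψ : IndepMap ψ) : IndepMap (boxMap φ ψ) := by
  obtain ⟨ι, _, β, hβ⟩ := hφ
  obtain ⟨κ, _, γ, hγ⟩ := hψ
  refine ⟨ι × κ, inferInstance, β.tensorProduct γ, ?_⟩
  have h := linearIndependent_prod _ _ hβ hγ
  convert h using 1
  funext ij xy
  rw [Module.Basis.tensorProduct_apply, boxMap_tmul]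

end Box

section Order

theorem algebraMap_Rp_Qbar_injective (p : ℕ) : Function.Injective (algebraMap (Rp p) Qbar) := by
  rw [IsScalarTower.algebraMap_eq (Rp p) ℚ Qbar]
  exact (algebraMap ℚ Qbar).injective.comp Subtype.val_injective

instance faithfulSMul_Rp_Qbar (p : ℕ) : FaithfulSMul (Rp p) Qbar :=
  (faithfulSMul_iff_algebraMap_injective _ _).mpr (algebraMap_Rp_Qbar_injective p)

variable {p : ℕ} {V : Type}

theorem isTorsionFree_subalgebra (B : Subalgebra (Rp p) (V → Qbar)) :
    Module.IsTorsionFree (Rp p) B := by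
  refine ⟨fun r hr f g hfg => ?_⟩
  have hr0 : algebraMap (Rp p) Qbar r ≠ 0 := by
    rw [Ne, ← map_zero (algebraMap (Rp p) Qbar)]
    exact fun h => hr.ne_zero (algebraMap_Rp_Qbar_injective p h)
  apply Subtype.ext
  funext v
  have h1 : algebraMap (Rp p) Qbar r * (f : V → Qbar) v = algebraMap (Rp p) Qbar r *
      (g : V → Qbar) v := by
    have h2 := congrFun (congrArg Subtype.val hfg) v
    simpa [Algebra.smul_def] using h2
  exact mul_left_cancel₀ hr0 h1

theorem flat_subalgebra [Fact p.Prime] (B : Subalgebra (Rp p) (V → Qbar)) :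
    Module.Flat (Rp p) B := by
  rw [Module.Flat.flat_iff_torsion_eq_bot_of_isBezout,
    ← Submodule.isTorsionFree_iff_torsion_eq_bot]
  exact isTorsionFree_subalgebra B

theorem free_subalgebra [Fact p.Prime] (B : Subalgebra (Rp p) (V → Qbar))
    (hfg : (Subalgebra.toSubmodule B).FG) : Module.Free (Rp p) B := by
  have := flat_subalgebra B
  have : Module.Finite (Rp p) B := Module.Finite.iff_fg.mpr hfg
  exact Module.free_of_flat_of_isLocalRing

variable [AddCommGroup V]

/-- A *Hopf order* for a finite abelian group `V` with a map `act : GQ → V → V`: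
an `ℤ_(p)`-subalgebra of the functions `V → Qbar`, finitely generated as a module, made of
Galois-equivariant functions, separating the points of `V` and stable under the comultiplication
`f ↦ ((v, w) ↦ f (v + w))`. -/
structure IsHopfOrder (p : ℕ) {V : Type} [AddCommGroup V] (act : GQ → V → V)
    (B : Subalgebra (Rp p) (V → Qbar)) : Prop where
  fg : (Subalgebra.toSubmodule B).FG
  equivariant : ∀ f ∈ B, ∀ (σ : GQ) (v : V), f (act σ v) = σ (f v)
  separates : ∀ v w : V, (∀ f ∈ B, f v = f w) → v = w
  comul : ∀ f ∈ B, ∃ (n : ℕ) (g h : Fin n → B), ∀ v w : V,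
    f (v + w) = ∑ i, (g i : V → Qbar) v * (h i : V → Qbar) w

namespace IsHopfOrder

variable {act : GQ → V → V} {B : Subalgebra (Rp p) (V → Qbar)}

/-- The Galois action is automatically additive. -/
theorem act_add (hB : IsHopfOrder p act B) (σ : GQ) (v w : V) :
    act σ (v + w) = act σ v + act σ w := by
  refine hB.separates _ _ fun f hf => ?_
  obtain ⟨n, g, h, hgh⟩ := hB.comul f hf
  rw [hB.equivariant f hf, hgh, hgh, map_sum]
  refine Finset.sum_congr rfl fun i _ => ?_
  rw [map_mul, hB.equivariant _ (g i).2, hB.equivariant _ (h i).2]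

theorem act_zero (hB : IsHopfOrder p act B) (σ : GQ) : act σ 0 = 0 := by
  have h := hB.act_add σ 0 0
  rw [add_zero] at h
  exact (add_eq_left.mp h.symm)

theorem act_injective (hB : IsHopfOrder p act B) (σ : GQ) : Function.Injective (act σ) := by
  intro v w hvw
  refine hB.separates _ _ fun f hf => ?_
  have h1 := hB.equivariant f hf σ v
  rw [hvw, hB.equivariant f hf σ w] at h1
  exact (σ.injective h1).symm

theorem moduleFinite (hB : IsHopfOrder p act B) : Module.Finite (Rp p) B :=
  Module.Finite.iff_fg.mpr hB.fg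

variable [Fact p.Prime]

/-- The inclusion of a Hopf order into the function algebra is an independent map: an
`ℤ_(p)`-basis of `B` stays linearly independent over `Qbar`. -/
theorem indepMap_val (hB : IsHopfOrder p act B) : IndepMap B.val := by
  have := free_subalgebra B hB.fg
  have := hB.moduleFinite
  let β := Module.Free.chooseBasis (Rp p) B
  refine ⟨Module.Free.ChooseBasisIndex (Rp p) B, inferInstance, β, ?_⟩
  have h1 : LinearIndependent (Rp p) (fun i => (B.val (β i) : V → Qbar)) :=
    β.linearIndependent.map' B.val.toLinearMap (LinearMap.ker_eq_bot.mpr Subtype.val_injective)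
  have h2 : LinearIndependent ℚ (fun i => (B.val (β i) : V → Qbar)) :=
    LinearIndependent.localization ℚ (nonZeroDivisors (Rp p)) h1
  exact linearIndependent_of_equivariant act _ (fun i σ v => hB.equivariant _ (β i).2 σ v) h2

/-- The value at `0` of an element of a Hopf order lies in `ℤ_(p)`. -/
theorem exists_eval_zero (hB : IsHopfOrder p act B) (f : B) :
    ∃ r : Rp p, algebraMap (Rp p) Qbar r = (f : V → Qbar) 0 := by
  have := hB.moduleFinite
  obtain ⟨q, hq⟩ := GalQbar.exists_rat_of_fixed ((f : V → Qbar) 0) (fun σ => by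
    rw [← hB.equivariant _ f.2, hB.act_zero])
  have hint : IsIntegral (Rp p) ((f : V → Qbar) 0) := by
    have h1 : IsIntegral (Rp p) f := IsIntegral.of_finite (Rp p) f
    exact h1.map ((Pi.evalAlgHom (Rp p) (fun _ : V => Qbar) 0).comp B.val)
  rw [← hq] at hint
  have hq' : IsIntegral (Rp p) q :=
    (isIntegral_algebraMap_iff (algebraMap ℚ Qbar).injective).mp hint
  obtain ⟨r, hr⟩ := exists_Rp_of_isIntegral p q hq'
  exact ⟨r, by rw [← hq, ← hr, ← IsScalarTower.algebraMap_apply]⟩

end IsHopfOrder

end Order

section Structure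

variable {p : ℕ} {V : Type} [AddCommGroup V] [Fact p.Prime]
variable {act : GQ → V → V} {B : Subalgebra (Rp p) (V → Qbar)}

/-- A linear map sending a finite basis to a linearly independent family is injective. -/
theorem injective_of_basis_linearIndependent {S M N ι : Type*} [CommRing S] [AddCommGroup M]
    [AddCommGroup N] [Module S M] [Module S N] [Fintype ι] (β : Module.Basis ι S M)
    (φ : M →ₗ[S] N) (h : LinearIndependent S (fun i => φ (β i))) : Function.Injective φ := by
  rw [injective_iff_map_eq_zero]
  intro a ha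
  have h1 : ∑ i, β.repr a i • φ (β i) = 0 := by
    rw [← ha]
    conv_rhs => rw [← β.sum_repr a]
    rw [map_sum]
    exact Finset.sum_congr rfl fun i _ => (map_smul φ _ _).symm
  have h2 := Fintype.linearIndependent_iff.mp h _ h1
  rw [← β.sum_repr a]
  simp [h2]

/-- Evaluation at a point, as an algebra map on a subalgebra of functions. -/
noncomputable def evPt (B : Subalgebra (Rp p) (V → Qbar)) (v : V) : B →ₐ[Rp p] Qbar :=
  (Pi.evalAlgHom (Rp p) (fun _ : V => Qbar) v).comp B.val

omit [AddCommGroup V] [Fact p.Prime] in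
@[simp] theorem evPt_apply (v : V) (f : B) : evPt B v f = (f : V → Qbar) v := rfl

/-- The embedding `B ⊗ B → (V × V → Qbar)`. -/
noncomputable abbrev mu2 (B : Subalgebra (Rp p) (V → Qbar)) :
    B ⊗[Rp p] B →ₐ[Rp p] (V × V → Qbar) := boxMap B.val B.val

/-- The embedding `B ⊗ (B ⊗ B) → (V × (V × V) → Qbar)`. -/
noncomputable abbrev mu3 (B : Subalgebra (Rp p) (V → Qbar)) :
    B ⊗[Rp p] (B ⊗[Rp p] B) →ₐ[Rp p] (V × (V × V) → Qbar) := boxMap B.val (boxMap B.val B.val)

/-- Pull back a function along the addition `V × V → V`. -/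
noncomputable def addHom (B : Subalgebra (Rp p) (V → Qbar)) : B →ₐ[Rp p] (V × V → Qbar) :=
  (AlgHom.pi (fun vw : V × V => Pi.evalAlgHom (Rp p) (fun _ : V => Qbar) (vw.1 + vw.2))).comp B.val

omit [Fact p.Prime] in
theorem addHom_apply (f : B) (vw : V × V) : addHom B f vw = (f : V → Qbar) (vw.1 + vw.2) := rfl

namespace IsHopfOrder

theorem mu2_injective (hB : IsHopfOrder p act B) : Function.Injective (mu2 B) :=
  (hB.indepMap_val.box hB.indepMap_val).injective

theorem mu3_injective (hB : IsHopfOrder p act B) : Function.Injective (mu3 B) :=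
  (hB.indepMap_val.box (hB.indepMap_val.box hB.indepMap_val)).injective

omit [Fact p.Prime] in
theorem addHom_mem_range (hB : IsHopfOrder p act B) (f : B) : addHom B f ∈ (mu2 B).range := by
  obtain ⟨n, g, h, hgh⟩ := hB.comul f f.2
  refine (AlgHom.mem_range _).mpr ⟨∑ i, g i ⊗ₜ[Rp p] h i, ?_⟩
  funext vw
  rw [map_sum, Finset.sum_apply, addHom_apply, hgh]
  refine Finset.sum_congr rfl fun i _ => ?_
  rw [boxMap_tmul]
  rfl

/-- The counit of a Hopf order: evaluation at `0`. -/
noncomputable def counitFun (hB : IsHopfOrder p act B) (f : B) : Rp p :=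
  Classical.choose (hB.exists_eval_zero f)

theorem algebraMap_counitFun (hB : IsHopfOrder p act B) (f : B) :
    algebraMap (Rp p) Qbar (hB.counitFun f) = (f : V → Qbar) 0 :=
  Classical.choose_spec (hB.exists_eval_zero f)

/-- The counit of a Hopf order, as an algebra map. -/
noncomputable def counitHom (hB : IsHopfOrder p act B) : B →ₐ[Rp p] Rp p where
  toFun := hB.counitFun
  map_one' := algebraMap_Rp_Qbar_injective p (by rw [algebraMap_counitFun, map_one]; rfl)
  map_mul' f g := algebraMap_Rp_Qbar_injective p (by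
    rw [map_mul, algebraMap_counitFun, algebraMap_counitFun, algebraMap_counitFun]; rfl)
  map_zero' := algebraMap_Rp_Qbar_injective p (by rw [algebraMap_counitFun, map_zero]; rfl)
  map_add' f g := algebraMap_Rp_Qbar_injective p (by
    rw [map_add, algebraMap_counitFun, algebraMap_counitFun, algebraMap_counitFun]; rfl)
  commutes' r := algebraMap_Rp_Qbar_injective p (by rw [algebraMap_counitFun]; rfl)

theorem algebraMap_counitHom (hB : IsHopfOrder p act B) (f : B) :
    algebraMap (Rp p) Qbar (hB.counitHom f) = (f : V → Qbar) 0 :=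
  hB.algebraMap_counitFun f

/-- The comultiplication of a Hopf order. -/
noncomputable def comulHom (hB : IsHopfOrder p act B) : B →ₐ[Rp p] B ⊗[Rp p] B :=
  ((AlgEquiv.ofInjective (mu2 B) hB.mu2_injective).symm : (mu2 B).range →ₐ[Rp p] _).comp
    ((addHom B).codRestrict (mu2 B).range hB.addHom_mem_range)

theorem mu2_comulHom (hB : IsHopfOrder p act B) (f : B) (v w : V) :
    mu2 B (hB.comulHom f) (v, w) = (f : V → Qbar) (v + w) := by
  have h1 : mu2 B (hB.comulHom f) = addHom B f := by
    have h2 := (AlgEquiv.ofInjective (mu2 B) hB.mu2_injective).apply_symm_apply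
      ((addHom B).codRestrict (mu2 B).range hB.addHom_mem_range f)
    exact congrArg Subtype.val h2
  rw [h1, addHom_apply]

end IsHopfOrder

end Structure

section Laws

variable {p : ℕ} {V : Type} [AddCommGroup V] [Fact p.Prime]
variable {act : GQ → V → V} {B : Subalgebra (Rp p) (V → Qbar)}

namespace IsHopfOrder

theorem val_lid_map_counit (hB : IsHopfOrder p act B) (t : B ⊗[Rp p] B) (w : V) :
    B.val (Algebra.TensorProduct.lid (Rp p) B
      (Algebra.TensorProduct.map hB.counitHom (AlgHom.id (Rp p) B) t)) w = mu2 B t (0, w) := by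
  induction t using TensorProduct.induction_on with
  | zero => simp
  | tmul g h =>
    rw [Algebra.TensorProduct.map_tmul, Algebra.TensorProduct.lid_tmul, boxMap_tmul]
    have h2 : B.val (hB.counitHom g • (AlgHom.id (Rp p) B) h) w =
        hB.counitHom g • (h : V → Qbar) w := rfl
    rw [h2, Algebra.smul_def, hB.algebraMap_counitHom]
    rfl
  | add x y hx hy => simp only [map_add, Pi.add_apply, hx, hy]

theorem val_rid_map_counit (hB : IsHopfOrder p act B) (t : B ⊗[Rp p] B) (v : V) :
    B.val (Algebra.TensorProduct.rid (Rp p) (Rp p) B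
      (Algebra.TensorProduct.map (AlgHom.id (Rp p) B) hB.counitHom t)) v = mu2 B t (v, 0) := by
  induction t using TensorProduct.induction_on with
  | zero => simp
  | tmul g h =>
    rw [Algebra.TensorProduct.map_tmul, Algebra.TensorProduct.rid_tmul, boxMap_tmul]
    have h2 : B.val (hB.counitHom h • (AlgHom.id (Rp p) B) g) v =
        hB.counitHom h • (g : V → Qbar) v := rfl
    rw [h2, Algebra.smul_def, hB.algebraMap_counitHom, mul_comm]
    rfl
  | add x y hx hy => simp only [map_add, Pi.add_apply, hx, hy]

theorem mu3_map_id_comul (hB : IsHopfOrder p act B) (t : B ⊗[Rp p] B) (u v w : V) :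
    mu3 B (Algebra.TensorProduct.map (AlgHom.id (Rp p) B) hB.comulHom t) (u, (v, w)) =
      mu2 B t (u, v + w) := by
  induction t using TensorProduct.induction_on with
  | zero => simp
  | tmul g h =>
    rw [Algebra.TensorProduct.map_tmul, boxMap_tmul, boxMap_tmul, hB.mu2_comulHom]
    rfl
  | add x y hx hy => simp only [map_add, Pi.add_apply, hx, hy]

omit [AddCommGroup V] [Fact p.Prime] in
theorem mu3_assoc_tmul (s : B ⊗[Rp p] B) (h : B) (u v w : V) :
    mu3 B (Algebra.TensorProduct.assoc (Rp p) (Rp p) (Rp p) B B B (s ⊗ₜ[Rp p] h)) (u, (v, w)) =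
      mu2 B s (u, v) * (h : V → Qbar) w := by
  induction s using TensorProduct.induction_on with
  | zero => simp
  | tmul a b =>
    rw [Algebra.TensorProduct.assoc_tmul, boxMap_tmul, boxMap_tmul, boxMap_tmul]
    simp [mul_assoc]
  | add x y hx hy => simp only [TensorProduct.add_tmul, map_add, Pi.add_apply, hx, hy, add_mul]

theorem mu3_assoc_map_comul_id (hB : IsHopfOrder p act B) (t : B ⊗[Rp p] B) (u v w : V) :
    mu3 B (Algebra.TensorProduct.assoc (Rp p) (Rp p) (Rp p) B B B
      (Algebra.TensorProduct.map hB.comulHom (AlgHom.id (Rp p) B) t)) (u, (v, w)) =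
      mu2 B t (u + v, w) := by
  induction t using TensorProduct.induction_on with
  | zero => simp
  | tmul g h =>
    rw [Algebra.TensorProduct.map_tmul, AlgHom.id_apply, mu3_assoc_tmul, hB.mu2_comulHom,
      boxMap_tmul]
    rfl
  | add x y hx hy => simp only [map_add, Pi.add_apply, hx, hy]

omit [AddCommGroup V] [Fact p.Prime] in
theorem mu2_comm (t : B ⊗[Rp p] B) (v w : V) :
    mu2 B (TensorProduct.comm (Rp p) B B t) (v, w) = mu2 B t (w, v) := by
  induction t using TensorProduct.induction_on with
  | zero => simp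
  | tmul g h =>
    rw [TensorProduct.comm_tmul, boxMap_tmul, boxMap_tmul]
    exact mul_comm _ _
  | add x y hx hy => simp only [map_add, Pi.add_apply, hx, hy]

omit [AddCommGroup V] [Fact p.Prime] in
theorem lift_evPt (t : B ⊗[Rp p] B) (v w : V) :
    Algebra.TensorProduct.lift (evPt B v) (evPt B w) (fun _ _ => Commute.all _ _) t =
      mu2 B t (v, w) := by
  induction t using TensorProduct.induction_on with
  | zero => simp
  | tmul g h =>
    rw [Algebra.TensorProduct.lift_tmul, boxMap_tmul]
    rfl
  | add x y hx hy => simp only [map_add, Pi.add_apply, hx, hy]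

end IsHopfOrder

end Laws

section Hopf

variable {p : ℕ} {V : Type} [AddCommGroup V] [Fact p.Prime]
variable {act : GQ → V → V} {B : Subalgebra (Rp p) (V → Qbar)}

namespace IsHopfOrder

/-- The bialgebra structure of a Hopf order. -/
noncomputable abbrev bialgebra (hB : IsHopfOrder p act B) : Bialgebra (Rp p) B :=
  Bialgebra.ofAlgHom hB.comulHom hB.counitHom
    (by
      refine AlgHom.ext fun f => hB.mu3_injective ?_
      funext ⟨u, v, w⟩
      show mu3 B (Algebra.TensorProduct.assoc (Rp p) (Rp p) (Rp p) B B B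
        (Algebra.TensorProduct.map hB.comulHom (AlgHom.id (Rp p) B) (hB.comulHom f))) (u, (v, w)) =
        mu3 B (Algebra.TensorProduct.map (AlgHom.id (Rp p) B) hB.comulHom (hB.comulHom f))
          (u, (v, w))
      rw [hB.mu3_assoc_map_comul_id, hB.mu3_map_id_comul, hB.mu2_comulHom, hB.mu2_comulHom,
        add_assoc])
    (by
      refine AlgHom.ext fun f => ?_
      show Algebra.TensorProduct.map hB.counitHom (AlgHom.id (Rp p) B) (hB.comulHom f) =
        (Algebra.TensorProduct.lid (Rp p) B).symm f
      rw [AlgEquiv.eq_symm_apply]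
      refine Subtype.ext (funext fun w => ?_)
      have h1 := hB.val_lid_map_counit (hB.comulHom f) w
      rw [hB.mu2_comulHom, zero_add] at h1
      exact h1)
    (by
      refine AlgHom.ext fun f => ?_
      show Algebra.TensorProduct.map (AlgHom.id (Rp p) B) hB.counitHom (hB.comulHom f) =
        (Algebra.TensorProduct.rid (Rp p) (Rp p) B).symm f
      rw [AlgEquiv.eq_symm_apply]
      refine Subtype.ext (funext fun v => ?_)
      have h1 := hB.val_rid_map_counit (hB.comulHom f) v
      rw [hB.mu2_comulHom, add_zero] at h1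
      exact h1)

omit [Fact p.Prime] in
theorem comp_nsmul_mem (hB : IsHopfOrder p act B)
    (h0 : ∀ f : B, ∃ r : Rp p, algebraMap (Rp p) Qbar r = (f : V → Qbar) 0) (m : ℕ) :
    ∀ f ∈ B, (fun v : V => f (m • v)) ∈ B := by
  induction m with
  | zero =>
    intro f hf
    obtain ⟨r, hr⟩ := h0 ⟨f, hf⟩
    have h1 : (fun v : V => f (0 • v)) = algebraMap (Rp p) (V → Qbar) r := by
      funext v
      rw [zero_smul, Pi.algebraMap_apply, hr]
    rw [h1]
    exact B.algebraMap_mem r
  | succ m ih =>
    intro f hf
    obtain ⟨n, g, h, hgh⟩ := hB.comul f hf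
    have h1 : (fun v : V => f ((m + 1) • v)) =
        ∑ i, (fun v : V => (g i : V → Qbar) (m • v)) * (h i : V → Qbar) := by
      funext v
      rw [succ_nsmul, hgh, Finset.sum_apply]
      rfl
    rw [h1]
    exact B.sum_mem fun i _ => B.mul_mem (ih _ (g i).2) (h i).2

theorem comp_neg_mem [Finite V] (hB : IsHopfOrder p act B) :
    ∀ f ∈ B, (fun v : V => f (-v)) ∈ B := by
  intro f hf
  have hV : ∀ v : V, (Nat.card V - 1) • v = -v := by
    intro v
    have h1 : Nat.card V • v = 0 := card_nsmul_eq_zero'
    have hpos : 0 < Nat.card V := Nat.card_pos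
    rw [eq_neg_iff_add_eq_zero, ← succ_nsmul, Nat.sub_add_cancel hpos, h1]
  have h2 := hB.comp_nsmul_mem hB.exists_eval_zero (Nat.card V - 1) f hf
  simpa only [hV] using h2

/-- The antipode of a Hopf order: `f ↦ f ∘ neg`. -/
noncomputable def antipodeHom [Finite V] (hB : IsHopfOrder p act B) : B →ₐ[Rp p] B :=
  ((AlgHom.pi (fun v : V => Pi.evalAlgHom (Rp p) (fun _ : V => Qbar) (-v))).comp B.val).codRestrict
    B (fun f => hB.comp_neg_mem f f.2)

theorem antipodeHom_apply [Finite V] (hB : IsHopfOrder p act B) (f : B) (v : V) :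
    (hB.antipodeHom f : V → Qbar) v = (f : V → Qbar) (-v) := rfl

theorem val_lift_antipode_id [Finite V] (hB : IsHopfOrder p act B) (t : B ⊗[Rp p] B) (v : V) :
    B.val (Algebra.TensorProduct.lift hB.antipodeHom (AlgHom.id (Rp p) B)
      (fun _ _ => Commute.all _ _) t) v = mu2 B t (-v, v) := by
  induction t using TensorProduct.induction_on with
  | zero => simp
  | tmul g h =>
    rw [Algebra.TensorProduct.lift_tmul, boxMap_tmul]
    rfl
  | add x y hx hy => simp only [map_add, Pi.add_apply, hx, hy]

theorem val_lift_id_antipode [Finite V] (hB : IsHopfOrder p act B) (t : B ⊗[Rp p] B) (v : V) :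
    B.val (Algebra.TensorProduct.lift (AlgHom.id (Rp p) B) hB.antipodeHom
      (fun _ _ => Commute.all _ _) t) v = mu2 B t (v, -v) := by
  induction t using TensorProduct.induction_on with
  | zero => simp
  | tmul g h =>
    rw [Algebra.TensorProduct.lift_tmul, boxMap_tmul]
    rfl
  | add x y hx hy => simp only [map_add, Pi.add_apply, hx, hy]

/-- The Hopf algebra structure of a Hopf order. -/
noncomputable abbrev hopfAlgebra [Finite V] (hB : IsHopfOrder p act B) : HopfAlgebra (Rp p) B :=
  letI := hB.bialgebra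
  HopfAlgebra.ofAlgHom hB.antipodeHom
    (by
      refine AlgHom.ext fun f => Subtype.ext (funext fun v => ?_)
      have h1 := hB.val_lift_antipode_id (hB.comulHom f) v
      rw [hB.mu2_comulHom, neg_add_cancel] at h1
      rw [← hB.algebraMap_counitHom f] at h1
      exact h1)
    (by
      refine AlgHom.ext fun f => Subtype.ext (funext fun v => ?_)
      have h1 := hB.val_lift_id_antipode (hB.comulHom f) v
      rw [hB.mu2_comulHom, add_neg_cancel] at h1
      rw [← hB.algebraMap_counitHom f] at h1
      exact h1)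

end IsHopfOrder

end Hopf

section Points

variable {p : ℕ} {V : Type} [AddCommGroup V] [Fact p.Prime]
variable {act : GQ → V → V} {B : Subalgebra (Rp p) (V → Qbar)}

namespace IsHopfOrder

omit [Fact p.Prime] in
theorem evPt_injective (hB : IsHopfOrder p act B) : Function.Injective (evPt B) := by
  intro v w hvw
  refine hB.separates v w fun f hf => ?_
  exact DFunLike.congr_fun hvw ⟨f, hf⟩

/-- Every `Qbar`-point of a Hopf order is the evaluation at a point of `V`. -/
theorem exists_eq_evPt [Finite V] (hB : IsHopfOrder p act B) (χ : B →ₐ[Rp p] Qbar) :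
    ∃ v, χ = evPt B v := by
  classical
  by_contra hne
  have hne' : ∀ v, χ ≠ evPt B v := fun v hv => hne ⟨v, hv⟩
  have h1 : ∀ v, ∃ f : B, χ f ≠ (f : V → Qbar) v := by
    intro v
    by_contra hall
    exact hne' v (AlgHom.ext fun f => by_contra fun hf => hall ⟨f, hf⟩)
  choose F hF using h1
  have := Fintype.ofFinite V
  obtain ⟨ι, _, β, hβ⟩ := hB.indepMap_val
  let Φ : Qbar ⊗[Rp p] B →ₐ[Qbar] (V → Qbar) :=
    Algebra.TensorProduct.lift (Algebra.ofId Qbar (V → Qbar)) B.val (fun _ _ => Commute.all _ _)
  let X : Qbar ⊗[Rp p] B →ₐ[Qbar] Qbar :=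
    Algebra.TensorProduct.lift (AlgHom.id Qbar Qbar) χ (fun _ _ => Commute.all _ _)
  have hΦ : Function.Injective Φ := by
    have h2 : LinearIndependent Qbar
        (fun i => Φ.toLinearMap ((Algebra.TensorProduct.basis Qbar β) i)) := by
      have h3 : (fun i => Φ.toLinearMap ((Algebra.TensorProduct.basis Qbar β) i)) =
          fun i => B.val (β i) := by
        funext i
        simp [Algebra.TensorProduct.basis_apply, Φ]
      rw [h3]
      exact hβ
    exact injective_of_basis_linearIndependent (Algebra.TensorProduct.basis Qbar β)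
      Φ.toLinearMap h2
  let g : Qbar ⊗[Rp p] B :=
    ∏ v, ((1 : Qbar) ⊗ₜ[Rp p] (F v) - ((F v : V → Qbar) v) ⊗ₜ[Rp p] (1 : B))
  have hg0 : g = 0 := by
    apply hΦ
    rw [map_zero]
    funext w
    simp only [g, map_prod, Finset.prod_apply, Pi.zero_apply]
    refine Finset.prod_eq_zero (Finset.mem_univ w) ?_
    simp [Φ]
  have hXg : X g ≠ 0 := by
    simp only [g, map_prod]
    refine Finset.prod_ne_zero_iff.mpr fun v _ => ?_
    simpa [X, sub_eq_zero] using hF v
  exact hXg (by rw [hg0, map_zero])

/-- The points of a Hopf order are the points of `V`. -/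
noncomputable def pointEquiv [Finite V] (hB : IsHopfOrder p act B) :
    V ≃ (B →ₐ[Rp p] Qbar) :=
  Equiv.ofBijective (evPt B) ⟨hB.evPt_injective, fun χ => by
    obtain ⟨v, hv⟩ := hB.exists_eq_evPt χ
    exact ⟨v, hv.symm⟩⟩

end IsHopfOrder

end Points

section Main

variable {p : ℕ} {V : Type} [AddCommGroup V] [Fact p.Prime]
variable {act : GQ → V → V} {B : Subalgebra (Rp p) (V → Qbar)}

/-- **A Hopf order gives the Prelude's finite flat datum**: a commutative cocommutative Hopf
algebra, finite and flat over `ℤ_(p)`, whose `Qbar`-points with the convolution product are `V`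
with its Galois action. -/
theorem IsHopfOrder.exists_hopfAlgebra [Finite V] (hB : IsHopfOrder p act B) :
    ∃ (H : Type) (_ : CommRing H) (_ : HopfAlgebra (Rp p) H),
      Module.Finite (Rp p) H ∧ Module.Flat (Rp p) H ∧ Coalgebra.IsCocomm (Rp p) H ∧
      ∃ e : WithConv (H →ₐ[Rp p] Qbar) ≃ V,
        (∀ f g : WithConv (H →ₐ[Rp p] Qbar), e (f * g) = e f + e g) ∧
        ∀ (σ : GQ) (f g : WithConv (H →ₐ[Rp p] Qbar)),
          (∀ h : H, g h = σ (f h)) → e g = act σ (e f) := by
  let _ : HopfAlgebra (Rp p) B := hB.hopfAlgebra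
  let e0 : WithConv (B →ₐ[Rp p] Qbar) ≃ V := (WithConv.equiv _).trans hB.pointEquiv.symm
  have he0 : ∀ v, e0.symm v = WithConv.toConv (evPt B v) := fun v => rfl
  refine ⟨B, inferInstance, hB.hopfAlgebra, hB.moduleFinite, flat_subalgebra B, ⟨?_⟩, e0, ?_, ?_⟩
  · refine LinearMap.ext fun f => hB.mu2_injective (funext fun ⟨v, w⟩ => ?_)
    show mu2 B (TensorProduct.comm (Rp p) B B (hB.comulHom f)) (v, w) =
      mu2 B (hB.comulHom f) (v, w)
    rw [IsHopfOrder.mu2_comm, hB.mu2_comulHom, hB.mu2_comulHom, add_comm]
  · intro f g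
    obtain ⟨v, rfl⟩ := e0.symm.surjective f
    obtain ⟨w, rfl⟩ := e0.symm.surjective g
    rw [Equiv.apply_symm_apply, Equiv.apply_symm_apply, ← Equiv.eq_symm_apply]
    refine WithConv.ext (AlgHom.ext fun h => ?_)
    show (e0.symm v * e0.symm w) h = (h : V → Qbar) (v + w)
    rw [AlgHom.convMul_apply, he0, he0]
    show Algebra.TensorProduct.lift (evPt B v) (evPt B w) (fun _ _ => Commute.all _ _)
      (hB.comulHom h) = (h : V → Qbar) (v + w)
    rw [IsHopfOrder.lift_evPt, hB.mu2_comulHom]
  · intro σ f g hfg
    obtain ⟨v, rfl⟩ := e0.symm.surjective f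
    obtain ⟨w, rfl⟩ := e0.symm.surjective g
    rw [Equiv.apply_symm_apply, Equiv.apply_symm_apply]
    refine hB.separates _ _ fun k hk => ?_
    rw [hB.equivariant k hk]
    exact hfg ⟨k, hk⟩

end Main

end Fermat.Agent.Lib.FinFlat
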