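import Fermat.Agent.Lib.FinFlat.Quotient
import Fermat.Agent.Lib.FinFlat.POrder
import Fermat.Agent.Lib.ValuationIntegral

/-!
# From Hopf orders over `ℤ_(p)` to `P`-orders

A Hopf order `B₀` over `ℤ_(p)` (`IsHopfOrder`, all of whose elements are equivariant for the whole
Galois group) generates, over any valuation subring `P` of `Qbar` above `p`, a `P`-order in the
sense of `IsPOrder` with `Γ = ⊤`: the `P`-span of a `ℤ_(p)`-basis of `B₀`.
-/

set_option autoImplicit false

namespace Fermat.Agent.Lib.FinFlat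

section PBridge

variable {p : ℕ} {V : Type}

/-- Elements of `ℤ_(p)` lie in every valuation subring of `Qbar` above `p`. -/
theorem algebraMap_Rp_mem [Fact p.Prime] (P : ValuationSubring Qbar) (hP : P.LiesOverPrime p)
    (r : Rp p) : algebraMap (Rp p) Qbar r ∈ P := by
  have hden : (((r : ℚ).den : ℤ) : Qbar) ∉ P.nonunits := by
    have h1 : ¬ (p : ℤ) ∣ ((r : ℚ).den : ℤ) := by
      intro h
      have h2 : p ∣ (r : ℚ).den := Int.natCast_dvd_natCast.mp h
      have h3 : (r : ℚ).den.Coprime p := r.2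
      have h4 : p ∣ 1 := by
        have := Nat.dvd_gcd h2 (dvd_refl p)
        rwa [Nat.Coprime.gcd_eq_one h3] at this
      exact (Fact.out : p.Prime).one_lt.ne' (Nat.dvd_one.mp h4)
    exact Lib.ValuationIntegral.intCast_notMem_nonunits P (Fact.out : p.Prime) hP h1
  have hdenP : (((r : ℚ).den : ℤ) : Qbar) ∈ P := intCast_mem P _
  have hinv : ((((r : ℚ).den : ℤ) : Qbar))⁻¹ ∈ P := by
    rw [ValuationSubring.mem_nonunits_iff, not_lt] at hden
    rw [← P.valuation_le_one_iff] at hdenP ⊢
    rw [map_inv₀, le_antisymm hdenP hden, inv_one]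
  have hr : algebraMap (Rp p) Qbar r = ((r : ℚ).num : Qbar) * ((((r : ℚ).den : ℤ) : Qbar))⁻¹ := by
    rw [IsScalarTower.algebraMap_apply (Rp p) ℚ Qbar]
    have h1 : algebraMap (Rp p) ℚ r = ((r : ℚ).num : ℚ) * (((r : ℚ).den : ℤ) : ℚ)⁻¹ := by
      show (r : ℚ) = _
      rw [← div_eq_mul_inv]
      exact_mod_cast (Rat.num_div_den (r : ℚ)).symm
    rw [h1, map_mul, map_inv₀, map_intCast, map_intCast]
  rw [hr]
  exact P.mul_mem _ _ (intCast_mem P _) hinv

/-- Elements of `Qbar` integral over `ℤ_(p)` lie in every valuation subring of `Qbar` above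
`p`. -/
theorem mem_of_isIntegral_Rp [Fact p.Prime] (P : ValuationSubring Qbar) (hP : P.LiesOverPrime p)
    {x : Qbar} (hx : IsIntegral (Rp p) x) : x ∈ P := by
  let φ : Rp p →+* P :=
    { toFun := fun r => ⟨algebraMap (Rp p) Qbar r, algebraMap_Rp_mem P hP r⟩
      map_one' := Subtype.ext (map_one _)
      map_mul' := fun a b => Subtype.ext (map_mul _ a b)
      map_zero' := Subtype.ext (map_zero _)
      map_add' := fun a b => Subtype.ext (map_add _ a b) }
  have h1 : IsIntegral P x :=
    IsIntegral.map_of_comp_eq φ (RingHom.id Qbar) (RingHom.ext fun r => rfl) hx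
  obtain ⟨y, hy⟩ := IsIntegrallyClosed.isIntegral_iff.mp h1
  rw [← hy]
  exact y.2

variable [AddCommGroup V]

/-- The closure properties of "having a comultiplication formula inside `B`". -/
theorem comulIn_sum {P : ValuationSubring Qbar} (B : Subalgebra P (V → Qbar)) {ι : Type}
    (s : Finset ι) (x : ι → Qbar) (hx : ∀ i ∈ s, x i ∈ P) (F : ι → V → Qbar)
    (hF : ∀ i ∈ s, ∃ (n : ℕ) (g h : Fin n → V → Qbar), (∀ j, g j ∈ B) ∧ (∀ j, h j ∈ B) ∧
      ∀ v w, F i (v + w) = ∑ j, g j v * h j w) :
    ∃ (n : ℕ) (g h : Fin n → V → Qbar), (∀ j, g j ∈ B) ∧ (∀ j, h j ∈ B) ∧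
      ∀ v w, (∑ i ∈ s, x i • F i) (v + w) = ∑ j, g j v * h j w := by
  classical
  induction s using Finset.induction_on with
  | empty =>
    exact ⟨0, Fin.elim0, Fin.elim0, fun j => j.elim0, fun j => j.elim0, fun v w => by simp⟩
  | insert a s has ih =>
    obtain ⟨n, g, h, hg, hh, hgh⟩ := ih (fun i hi => hx i (Finset.mem_insert_of_mem hi))
      (fun i hi => hF i (Finset.mem_insert_of_mem hi))
    obtain ⟨m, g', h', hg', hh', hgh'⟩ := hF a (Finset.mem_insert_self a s)
    have hxa : x a ∈ P := hx a (Finset.mem_insert_self a s)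
    refine ⟨m + n, Fin.append (fun j => x a • g' j) g, Fin.append h' h, ?_, ?_, fun v w => ?_⟩
    · intro j
      induction j using Fin.addCases with
      | left j =>
        rw [Fin.append_left]
        exact B.smul_mem (hg' j) (⟨x a, hxa⟩ : P)
      | right j => rw [Fin.append_right]; exact hg j
    · intro j
      induction j using Fin.addCases with
      | left j => rw [Fin.append_left]; exact hh' j
      | right j => rw [Fin.append_right]; exact hh j
    · rw [Finset.sum_insert has, Pi.add_apply, hgh, Pi.smul_apply, hgh', Fin.sum_univ_add]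
      congr 1
      · rw [Finset.smul_sum]
        refine Finset.sum_congr rfl fun j _ => ?_
        rw [Fin.append_left, Fin.append_left, Pi.smul_apply, smul_eq_mul, smul_eq_mul, mul_assoc]
      · refine Finset.sum_congr rfl fun j _ => ?_
        rw [Fin.append_right, Fin.append_right]

/-- **A Hopf order over `ℤ_(p)` generates a `P`-order** (with a basis of functions equivariant
for the whole Galois group) over every valuation subring `P` of `Qbar` above `p`. -/
theorem IsHopfOrder.exists_isPOrder [Fact p.Prime] [Finite V] (P : ValuationSubring Qbar)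
    (hP : P.LiesOverPrime p) {act : GQ → V → V} {B₀ : Subalgebra (Rp p) (V → Qbar)}
    (hB : IsHopfOrder p act B₀) :
    ∃ B : Subalgebra P (V → Qbar), IsPOrder P ⊤ act B ∧ ∀ f ∈ B₀, f ∈ B := by
  classical
  have := Fintype.ofFinite V
  obtain ⟨ι, _, β, hβ⟩ := hB.indepMap_val
  set b : ι → V → Qbar := fun i => B₀.val (β i) with hb
  have hbB₀ : ∀ i, b i ∈ B₀ := fun i => (β i).2
  -- expansion of the elements of `B₀`
  have hexp : ∀ f : B₀, (f : V → Qbar) = ∑ k, algebraMap (Rp p) Qbar (β.repr f k) • b k := by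
    intro f
    have h1 : ∑ k, B₀.val (β.repr f k • β k) = (f : V → Qbar) := by
      rw [← map_sum, β.sum_repr]
      rfl
    refine h1.symm.trans (Finset.sum_congr rfl fun k _ => ?_)
    rw [map_smul, algebraMap_smul]
  -- the span of the basis
  set W : Submodule Qbar (V → Qbar) := Submodule.span Qbar (Set.range b) with hW
  have hbW : ∀ i, b i ∈ W := fun i => Submodule.subset_span ⟨i, rfl⟩
  have hB₀W : ∀ f ∈ B₀, f ∈ W := by
    intro f hf
    have h1 := hexp ⟨f, hf⟩
    rw [show ((⟨f, hf⟩ : B₀) : V → Qbar) = f from rfl] at h1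
    rw [h1]
    exact Submodule.sum_mem _ fun k _ => Submodule.smul_mem _ _ (hbW k)
  have hWmul : ∀ x ∈ W, ∀ y ∈ W, x * y ∈ W := by
    intro x hx y hy
    have h1 : x * y ∈ W * W := Submodule.mul_mem_mul hx hy
    have h2 : W * W ≤ W := by
      rw [hW, Submodule.span_mul_span, Submodule.span_le]
      rintro _ ⟨_, ⟨i, rfl⟩, _, ⟨j, rfl⟩, rfl⟩
      exact hB₀W _ (B₀.mul_mem (hbB₀ i) (hbB₀ j))
    exact h2 h1
  have hWone : (1 : V → Qbar) ∈ W := hB₀W 1 B₀.one_mem
  have hdelta : ∀ v : V, (fun u => if u = v then (1 : Qbar) else 0) ∈ W := by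
    intro v
    have h1 : ∀ w : V, ∃ g ∈ W, g v = 1 ∧ (w ≠ v → g w = 0) := by
      intro w
      by_cases hwv : w = v
      · exact ⟨1, hWone, rfl, fun h => absurd hwv h⟩
      · have h2 : ∃ f ∈ B₀, f v ≠ f w := by
          by_contra hcon
          push Not at hcon
          exact hwv (hB.separates v w hcon).symm
        obtain ⟨f, hf, hfvw⟩ := h2
        have hne : f v - f w ≠ 0 := sub_ne_zero.mpr hfvw
        refine ⟨(f v - f w)⁻¹ • (f - f w • (1 : V → Qbar)), ?_, ?_, fun _ => ?_⟩
        · exact Submodule.smul_mem _ _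
            (Submodule.sub_mem _ (hB₀W f hf) (Submodule.smul_mem _ _ hWone))
        · simp [hne]
        · simp
    choose g hgW hgv hgw using h1
    have h2 : (fun u => if u = v then (1 : Qbar) else 0) = ∏ w, g w := by
      funext u
      rw [Finset.prod_apply]
      split_ifs with huv
      · rw [huv]
        exact (Finset.prod_eq_one fun w _ => hgv w).symm
      · exact (Finset.prod_eq_zero (f := fun c => g c u) (Finset.mem_univ u) (hgw u huv)).symm
    rw [h2]
    exact Finset.prod_induction _ (fun x => x ∈ W) (fun x y hx hy => hWmul x hx y hy) hWone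
      (fun w _ => hgW w)
  have hspan : ⊤ ≤ W := by
    intro F _
    have h1 : F = ∑ v, F v • (fun u => if u = v then (1 : Qbar) else 0) := by
      funext u
      simp [Finset.sum_apply]
    rw [h1]
    exact Submodule.sum_mem _ fun v _ => Submodule.smul_mem _ _ (hdelta v)
  let bb : Module.Basis ι Qbar (V → Qbar) := Module.Basis.mk hβ hspan
  have hbb : ∀ i, bb i = b i := fun i => Module.Basis.mk_apply hβ hspan i
  -- coordinates of the elements of `B₀`
  have hrepr : ∀ (f : B₀) (k : ι), bb.repr (f : V → Qbar) k = algebraMap (Rp p) Qbar (β.repr f k) := by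
    intro f k
    have h1 : (f : V → Qbar) = ∑ k, algebraMap (Rp p) Qbar (β.repr f k) • bb k := by
      rw [hexp f]
      exact Finset.sum_congr rfl fun k _ => by rw [hbb]
    conv_lhs => rw [h1]
    rw [Module.Basis.repr_sum_self]
  have hreprP : ∀ f ∈ B₀, ∀ k, bb.repr f k ∈ P := by
    intro f hf k
    have h1 := hrepr ⟨f, hf⟩ k
    rw [show ((⟨f, hf⟩ : B₀) : V → Qbar) = f from rfl] at h1
    rw [h1]
    exact algebraMap_Rp_mem P hP _
  have hexpand : ∀ f : V → Qbar, f = ∑ i, bb.repr f i • b i := by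
    intro f
    conv_lhs => rw [← bb.sum_repr f]
    exact Finset.sum_congr rfl fun i _ => by rw [hbb]
  have hmul : ∀ f g : V → Qbar, (∀ i, bb.repr f i ∈ P) → (∀ i, bb.repr g i ∈ P) →
      ∀ k, bb.repr (f * g) k ∈ P := by
    intro f g hf hg k
    have h1 : f * g = ∑ i, ∑ j, (bb.repr f i * bb.repr g j) • (b i * b j) := by
      calc f * g = (∑ i, bb.repr f i • b i) * (∑ j, bb.repr g j • b j) := by
            rw [← hexpand f, ← hexpand g]
        _ = ∑ i, ∑ j, (bb.repr f i * bb.repr g j) • (b i * b j) := by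
            rw [Finset.sum_mul_sum]
            exact Finset.sum_congr rfl fun i _ => Finset.sum_congr rfl fun j _ =>
              smul_mul_smul_comm _ _ _ _
    rw [h1, map_sum, Finsupp.finsetSum_apply]
    refine sum_mem fun i _ => ?_
    rw [map_sum, Finsupp.finsetSum_apply]
    refine sum_mem fun j _ => ?_
    rw [map_smul, Finsupp.smul_apply, smul_eq_mul]
    exact P.mul_mem _ _ (P.mul_mem _ _ (hf i) (hg j))
      (hreprP _ (B₀.mul_mem (hbB₀ i) (hbB₀ j)) k)
  let B : Subalgebra P (V → Qbar) :=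
    { carrier := {f | ∀ i, bb.repr f i ∈ P}
      mul_mem' := fun {f g} hf hg k => hmul f g hf hg k
      add_mem' := fun {f g} hf hg k => by
        rw [map_add, Finsupp.add_apply]
        exact P.add_mem _ _ (hf k) (hg k)
      algebraMap_mem' := fun a k => by
        have h1 : algebraMap P (V → Qbar) a = (a : Qbar) • (1 : V → Qbar) := by
          funext v
          simp
        rw [h1, map_smul, Finsupp.smul_apply, smul_eq_mul]
        exact P.mul_mem _ _ a.2 (hreprP 1 B₀.one_mem k) }
  have hmemB : ∀ f, f ∈ B ↔ ∀ i, bb.repr f i ∈ P := fun f => Iff.rfl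
  have hB₀B : ∀ f ∈ B₀, f ∈ B := fun f hf => (hmemB f).mpr (hreprP f hf)
  refine ⟨B, ⟨?_, ?_, ι, inferInstance, bb, ?_, hmemB⟩, hB₀B⟩
  · intro f hf v
    rw [hexpand f, Finset.sum_apply]
    refine sum_mem fun i _ => ?_
    rw [Pi.smul_apply, smul_eq_mul]
    exact P.mul_mem _ _ ((hmemB f).mp hf i)
      (mem_of_isIntegral_Rp P hP (hB.isIntegral_apply (β i) v))
  · intro f hf
    have h1 := comulIn_sum B Finset.univ (fun i => bb.repr f i) (fun i _ => (hmemB f).mp hf i) b
      (fun i _ => by
        obtain ⟨n, g, h, hgh⟩ := hB.comul (b i) (hbB₀ i)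
        exact ⟨n, fun j => (g j : V → Qbar), fun j => (h j : V → Qbar),
          fun j => hB₀B _ (g j).2, fun j => hB₀B _ (h j).2, hgh⟩)
    rw [← hexpand f] at h1
    exact h1
  · intro i σ _ v
    rw [hbb]
    exact hB.equivariant _ (hbB₀ i) σ v

end PBridge

end Fermat.Agent.Lib.FinFlat
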