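import Fermat.Agent.Lib.FinFlat.OrderOps

/-!
# Quotients of Hopf orders

If `V` has a Hopf order `B` and `π : V → Q` is a surjective Galois-equivariant additive map, then
the functions `F` on `Q` with `F ∘ π ∈ B` form a Hopf order of `Q`
(`IsHopfOrder.comap_precomp`, `HasHopfOrder.of_surjective`).
-/

set_option autoImplicit false

open scoped TensorProduct

namespace Fermat.Agent.Lib.FinFlat

section Aux

variable {p : ℕ}

theorem isTorsionFree_submodule {X : Type} (N : Submodule (Rp p) (X → Qbar)) :
    Module.IsTorsionFree (Rp p) N := by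
  refine ⟨fun r hr f g hfg => ?_⟩
  have hr0 : algebraMap (Rp p) Qbar r ≠ 0 := by
    rw [Ne, ← map_zero (algebraMap (Rp p) Qbar)]
    exact fun h => hr.ne_zero (algebraMap_Rp_Qbar_injective p h)
  apply Subtype.ext
  funext v
  have h1 : algebraMap (Rp p) Qbar r * (f : X → Qbar) v = algebraMap (Rp p) Qbar r *
      (g : X → Qbar) v := by
    have h2 := congrFun (congrArg Subtype.val hfg) v
    simpa [Algebra.smul_def] using h2
  exact mul_left_cancel₀ hr0 h1

/-- A finitely generated `ℤ_(p)`-submodule of a space of `Qbar`-valued functions is free. -/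
theorem free_submodule [Fact p.Prime] {X : Type} (N : Submodule (Rp p) (X → Qbar))
    (hfg : N.FG) : Module.Free (Rp p) N := by
  have h1 : Module.Flat (Rp p) N := by
    rw [Module.Flat.flat_iff_torsion_eq_bot_of_isBezout,
      ← Submodule.isTorsionFree_iff_torsion_eq_bot]
    exact isTorsionFree_submodule N
  have : Module.Finite (Rp p) N := Module.Finite.iff_fg.mpr hfg
  exact Module.free_of_flat_of_isLocalRing

/-- An element of `Qbar` which is Galois-fixed and integral over `ℤ_(p)` lies in `ℤ_(p)`. -/
theorem exists_Rp_of_fixed_of_isIntegral [Fact p.Prime] (x : Qbar) (hfix : ∀ σ : GQ, σ x = x)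
    (hint : IsIntegral (Rp p) x) : ∃ r : Rp p, algebraMap (Rp p) Qbar r = x := by
  obtain ⟨q, hq⟩ := GalQbar.exists_rat_of_fixed x hfix
  rw [← hq] at hint
  have hq' : IsIntegral (Rp p) q :=
    (isIntegral_algebraMap_iff (algebraMap ℚ Qbar).injective).mp hint
  obtain ⟨r, hr⟩ := exists_Rp_of_isIntegral p q hq'
  exact ⟨r, by rw [← hq, ← hr, ← IsScalarTower.algebraMap_apply]⟩

end Aux

section Quotient

variable {p : ℕ} [Fact p.Prime] {V Q : Type} [AddCommGroup V] [AddCommGroup Q]
variable {act : GQ → V → V} {B : Subalgebra (Rp p) (V → Qbar)}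

omit [Fact p.Prime] in
/-- The values of the elements of a Hopf order are integral over `ℤ_(p)`. -/
theorem IsHopfOrder.isIntegral_apply (hB : IsHopfOrder p act B) (f : B) (v : V) :
    IsIntegral (Rp p) ((f : V → Qbar) v) :=
  haveI := hB.moduleFinite
  (IsIntegral.of_finite (Rp p) f).map (evPt B v)

/-- The sum of the translates of an element of a Hopf order by a Galois-stable finite set lies
in the order. -/
theorem IsHopfOrder.sum_translate_mem (hB : IsHopfOrder p act B) (K : Finset V)
    (hK : ∀ (σ : GQ), ∀ w ∈ K, act σ w ∈ K) (f : B) :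
    (fun v => ∑ w ∈ K, (f : V → Qbar) (v + w)) ∈ B := by
  classical
  obtain ⟨n, g, h, hgh⟩ := hB.comul f f.2
  have hc : ∀ i, ∃ r : Rp p, algebraMap (Rp p) Qbar r = ∑ w ∈ K, (h i : V → Qbar) w := by
    intro i
    refine exists_Rp_of_fixed_of_isIntegral _ (fun σ => ?_)
      (IsIntegral.sum _ fun w _ => hB.isIntegral_apply (h i) w)
    have himg : K.image (act σ) = K :=
      Finset.eq_of_subset_of_card_le (Finset.image_subset_iff.mpr (hK σ))
        (by rw [Finset.card_image_of_injective _ (hB.act_injective σ)])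
    rw [map_sum]
    calc ∑ w ∈ K, σ ((h i : V → Qbar) w) = ∑ w ∈ K, (h i : V → Qbar) (act σ w) :=
          Finset.sum_congr rfl fun w _ => (hB.equivariant _ (h i).2 σ w).symm
      _ = ∑ x ∈ K.image (act σ), (h i : V → Qbar) x :=
          (Finset.sum_image (fun a _ b _ hab => hB.act_injective σ hab)).symm
      _ = ∑ w ∈ K, (h i : V → Qbar) w := by rw [himg]
  choose r hr using hc
  have h1 : (fun v => ∑ w ∈ K, (f : V → Qbar) (v + w)) = ∑ i, r i • (g i : V → Qbar) := by
    funext v
    rw [Finset.sum_apply]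
    simp only [Pi.smul_apply, Algebra.smul_def, hr]
    rw [Finset.sum_congr rfl fun w _ => hgh v w, Finset.sum_comm]
    refine Finset.sum_congr rfl fun i _ => ?_
    rw [Finset.sum_mul]
    exact Finset.sum_congr rfl fun w _ => mul_comm _ _
  rw [h1]
  exact B.sum_mem fun i _ => B.smul_mem (g i).2 (r i)

open Classical in
/-- The difference map, whose kernel consists of the functions constant on the fibres of `π`. -/
noncomputable def diffMap (π : V → Q) (B : Subalgebra (Rp p) (V → Qbar)) :
    B →ₗ[Rp p] (V × V → Qbar) where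
  toFun f := fun x => if π x.1 = π x.2 then (f : V → Qbar) x.1 - (f : V → Qbar) x.2 else 0
  map_add' f g := by
    funext x
    by_cases hx : π x.1 = π x.2
    · simp only [if_pos hx, Pi.add_apply, Subalgebra.coe_add]
      ring
    · simp only [if_neg hx, Pi.add_apply, add_zero]
  map_smul' r f := by
    funext x
    by_cases hx : π x.1 = π x.2
    · simp only [if_pos hx, Pi.smul_apply, Subalgebra.coe_smul, RingHom.id_apply, smul_sub]
    · simp only [if_neg hx, Pi.smul_apply, RingHom.id_apply, smul_zero]

omit [Fact p.Prime] [AddCommGroup V] [AddCommGroup Q] in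
theorem diffMap_eq_zero_iff (π : V → Q) (f : B) :
    diffMap π B f = 0 ↔ ∀ v v', π v = π v' → (f : V → Qbar) v = (f : V → Qbar) v' := by
  classical
  constructor
  · intro h v v' hvv'
    have h1 := congrFun h (v, v')
    simp only [diffMap, LinearMap.coe_mk, AddHom.coe_mk, Pi.zero_apply] at h1
    rw [if_pos hvv'] at h1
    exact sub_eq_zero.mp h1
  · intro h
    funext x
    simp only [diffMap, LinearMap.coe_mk, AddHom.coe_mk, Pi.zero_apply]
    by_cases hx : π x.1 = π x.2
    · rw [if_pos hx, h _ _ hx, sub_self]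
    · rw [if_neg hx]

omit [AddCommGroup Q] in
/-- A linear retraction of a Hopf order onto the functions constant on the fibres of `π`. -/
theorem IsHopfOrder.exists_retraction (hB : IsHopfOrder p act B) (π : V → Q) :
    ∃ P : B →ₗ[Rp p] B,
      (∀ (f : B) (v v' : V), π v = π v' → (P f : V → Qbar) v = (P f : V → Qbar) v') ∧
      (∀ f : B, (∀ v v', π v = π v' → (f : V → Qbar) v = (f : V → Qbar) v') → P f = f) := by
  have := hB.moduleFinite
  let δ := diffMap π B
  have hNfg : (LinearMap.range δ).FG := Module.Finite.iff_fg.mp (Module.Finite.range δ)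
  have : Module.Free (Rp p) (LinearMap.range δ) := free_submodule _ hNfg
  obtain ⟨s, hs⟩ := Module.projective_lifting_property δ.rangeRestrict LinearMap.id
    δ.surjective_rangeRestrict
  have hP : ∀ f : B, (LinearMap.id - s ∘ₗ δ.rangeRestrict : B →ₗ[Rp p] B) f =
      f - s (δ.rangeRestrict f) := fun f => rfl
  refine ⟨LinearMap.id - s ∘ₗ δ.rangeRestrict, ?_, ?_⟩
  · intro f
    rw [← diffMap_eq_zero_iff]
    have h1 : δ.rangeRestrict (s (δ.rangeRestrict f)) = δ.rangeRestrict f :=
      LinearMap.congr_fun hs _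
    have h2 : δ (s (δ.rangeRestrict f)) = δ f := congrArg Subtype.val h1
    show δ ((LinearMap.id - s ∘ₗ δ.rangeRestrict : B →ₗ[Rp p] B) f) = 0
    rw [hP, map_sub, h2, sub_self]
  · intro f hf
    have h0 : δ f = 0 := (diffMap_eq_zero_iff π f).mpr hf
    have h1 : δ.rangeRestrict f = 0 := Subtype.ext h0
    rw [hP, h1, map_zero, sub_zero]

/-- **Quotients of Hopf orders**: if `B` is a Hopf order of `V` and `π : V → Q` is a surjective
equivariant additive map, the functions `F` on `Q` with `F ∘ π ∈ B` form a Hopf order of `Q`. -/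
theorem IsHopfOrder.comap_precomp [Finite V] {actQ : GQ → Q → Q} (hB : IsHopfOrder p act B)
    (π : V →+ Q) (hπ : Function.Surjective π)
    (hπ' : ∀ (σ : GQ) (v : V), π (act σ v) = actQ σ (π v)) :
    IsHopfOrder p actQ (B.comap (precomp p π)) := by
  classical
  have := Fintype.ofFinite V
  have := hB.moduleFinite
  -- the kernel of `π`
  let K : Finset V := Finset.univ.filter (fun w => π w = 0)
  have hKmem : ∀ w, w ∈ K ↔ π w = 0 := by
    intro w
    simp [K]
  have hK0 : (0 : V) ∈ K := (hKmem 0).mpr (map_zero π)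
  have hactQ0 : ∀ σ, actQ σ 0 = 0 := by
    intro σ
    have h1 := hπ' σ 0
    rw [hB.act_zero, map_zero] at h1
    exact h1.symm
  have hKstable : ∀ (σ : GQ), ∀ w ∈ K, act σ w ∈ K := by
    intro σ w hw
    rw [hKmem] at hw ⊢
    rw [hπ', hw, hactQ0]
  have hmem : ∀ F : Q → Qbar, F ∈ B.comap (precomp p π) ↔ (fun v => F (π v)) ∈ B :=
    fun F => Iff.rfl
  -- functions constant on the fibres descend
  have hdesc : ∀ f : B, (∀ v v', π v = π v' → (f : V → Qbar) v = (f : V → Qbar) v') →
      ∃ F : Q → Qbar, F ∈ B.comap (precomp p π) ∧ ∀ v, F (π v) = (f : V → Qbar) v := by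
    intro f hf
    refine ⟨fun q => (f : V → Qbar) (Function.surjInv hπ q), ?_, ?_⟩
    · rw [hmem]
      have h1 : (fun v => (f : V → Qbar) (Function.surjInv hπ (π v))) = f :=
        funext fun v => hf _ _ (Function.surjInv_eq hπ (π v))
      rw [h1]
      exact f.2
    · intro v
      exact hf _ _ (Function.surjInv_eq hπ (π v))
  -- the trace over the kernel
  have htr : ∀ f : B, (fun v => ∑ w ∈ K, (f : V → Qbar) (v + w)) ∈ B :=
    fun f => hB.sum_translate_mem K hKstable f
  have htr_inv : ∀ (f : B) (v v' : V), π v = π v' →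
      ∑ w ∈ K, (f : V → Qbar) (v + w) = ∑ w ∈ K, (f : V → Qbar) (v' + w) := by
    intro f v v' hvv'
    have hd : π (v - v') = 0 := by rw [map_sub, hvv', sub_self]
    refine Finset.sum_nbij' (fun w => w + (v - v')) (fun w => w - (v - v')) ?_ ?_ ?_ ?_ ?_
    · intro w hw
      rw [hKmem] at hw ⊢
      rw [map_add, hw, hd, add_zero]
    · intro w hw
      rw [hKmem] at hw ⊢
      rw [map_sub, hw, hd, sub_zero]
    · intro w _
      exact add_sub_cancel_right w (v - v')
    · intro w _
      exact sub_add_cancel w (v - v')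
    · intro w _
      rw [show v' + (w + (v - v')) = v + w by abel]
  obtain ⟨P, hP1, hP2⟩ := hB.exists_retraction π
  refine IsHopfOrder.mk' ?_ ?_ ?_ ?_
  · -- finite generation: the order is the image of the retraction
    let Θ : B →ₗ[Rp p] (Q → Qbar) :=
      ((precomp p (Function.surjInv hπ)).toLinearMap ∘ₗ B.val.toLinearMap) ∘ₗ P
    have hΘ : ∀ (f : B) (q : Q), Θ f q = (P f : V → Qbar) (Function.surjInv hπ q) :=
      fun _ _ => rfl
    have hrange : Subalgebra.toSubmodule (B.comap (precomp p π)) = LinearMap.range Θ := by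
      ext F
      constructor
      · intro hF
        have hinv : ∀ v v', π v = π v' → F (π v) = F (π v') := fun v v' h => by rw [h]
        have h1 := hP2 ⟨_, (hmem F).mp hF⟩ hinv
        refine ⟨⟨_, (hmem F).mp hF⟩, ?_⟩
        funext q
        rw [hΘ, h1]
        show F (π (Function.surjInv hπ q)) = F q
        rw [Function.surjInv_eq hπ]
      · rintro ⟨f, rfl⟩
        show (fun v => Θ f (π v)) ∈ B
        have h1 : (fun v => Θ f (π v)) = P f :=
          funext fun v => hP1 f _ _ (Function.surjInv_eq hπ (π v))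
        rw [h1]
        exact (P f).2
    rw [hrange]
    exact Module.Finite.iff_fg.mp (Module.Finite.range Θ)
  · -- equivariance
    intro F hF σ q
    obtain ⟨v, rfl⟩ := hπ q
    rw [← hπ']
    exact hB.equivariant _ ((hmem F).mp hF) σ v
  · -- separation: traces of elements of `B` separate the fibres (Dedekind independence)
    intro q q' h
    by_contra hne
    have hli : LinearIndependent Qbar (fun x : V => ((evPt B x : B →* Qbar) : B → Qbar)) :=
      (linearIndependent_monoidHom B Qbar).comp (fun x : V => ((evPt B x : B →ₐ[Rp p] Qbar) : B →* Qbar))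
        (fun x y hxy => hB.evPt_injective (AlgHom.ext fun f => DFunLike.congr_fun hxy f))
    rw [Fintype.linearIndependent_iff] at hli
    have key : ∀ (f : B) (u : V), ∑ x, (if π x = π u then (1 : Qbar) else 0) * (f : V → Qbar) x =
        ∑ w ∈ K, (f : V → Qbar) (u + w) := by
      intro f u
      simp only [ite_mul, one_mul, zero_mul]
      rw [← Finset.sum_filter]
      refine Finset.sum_nbij' (fun x => x - u) (fun w => u + w) ?_ ?_ ?_ ?_ ?_
      · intro x hx
        rw [Finset.mem_filter] at hx
        rw [hKmem, map_sub, hx.2, sub_self]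
      · intro w hw
        rw [hKmem] at hw
        rw [Finset.mem_filter, map_add, hw, add_zero]
        exact ⟨Finset.mem_univ _, rfl⟩
      · intro x _
        exact add_sub_cancel u x
      · intro w _
        exact add_sub_cancel_left u w
      · intro x _
        rw [add_sub_cancel]
    obtain ⟨v, rfl⟩ := hπ q
    obtain ⟨v', rfl⟩ := hπ q'
    let c : V → Qbar := fun x => (if π x = π v then 1 else 0) - (if π x = π v' then 1 else 0)
    have hc : ∑ x, c x • ((evPt B x : B →* Qbar) : B → Qbar) = 0 := by
      funext f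
      rw [Finset.sum_apply]
      obtain ⟨F, hF, hFv⟩ := hdesc ⟨_, htr f⟩ (htr_inv f)
      have h1 := h F hF
      rw [hFv, hFv] at h1
      have h2 : ∀ x, (c x • ((evPt B x : B →* Qbar) : B → Qbar)) f =
          (if π x = π v then (1 : Qbar) else 0) * (f : V → Qbar) x -
            (if π x = π v' then (1 : Qbar) else 0) * (f : V → Qbar) x := by
        intro x
        show c x * (f : V → Qbar) x = _
        simp only [c, sub_mul]
      rw [Finset.sum_congr rfl fun x _ => h2 x, Finset.sum_sub_distrib, key f v, key f v']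
      exact sub_eq_zero.mpr h1
    have h3 : c v = 0 := hli c hc v
    have h4 : c v = 1 := by
      show (if π v = π v then (1 : Qbar) else 0) - (if π v = π v' then 1 else 0) = 1
      rw [if_pos rfl, if_neg hne, sub_zero]
    rw [h4] at h3
    exact one_ne_zero h3
  · -- comultiplication: apply the retraction to both tensor factors
    intro F hF
    rw [mem_comulClosure_iff]
    let f : B := ⟨_, (hmem F).mp hF⟩
    obtain ⟨n, g, h, hx⟩ := exists_fin_sum_tmul (hB.comulHom f)
    have hmu_x : ∀ v v', mu2 B (hB.comulHom f) (v, v') =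
        ∑ i, (g i : V → Qbar) v * (h i : V → Qbar) v' := by
      intro v v'
      rw [hx, map_sum, Finset.sum_apply]
      exact Finset.sum_congr rfl fun i _ => by rw [boxMap_tmul]; rfl
    have hsum : ∀ v v', ∑ i, (g i : V → Qbar) v * (h i : V → Qbar) v' = F (π (v + v')) := by
      intro v v'
      rw [← hmu_x, hB.mu2_comulHom]
    let Tg : Fin n → B := fun i => ⟨_, htr (g i)⟩
    let Th : Fin n → B := fun i => ⟨_, htr (h i)⟩
    let z : B ⊗[Rp p] B := ∑ i, Tg i ⊗ₜ[Rp p] Th i
    have hz : z = (K.card ^ 2) • hB.comulHom f := by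
      apply hB.mu2_injective
      funext ⟨v, v'⟩
      rw [map_nsmul, map_sum, Finset.sum_apply, Pi.smul_apply, hB.mu2_comulHom]
      calc ∑ i, mu2 B (Tg i ⊗ₜ[Rp p] Th i) (v, v')
          = ∑ i, (∑ w ∈ K, (g i : V → Qbar) (v + w)) * (∑ w' ∈ K, (h i : V → Qbar) (v' + w')) :=
            Finset.sum_congr rfl fun i _ => by rw [boxMap_tmul]; rfl
        _ = ∑ i, ∑ w ∈ K, ∑ w' ∈ K, (g i : V → Qbar) (v + w) * (h i : V → Qbar) (v' + w') :=
            Finset.sum_congr rfl fun i _ => Finset.sum_mul_sum _ _ _ _
        _ = ∑ w ∈ K, ∑ w' ∈ K, ∑ i, (g i : V → Qbar) (v + w) * (h i : V → Qbar) (v' + w') := by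
            rw [Finset.sum_comm]
            exact Finset.sum_congr rfl fun w _ => Finset.sum_comm
        _ = ∑ w ∈ K, ∑ w' ∈ K, F (π (v + v')) := by
            refine Finset.sum_congr rfl fun w hw => Finset.sum_congr rfl fun w' hw' => ?_
            rw [hsum]
            congr 1
            rw [map_add, map_add, map_add, map_add, (hKmem w).mp hw, (hKmem w').mp hw', add_zero,
              add_zero]
        _ = (K.card ^ 2) • (f : V → Qbar) (v + v') := by
            rw [Finset.sum_const, Finset.sum_const, smul_smul, sq]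
    have hPz : TensorProduct.map P P z = z := by
      simp only [z, map_sum, TensorProduct.map_tmul]
      refine Finset.sum_congr rfl fun i _ => ?_
      rw [hP2 (Tg i) (htr_inv (g i)), hP2 (Th i) (htr_inv (h i))]
    have hy : mu2 B (TensorProduct.map P P (hB.comulHom f)) = mu2 B (hB.comulHom f) := by
      have h1 : (K.card ^ 2) • TensorProduct.map P P (hB.comulHom f) =
          (K.card ^ 2) • hB.comulHom f := by
        rw [← map_nsmul, ← hz, hPz]
      have h2 := congrArg (mu2 B) h1
      rw [map_nsmul, map_nsmul] at h2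
      have hN : K.card ^ 2 ≠ 0 := pow_ne_zero 2 (Finset.card_ne_zero.mpr ⟨0, hK0⟩)
      exact smul_right_injective _ hN h2
    have hclaim : ∀ v v', F (π (v + v')) =
        ∑ i, (P (g i) : V → Qbar) v * (P (h i) : V → Qbar) v' := by
      intro v v'
      rw [← hsum, ← hmu_x, ← hy, hx, map_sum, map_sum, Finset.sum_apply]
      exact Finset.sum_congr rfl fun i _ => by rw [TensorProduct.map_tmul, boxMap_tmul]; rfl
    choose G hG hGv using fun i => hdesc (P (g i)) (hP1 (g i))
    choose H hH hHv using fun i => hdesc (P (h i)) (hP1 (h i))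
    refine ⟨n, fun i => ⟨G i, hG i⟩, fun i => ⟨H i, hH i⟩, fun q q' => ?_⟩
    obtain ⟨v, rfl⟩ := hπ q
    obtain ⟨v', rfl⟩ := hπ q'
    rw [← map_add, hclaim]
    simp only [hGv, hHv]

/-- Having a Hopf order passes to Galois quotients. -/
theorem HasHopfOrder.of_surjective [Finite V] {actQ : GQ → Q → Q} (h : HasHopfOrder p act)
    (π : V →+ Q) (hπ : Function.Surjective π)
    (hπ' : ∀ (σ : GQ) (v : V), π (act σ v) = actQ σ (π v)) : HasHopfOrder p actQ := by
  obtain ⟨B, hB⟩ := h
  exact ⟨_, hB.comap_precomp π hπ hπ'⟩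

end Quotient

section Subquotient

variable {p : ℕ} [Fact p.Prime] {V W Q : Type} [AddCommGroup V] [AddCommGroup W] [AddCommGroup Q]

/-- Having a Hopf order passes to Galois subquotients. -/
theorem HasHopfOrder.of_subquotient [Finite V] {act : GQ → V → V} {actW : GQ → W → W}
    {actQ : GQ → Q → Q} (h : HasHopfOrder p act)
    (ι : W →+ V) (hι : Function.Injective ι)
    (hι' : ∀ (σ : GQ) (w : W), ι (actW σ w) = act σ (ι w))
    (π : W →+ Q) (hπ : Function.Surjective π)
    (hπ' : ∀ (σ : GQ) (w : W), π (actW σ w) = actQ σ (π w)) : HasHopfOrder p actQ :=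
  haveI : Finite W := Finite.of_injective ι hι
  (h.of_injective ι hι hι').of_surjective π hπ hπ'

/-- Having a Hopf order passes to Galois subquotients of finite powers. -/
theorem HasHopfOrder.of_subquotient_pi [Finite V] {act : GQ → V → V} {actW : GQ → W → W}
    {actQ : GQ → Q → Q} (h : HasHopfOrder p act) (n : ℕ)
    (ι : W →+ (Fin n → V)) (hι : Function.Injective ι)
    (hι' : ∀ (σ : GQ) (w : W) (i : Fin n), ι (actW σ w) i = act σ (ι w i))
    (π : W →+ Q) (hπ : Function.Surjective π)
    (hπ' : ∀ (σ : GQ) (w : W), π (actW σ w) = actQ σ (π w)) : HasHopfOrder p actQ :=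
  (h.pi n).of_subquotient ι hι (fun σ w => funext fun i => hι' σ w i) π hπ hπ'

end Subquotient

end Fermat.Agent.Lib.FinFlat
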