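/-
Lib/FinFlat: Teichmüller systems.

`P` a valuation subring of `ℚ̄` over the prime `p`, `k` a finite field of characteristic `p`.
A *Teichmüller system* `τ : k → ℚ̄` is a multiplicative section of a ring embedding of `k` into
the residue field of `P`: `τ 0 = 0`, `τ` is multiplicative, its nonzero values are roots of unity
of order dividing `|k| - 1`, it is additive modulo the maximal ideal, and injective modulo the
maximal ideal.

* `isAlgClosed_residueField_Qb` : the residue field of `P` is algebraically closed;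
* `IsTeich`, `exists_isTeich` : Teichmüller systems exist;
* `IsTeich.sum`, `IsTeich.natCast`, `IsTeich.eq_of_sub_mem`, … : the calculus modulo the maximal
  ideal.
-/
import Fermat.Agent.Lib.FinFlat.Conn
import Fermat.Agent.Lib.TeichLift

set_option autoImplicit false
set_option linter.unusedSectionVars false
set_option linter.style.haveILetI false

namespace Fermat.Agent.Lib.FinFlat

local notation "Qb" => AlgebraicClosure ℚ
local notation "GQ" => (AlgebraicClosure ℚ ≃ₐ[ℚ] AlgebraicClosure ℚ)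

/-- The residue field of a valuation subring of `ℚ̄` is algebraically closed. -/
theorem isAlgClosed_residueField_Qb (P : ValuationSubring Qb) :
    IsAlgClosed (IsLocalRing.ResidueField P) := by
  refine IsAlgClosed.of_exists_root _ fun f hf hirr => ?_
  have hlift : f ∈ Polynomial.lifts (IsLocalRing.residue P) :=
    (Polynomial.map_surjective _ IsLocalRing.residue_surjective f).elim fun g hg =>
      (Polynomial.mem_lifts f).2 ⟨g, hg⟩
  obtain ⟨g, hgf, hgdeg, hgm⟩ := Polynomial.lifts_and_natDegree_eq_and_monic hlift hf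
  have hdeg : (g.map P.subtype).degree ≠ 0 := by
    rw [Polynomial.degree_map_eq_of_injective P.subtype_injective]
    have h1 : 0 < f.natDegree := hirr.natDegree_pos
    have h2 : 0 < g.natDegree := by omega
    exact (Polynomial.natDegree_pos_iff_degree_pos.1 h2).ne'
  obtain ⟨α, hα⟩ := IsAlgClosed.exists_root (g.map P.subtype) hdeg
  have hαint : IsIntegral P α := ⟨g, hgm, by rw [← Polynomial.eval_map]; exact hα⟩
  obtain ⟨y, rfl⟩ := (IsIntegrallyClosed.isIntegral_iff (R := P) (K := Qb)).1 hαint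
  refine ⟨IsLocalRing.residue P y, ?_⟩
  have h0 : g.eval y = 0 := by
    apply P.subtype_injective
    rw [map_zero, ← Polynomial.eval₂_at_apply, Polynomial.eval₂_eq_eval_map]
    exact hα
  rw [← hgf, Polynomial.eval_map, Polynomial.eval₂_at_apply, h0, map_zero]

/-- A Teichmüller system for the finite field `k` in the valuation ring `P`. -/
structure IsTeich (P : ValuationSubring Qb) {k : Type} [Field k] (τ : k → Qb) : Prop where
  map_zero : τ 0 = 0
  map_one : τ 1 = 1
  map_mul : ∀ a b, τ (a * b) = τ a * τ b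
  mem : ∀ a, τ a ∈ P
  pow_card : ∀ a, a ≠ 0 → τ a ^ (Nat.card k - 1) = 1
  add : ∀ a b, τ (a + b) - (τ a + τ b) ∈ P.nonunits
  eq_zero : ∀ a, τ a ∈ P.nonunits → a = 0

/-- `p` does not divide `|k| - 1` for a finite field `k` of characteristic `p`. -/
theorem not_dvd_card_sub_one (k : Type) [Field k] [Finite k] {p : ℕ} (hp : p.Prime)
    (hk : (p : k) = 0) : 0 < Nat.card k - 1 ∧ ¬ p ∣ Nat.card k - 1 := by
  haveI : CharP k p := (CharP.charP_iff_prime_eq_zero hp).2 hk
  haveI : Fact p.Prime := ⟨hp⟩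
  cases nonempty_fintype k
  obtain ⟨n, -, hn⟩ := FiniteField.card k p
  rw [Nat.card_eq_fintype_card, hn]
  have hn0 : (n : ℕ) ≠ 0 := n.pos.ne'
  have h2 : 2 ≤ p ^ (n : ℕ) := by
    calc 2 ≤ p := hp.two_le
      _ = p ^ 1 := (pow_one p).symm
      _ ≤ p ^ (n : ℕ) := Nat.pow_le_pow_right hp.pos n.pos
  refine ⟨by omega, fun hdvd => ?_⟩
  have h3 : p ∣ p ^ (n : ℕ) := dvd_pow_self p hn0
  have h4 : p ∣ p ^ (n : ℕ) - (p ^ (n : ℕ) - 1) := Nat.dvd_sub h3 hdvd
  have h5 : p ^ (n : ℕ) - (p ^ (n : ℕ) - 1) = 1 := by omega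
  rw [h5] at h4
  exact hp.one_lt.ne' (Nat.dvd_one.1 h4)

/-- Teichmüller systems exist. -/
theorem exists_isTeich (k : Type) [Field k] [Finite k] {p : ℕ} (hp : p.Prime)
    (hk : (p : k) = 0) (P : ValuationSubring Qb) (hP : P.LiesOverPrime p) :
    ∃ τ : k → Qb, IsTeich P τ := by
  classical
  haveI : CharP k p := (CharP.charP_iff_prime_eq_zero hp).2 hk
  haveI : Fact p.Prime := ⟨hp⟩
  cases nonempty_fintype k
  haveI : CharP (IsLocalRing.ResidueField P) p := Fermat.Agent.Lib.TeichLift.charP_res P hp hP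
  haveI : IsAlgClosed (IsLocalRing.ResidueField P) := isAlgClosed_residueField_Qb P
  letI : Algebra (ZMod p) k := ZMod.algebra k p
  letI : Algebra (ZMod p) (IsLocalRing.ResidueField P) := ZMod.algebra _ p
  haveI : Algebra.IsAlgebraic (ZMod p) k := Algebra.IsAlgebraic.of_finite _ _
  let ι : k →ₐ[ZMod p] IsLocalRing.ResidueField P := IsAlgClosed.lift
  have hιinj : Function.Injective ι := ι.toRingHom.injective
  obtain ⟨hq0, hpq⟩ := not_dvd_card_sub_one k hp hk
  have hq : ∀ a : k, a ≠ 0 → a ^ (Nat.card k - 1) = 1 := fun a ha => by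
    rw [Nat.card_eq_fintype_card]
    exact FiniteField.pow_card_sub_one_eq_one a ha
  have hex : ∀ a : k, ∃ x : P, IsLocalRing.residue P x = ι a ∧ (a = 0 → x = 0) ∧
      (a ≠ 0 → x ^ (Nat.card k - 1) = 1) := by
    intro a
    by_cases ha : a = 0
    · exact ⟨0, by rw [ha, map_zero, map_zero], fun _ => rfl, fun h => absurd ha h⟩
    · have hιa : ι a ≠ 0 := fun h => ha (hιinj (by rw [h, map_zero]))
      obtain ⟨n, ζ, hn, hpn, hζ, hres⟩ :=
        Fermat.Agent.Lib.TeichLift.exists_rootOfUnity_lift_Qbar P hp hP (ι a) hιa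
      refine ⟨ζ, hres, fun h => absurd h ha, fun _ => ?_⟩
      have h1 : (ζ ^ (Nat.card k - 1)) ^ n = 1 := by
        rw [← pow_mul, mul_comm, pow_mul, hζ, one_pow]
      exact Fermat.Agent.Lib.TeichLift.eq_of_residue_eq P hp hP hpn h1 (one_pow n)
        (by rw [map_pow, hres, ← map_pow, hq a ha, map_one, map_one])
  choose x hxres hx0 hxq using hex
  have hxeq : ∀ y z : P, y ^ (Nat.card k - 1) = 1 → z ^ (Nat.card k - 1) = 1 →
      IsLocalRing.residue P y = IsLocalRing.residue P z → y = z := fun y z hy hz h =>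
    Fermat.Agent.Lib.TeichLift.eq_of_residue_eq P hp hP hpq hy hz h
  have hmul : ∀ a b, x (a * b) = x a * x b := by
    intro a b
    by_cases ha : a = 0
    · rw [ha, zero_mul, hx0 0 rfl, zero_mul]
    by_cases hb : b = 0
    · rw [hb, mul_zero, hx0 0 rfl, mul_zero]
    refine hxeq _ _ (hxq _ (mul_ne_zero ha hb)) ?_ ?_
    · rw [mul_pow, hxq a ha, hxq b hb, one_mul]
    · rw [map_mul, hxres, hxres, hxres, map_mul]
  have hone : x 1 = 1 := by
    refine hxeq _ _ (hxq 1 one_ne_zero) (one_pow _) ?_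
    rw [hxres, map_one, map_one]
  refine ⟨fun a => (x a : Qb), ?_, ?_, ?_, ?_, ?_, ?_, ?_⟩
  · show ((x 0 : P) : Qb) = 0
    rw [hx0 0 rfl]; rfl
  · show ((x 1 : P) : Qb) = 1
    rw [hone]; rfl
  · intro a b
    show ((x (a * b) : P) : Qb) = (x a : Qb) * (x b : Qb)
    rw [hmul]; rfl
  · intro a
    exact (x a).2
  · intro a ha
    have := congrArg (Subtype.val) (hxq a ha)
    exact this
  · intro a b
    have h1 : IsLocalRing.residue P (x (a + b) - (x a + x b)) = 0 := by
      rw [map_sub, map_add, hxres, hxres, hxres, map_add, sub_self]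
    have h2 : x (a + b) - (x a + x b) ∈ IsLocalRing.maximalIdeal P :=
      (IsLocalRing.residue_eq_zero_iff _).1 h1
    exact ValuationSubring.coe_mem_nonunits_iff.2 h2
  · intro a ha
    have h2 : x a ∈ IsLocalRing.maximalIdeal P := ValuationSubring.coe_mem_nonunits_iff.1 ha
    have h1 : IsLocalRing.residue P (x a) = 0 := (IsLocalRing.residue_eq_zero_iff _).2 h2
    rw [hxres] at h1
    exact hιinj (by rw [h1, map_zero])

section Calc

variable {P : ValuationSubring Qb} {k : Type} [Field k] {τ : k → Qb}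

theorem IsTeich.ne_zero (hτ : IsTeich P τ) {a : k} (ha : a ≠ 0) : τ a ≠ 0 := fun h =>
  ha (hτ.eq_zero a (by rw [h]; exact nonunits_zero_mem P))

theorem IsTeich.notMem_nonunits (hτ : IsTeich P τ) {a : k} (ha : a ≠ 0) : τ a ∉ P.nonunits :=
  fun h => ha (hτ.eq_zero a h)

theorem IsTeich.map_inv (hτ : IsTeich P τ) (a : k) : τ a⁻¹ = (τ a)⁻¹ := by
  by_cases ha : a = 0
  · rw [ha, inv_zero, hτ.map_zero, inv_zero]
  · refine eq_inv_of_mul_eq_one_left ?_
    rw [← hτ.map_mul, inv_mul_cancel₀ ha, hτ.map_one]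

theorem IsTeich.map_pow (hτ : IsTeich P τ) (a : k) (n : ℕ) : τ (a ^ n) = τ a ^ n := by
  induction n with
  | zero => rw [pow_zero, pow_zero, hτ.map_one]
  | succ n ih => rw [pow_succ, pow_succ, hτ.map_mul, ih]

/-- `τ` is additive modulo the maximal ideal, for finite sums. -/
theorem IsTeich.sum (hτ : IsTeich P τ) {α : Type*} (s : Finset α) (x : α → k) :
    τ (∑ i ∈ s, x i) - ∑ i ∈ s, τ (x i) ∈ P.nonunits := by
  classical
  induction s using Finset.induction_on with
  | empty =>
    rw [Finset.sum_empty, Finset.sum_empty, hτ.map_zero, sub_zero]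
    exact nonunits_zero_mem P
  | insert a s ha ih =>
    rw [Finset.sum_insert ha, Finset.sum_insert ha]
    have h1 := hτ.add (x a) (∑ i ∈ s, x i)
    have h2 := nonunits_add_mem h1 ih
    have e : τ (x a + ∑ i ∈ s, x i) - (τ (x a) + ∑ i ∈ s, τ (x i)) =
        τ (x a + ∑ i ∈ s, x i) - (τ (x a) + τ (∑ i ∈ s, x i)) +
          (τ (∑ i ∈ s, x i) - ∑ i ∈ s, τ (x i)) := by ring
    rw [e]
    exact h2

/-- `τ (n) ≡ n` modulo the maximal ideal. -/
theorem IsTeich.natCast (hτ : IsTeich P τ) (n : ℕ) : τ (n : k) - (n : Qb) ∈ P.nonunits := by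
  induction n with
  | zero =>
    rw [Nat.cast_zero, Nat.cast_zero, hτ.map_zero, sub_zero]
    exact nonunits_zero_mem P
  | succ n ih =>
    have h1 := hτ.add (n : k) 1
    have h2 := nonunits_add_mem h1 ih
    have e : τ ((n + 1 : ℕ) : k) - ((n + 1 : ℕ) : Qb) =
        τ ((n : k) + 1) - (τ (n : k) + τ 1) + (τ (n : k) - (n : Qb)) := by
      rw [hτ.map_one]; push_cast; ring
    rw [e]
    exact h2

/-- `τ` is injective modulo the maximal ideal. -/
theorem IsTeich.eq_of_sub_mem (hτ : IsTeich P τ) {a b : k} (h : τ a - τ b ∈ P.nonunits) :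
    a = b := by
  have h1 := hτ.add (a - b) b
  rw [sub_add_cancel] at h1
  have h2 : τ (a - b) ∈ P.nonunits := by
    have e : τ (a - b) = (τ a - τ b) - (τ a - (τ (a - b) + τ b)) := by ring
    rw [e]
    exact nonunits_sub_mem h h1
  exact sub_eq_zero.1 (hτ.eq_zero _ h2)

/-- If `τ a ≡ n` modulo the maximal ideal, then `a = n` in `k`. -/
theorem IsTeich.eq_natCast_of_sub_mem (hτ : IsTeich P τ) {a : k} {n : ℕ}
    (h : τ a - (n : Qb) ∈ P.nonunits) : a = (n : k) := by
  refine hτ.eq_of_sub_mem ?_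
  have e : τ a - τ (n : k) = (τ a - (n : Qb)) - (τ (n : k) - (n : Qb)) := by ring
  rw [e]
  exact nonunits_sub_mem h (hτ.natCast n)

end Calc

end Fermat.Agent.Lib.FinFlat
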