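/-
Lib/FinFlat: Raynaud's bound for a line, "(RAY)".

`P` a valuation subring of `ℚ̄` over the odd prime `p`, `D`, `I` its decomposition and inertia
groups, `k` a finite field of characteristic `p`, `B` a `P`-order on the additive group of `k` on
which `D` acts through a character `χ : D → k^×` (`act σ t = χ σ * t`).  Then `χ` is trivial on
inertia, or equal to the cyclotomic character on inertia (`raynaud_line`).

Proof.  Let `τ` be a Teichmüller system for `k`, `b_i` an equivariant basis of `B`, and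
`ξ_i = ∑_x τ(x)⁻¹ b_i(x)`; inertia acts on `ξ_i` through `τ ∘ χ`.  The additive characters of `k`
lie in `B`, and a Gauss sum computation (`ψ(x) = ζ^{t(x)} ≡ 1 + t(x)(ζ - 1)` modulo `(ζ - 1)^2`)
shows that `(ζ - 1)·unit` is a `P`-combination of the `ξ_i`: some `ξ = ξ_i` has
`v(ξ) ≥ v(ζ - 1)`.  Conjugating by a Frobenius element (`χ` is a character of `D`, with
commutative values) gives `χ(σ)^p = χ(σ)` on inertia, so `ξ^(p-1)` is fixed by inertia and
`v(ξ)^(p-1) ∈ v(p)^ℤ` ([UNR]); hence `ξ` is a unit (`χ = 1` on inertia) or `ξ/(ζ - 1)` is a unit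
(`χ` is cyclotomic on inertia).
-/
import Fermat.Agent.Lib.FinFlat.Teich
import Fermat.Agent.Lib.FinFlat.Mult
import Fermat.Agent.TW.Flat.Local.Basic

set_option autoImplicit false
set_option linter.unusedSectionVars false
set_option linter.style.haveILetI false

namespace Fermat.Agent.Lib.FinFlat

open Fermat.Agent.PT.Levels
open scoped Pointwise

local notation "Qb" => AlgebraicClosure ℚ
local notation "GQ" => (AlgebraicClosure ℚ ≃ₐ[ℚ] AlgebraicClosure ℚ)

/-! ### General facts on orders -/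

section General

variable {P : ValuationSubring Qb} {Γ : Subgroup GQ} {V : Type} [AddCommGroup V]
  {act : GQ → V → V} {B : Subalgebra P (V → Qb)}

/-- A basis of the space of functions separates the points. -/
theorem eq_of_basis_apply_eq {ι : Type} [Fintype ι] (b : Module.Basis ι Qb (V → Qb)) {v w : V}
    (h : ∀ i, b i v = b i w) : v = w := by
  classical
  have h1 : ∀ f : V → Qb, f v = f w := by
    intro f
    rw [← b.sum_repr f]
    simp only [Finset.sum_apply, Pi.smul_apply, smul_eq_mul, h]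
  have h2 := h1 (fun x => if x = v then 1 else 0)
  by_contra hne
  rw [if_pos rfl, if_neg (fun h' => hne h'.symm)] at h2
  exact one_ne_zero h2

/-- The underlying group of an order is finite. -/
theorem IsPOrder.finite (hB : IsPOrder P Γ act B) : Finite V := by
  classical
  obtain ⟨ι, _, b, -, -⟩ := hB.exists_basis
  haveI : Module.Finite Qb (V → Qb) := Module.Finite.of_basis b
  exact (Pi.linearIndependent_single_one V Qb).finite_of_isNoetherian

/-- The action underlying an order is a group action: the identity. -/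
theorem IsPOrder.act_one_apply (hB : IsPOrder P Γ act B) (v : V) : act 1 v = v := by
  obtain ⟨ι, _, b, hb, -⟩ := hB.exists_basis
  refine eq_of_basis_apply_eq b fun i => ?_
  rw [hb i 1 Γ.one_mem v]
  rfl

/-- The action underlying an order is a group action: products. -/
theorem IsPOrder.act_mul_apply (hB : IsPOrder P Γ act B) {σ ρ : GQ} (hσ : σ ∈ Γ) (hρ : ρ ∈ Γ)
    (v : V) : act (σ * ρ) v = act σ (act ρ v) := by
  obtain ⟨ι, _, b, hb, -⟩ := hB.exists_basis
  refine eq_of_basis_apply_eq b fun i => ?_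
  rw [hb i _ (Γ.mul_mem hσ hρ) v, hb i σ hσ, hb i ρ hρ]
  rfl

/-- `ζ ^ n = 1 + n (ζ - 1) + (ζ - 1)² r` with `r` integral. -/
theorem pow_eq_one_add_mul (P : ValuationSubring Qb) {ζ : Qb} (hζ : ζ ∈ P) (n : ℕ) :
    ∃ r ∈ P, ζ ^ n = 1 + (n : Qb) * (ζ - 1) + (ζ - 1) ^ 2 * r := by
  induction n with
  | zero => exact ⟨0, P.zero_mem, by simp⟩
  | succ n ih =>
    obtain ⟨r, hr, h⟩ := ih
    refine ⟨(n : Qb) + r + (ζ - 1) * r, ?_, ?_⟩
    · exact P.add_mem _ _ (P.add_mem _ _ (natCast_mem P n) hr)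
        (P.mul_mem _ _ (P.sub_mem hζ P.one_mem) hr)
    · rw [pow_succ, h]
      push_cast
      ring

/-- If inertia multiplies a unit `x` by `u`, then `u ≡ 1` modulo the maximal ideal. -/
theorem sub_one_mem_nonunits_of_inertia_apply {x u : Qb} (hx : x ∈ P) (hx' : x ∉ P.nonunits)
    {σ : GQ} (hσ : σ ∈ P.inertiaSubgroupIn ℚ) (h : σ x = u * x) : u - 1 ∈ P.nonunits := by
  have h1 : σ x - x ∈ P.nonunits := ((mem_inertiaSubgroupIn_iff P σ).1 hσ).2 x hx
  have hx0 : x ≠ 0 := fun h0 => hx' (by rw [h0]; exact nonunits_zero_mem P)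
  have e : u - 1 = (σ x - x) * x⁻¹ := by
    rw [h]
    field_simp
  rw [e]
  exact nonunits_mul_mem_right h1 (inv_mem_of_notMem_nonunits hx hx')

end General

/-! ### A linear form on the additive maps `k → 𝔽_p` -/

/-- There is an additive map `t : k → 𝔽_p` with `∑_x x⁻¹ t(x) ≠ 0`. -/
theorem exists_addMonoidHom_sum_ne_zero (k : Type) [Field k] [Fintype k] (p : ℕ) [Fact p.Prime]
    [CharP k p] : ∃ t : k →+ ZMod p, ∑ x : k, x⁻¹ * (((t x).val : ℕ) : k) ≠ 0 := by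
  classical
  letI : Algebra (ZMod p) k := ZMod.algebra k p
  let bs := Module.Free.chooseBasis (ZMod p) k
  by_contra hcon
  push Not at hcon
  have hsmul : ∀ (a : ZMod p) (y : k), (((a.val : ℕ) : k)) * y = a • y := by
    intro a y
    rw [Algebra.smul_def, ZMod.natCast_val]
    rfl
  have key : ∑ j, (∑ x : k, x⁻¹ * (((bs.coord j x).val : ℕ) : k)) * bs j = -1 := by
    calc ∑ j, (∑ x : k, x⁻¹ * (((bs.coord j x).val : ℕ) : k)) * bs j
        = ∑ x : k, x⁻¹ * ∑ j, (bs.repr x j) • bs j := by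
          simp_rw [Finset.sum_mul, Finset.mul_sum]
          rw [Finset.sum_comm]
          refine Finset.sum_congr rfl fun x _ => Finset.sum_congr rfl fun j _ => ?_
          rw [mul_assoc, hsmul]
          rfl
      _ = ∑ x : k, x⁻¹ * x := by simp_rw [bs.sum_repr]
      _ = ∑ x : k, (1 - if x = 0 then (1 : k) else 0) := by
          refine Finset.sum_congr rfl fun x _ => ?_
          by_cases hx : x = 0
          · simp [hx]
          · rw [inv_mul_cancel₀ hx, if_neg hx, sub_zero]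
      _ = -1 := by
          rw [Finset.sum_sub_distrib, Finset.sum_const, Finset.card_univ, nsmul_eq_mul, mul_one,
            FiniteField.cast_card_eq_zero, Finset.sum_ite_eq' Finset.univ (0 : k) (fun _ => (1 : k))]
          simp
  have h0 : ∑ j, (∑ x : k, x⁻¹ * (((bs.coord j x).val : ℕ) : k)) * bs j = 0 :=
    Finset.sum_eq_zero fun j _ => by
      have h := hcon ((bs.coord j).toAddMonoidHom)
      simp only [LinearMap.toAddMonoidHom_coe] at h
      rw [h, zero_mul]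
  rw [h0] at key
  exact one_ne_zero (neg_eq_zero.1 key.symm)

/-! ### Teichmüller sums -/

section Line

variable {P : ValuationSubring Qb} {k : Type} [Field k] {τ : k → Qb}

/-- Inertia fixes the values of a Teichmüller system. -/
theorem IsTeich.inertia_fixed [Finite k] {p : ℕ} (hp : p.Prime) (hk : (p : k) = 0)
    (hP : P.LiesOverPrime p) (hτ : IsTeich P τ) {σ : GQ} (hσ : σ ∈ P.inertiaSubgroupIn ℚ)
    (a : k) : σ (τ a) = τ a := by
  by_cases ha : a = 0
  · rw [ha, hτ.map_zero, _root_.map_zero]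
  · obtain ⟨-, hpq⟩ := not_dvd_card_sub_one k hp hk
    exact Fermat.Agent.PT.G.inertia_apply_root hp P hP hσ hpq (hτ.pow_card a ha)

/-- The Teichmüller sum `∑_x τ(x)⁻¹ f(x)` of a function with `f(c x) = σ(f(x))` is multiplied by
`τ(c)` under `σ`. -/
theorem IsTeich.sum_twist [Fintype k] (hτ : IsTeich P τ) {f : k → Qb} {σ : GQ}
    (hfix : ∀ a, σ (τ a) = τ a) {c : k} (hc : c ≠ 0) (hf : ∀ t, f (c * t) = σ (f t)) :
    σ (∑ x : k, τ x⁻¹ * f x) = τ c * ∑ x : k, τ x⁻¹ * f x := by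
  rw [_root_.map_sum, Finset.mul_sum]
  refine Fintype.sum_equiv (Equiv.mulLeft₀ c hc) _ _ fun x => ?_
  have e : c * (c * x)⁻¹ = x⁻¹ := by
    rw [mul_inv, ← mul_assoc, mul_inv_cancel₀ hc, one_mul]
  rw [_root_.map_mul, hfix, ← hf, Equiv.mulLeft₀_apply, ← mul_assoc, ← hτ.map_mul, e]

/-- The Gauss sum: `(ζ - 1)·unit` is an integral combination of the Teichmüller sums of a basis of
the order. -/
theorem IsPOrder.exists_gauss [Fintype k] {p : ℕ} (hp : p.Prime) (hk : (p : k) = 0)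
    (hP : P.LiesOverPrime p)
    {Γ : Subgroup GQ} {act : GQ → k → k} {B : Subalgebra P (k → Qb)} (hB : IsPOrder P Γ act B)
    (hτ : IsTeich P τ) {ζ : Qb} (hζ : ζ ^ p = 1) {ι : Type} [Fintype ι]
    (b : Module.Basis ι Qb (k → Qb)) (hmem : ∀ f, f ∈ B ↔ ∀ i, b.repr f i ∈ P) :
    ∃ (d : ι → Qb) (u : Qb), (∀ i, d i ∈ P) ∧ u ∈ P ∧ u ∉ P.nonunits ∧
      (ζ - 1) * u = ∑ i, d i * ∑ x : k, τ x⁻¹ * b i x := by
  classical
  haveI : Fact p.Prime := ⟨hp⟩
  haveI : NeZero p := ⟨hp.ne_zero⟩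
  haveI : CharP k p := (CharP.charP_iff_prime_eq_zero hp).2 hk
  obtain ⟨t, ht⟩ := exists_addMonoidHom_sum_ne_zero k p
  have hζP : ζ ∈ P := Fermat.Agent.Lib.TeichLift.mem_of_pow_eq_one P hp.pos hζ
  let ψ : AddChar k Qb := (AddChar.zmodChar p hζ).compAddMonoidHom t
  have hψ : ∀ x, ψ x = ζ ^ (t x).val := fun x => AddChar.zmodChar_apply hζ (t x)
  have hψB : (ψ : k → Qb) ∈ B := hB.addChar_mem' ψ
  have h1B : (1 : k → Qb) ∈ B := B.one_mem
  choose r hr hrn using fun n : ℕ => pow_eq_one_add_mul P hζP n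
  set S : Qb := ∑ x : k, τ x⁻¹ * (((t x).val : ℕ) : Qb) with hS
  set R : Qb := ∑ x : k, τ x⁻¹ * r (t x).val with hR
  have hSP : S ∈ P := sum_mem fun x _ => P.mul_mem _ _ (hτ.mem _) (natCast_mem P _)
  have hRP : R ∈ P := sum_mem fun x _ => P.mul_mem _ _ (hτ.mem _) (hr _)
  have hπ : ζ - 1 ∈ P := P.sub_mem hζP P.one_mem
  have hπ' : ζ - 1 ∈ P.nonunits :=
    Fermat.Agent.TW.Flat.Loc.Basic.zeta_sub_one_mem_nonunits p P hP ζ hζ
  refine ⟨fun i => b.repr ψ i - b.repr 1 i, S + (ζ - 1) * R,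
    fun i => P.sub_mem ((hmem _).1 hψB i) ((hmem _).1 h1B i),
    P.add_mem _ _ hSP (P.mul_mem _ _ hπ hRP), ?_, ?_⟩
  · intro hmemu
    have hSm : S ∈ P.nonunits := by
      have e : S = (S + (ζ - 1) * R) - (ζ - 1) * R := by ring
      rw [e]
      exact nonunits_sub_mem hmemu (nonunits_mul_mem_right hπ' hRP)
    have h1 := hτ.sum Finset.univ (fun x : k => x⁻¹ * (((t x).val : ℕ) : k))
    have h2 : (∑ x : k, τ (x⁻¹ * (((t x).val : ℕ) : k))) - S ∈ P.nonunits := by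
      rw [hS, ← Finset.sum_sub_distrib]
      refine nonunits_sum_mem _ _ fun x _ => ?_
      rw [hτ.map_mul, ← mul_sub]
      exact nonunits_mul_mem_left (hτ.mem _) (hτ.natCast _)
    have h3 : τ (∑ x : k, x⁻¹ * (((t x).val : ℕ) : k)) ∈ P.nonunits := by
      have e : τ (∑ x : k, x⁻¹ * (((t x).val : ℕ) : k)) =
          (τ (∑ x : k, x⁻¹ * (((t x).val : ℕ) : k)) -
            ∑ x : k, τ (x⁻¹ * (((t x).val : ℕ) : k))) +
          ((∑ x : k, τ (x⁻¹ * (((t x).val : ℕ) : k))) - S) + S := by ring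
      rw [e]
      exact nonunits_add_mem (nonunits_add_mem h1 h2) hSm
    exact ht (hτ.eq_zero _ h3)
  · have hcoord : ∀ x, ψ x - 1 = ∑ i, (b.repr ψ i - b.repr 1 i) * b i x := by
      intro x
      have e1 := congrFun (b.sum_repr (ψ : k → Qb)) x
      have e2 := congrFun (b.sum_repr (1 : k → Qb)) x
      simp only [Finset.sum_apply, Pi.smul_apply, smul_eq_mul, Pi.one_apply] at e1 e2
      simp only [sub_mul, Finset.sum_sub_distrib]
      rw [e1, e2]
    calc (ζ - 1) * (S + (ζ - 1) * R) = ∑ x : k, τ x⁻¹ * (ψ x - 1) := by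
          rw [hS, hR, mul_add, Finset.mul_sum, Finset.mul_sum, Finset.mul_sum,
            ← Finset.sum_add_distrib]
          refine Finset.sum_congr rfl fun x _ => ?_
          rw [hψ, hrn]
          ring
      _ = ∑ x : k, τ x⁻¹ * ∑ i, (b.repr ψ i - b.repr 1 i) * b i x := by simp_rw [hcoord]
      _ = ∑ i, (b.repr ψ i - b.repr 1 i) * ∑ x : k, τ x⁻¹ * b i x := by
          simp_rw [Finset.mul_sum]
          rw [Finset.sum_comm]
          exact Finset.sum_congr rfl fun i _ => Finset.sum_congr rfl fun x _ => by ring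

end Line

/-! ### Raynaud's bound -/

/-- The character argument: an element `ξ` with `v(ζ - 1) ≤ v(ξ) ≤ 1` on which inertia acts
through `τ ∘ χ`, for a character `χ` of the decomposition group with values in `k^×`, forces `χ`
to be trivial or cyclotomic on inertia. -/
theorem raynaud_of_eigen {k : Type} [Field k] [Finite k] {p : ℕ} (hp : p.Prime)
    (hk : (p : k) = 0) {P : ValuationSubring Qb} (hP : P.LiesOverPrime p) {τ : k → Qb}
    (hτ : IsTeich P τ) (χ : GQ → k) (hχ1 : χ 1 = 1)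
    (hχmul : ∀ σ ∈ P.decompositionSubgroup ℚ, ∀ ρ ∈ P.decompositionSubgroup ℚ,
      χ (σ * ρ) = χ σ * χ ρ)
    {ζ : Qb} (hζ : ζ ^ p = 1) (hζ1 : ζ ≠ 1) {ξ : Qb} (hξP : ξ ∈ P)
    (hξv : P.valuation (ζ - 1) ≤ P.valuation ξ)
    (hξσ : ∀ σ ∈ P.inertiaSubgroupIn ℚ, σ ξ = τ (χ σ) * ξ) :
    (∀ σ ∈ P.inertiaSubgroupIn ℚ, χ σ = 1) ∨
    (∀ σ ∈ P.inertiaSubgroupIn ℚ, ∀ a : ℕ, (∀ μ : Qb, μ ^ p = 1 → σ μ = μ ^ a) →
      χ σ = (a : k)) := by
  haveI : Fact p.Prime := ⟨hp⟩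
  have hID : P.inertiaSubgroupIn ℚ ≤ P.decompositionSubgroup ℚ := fun σ hσ =>
    ((mem_inertiaSubgroupIn_iff P σ).1 hσ).1
  have hχne : ∀ σ ∈ P.decompositionSubgroup ℚ, χ σ ≠ 0 := by
    intro σ hσ h0
    have h := hχmul σ hσ σ⁻¹ (inv_mem hσ)
    rw [mul_inv_cancel, hχ1, h0, zero_mul] at h
    exact one_ne_zero h
  obtain ⟨hq0, hpq⟩ := not_dvd_card_sub_one k hp hk
  have hπ0 : ζ - 1 ≠ 0 := sub_ne_zero.2 hζ1
  have hvπ0 : P.valuation (ζ - 1) ≠ 0 := (Valuation.ne_zero_iff _).2 hπ0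
  have hξ0 : ξ ≠ 0 := by
    rintro rfl
    rw [map_zero] at hξv
    exact hvπ0 (le_antisymm hξv zero_le)
  have hvξ0 : P.valuation ξ ≠ 0 := (Valuation.ne_zero_iff _).2 hξ0
  -- Frobenius
  obtain ⟨φ, -, hφD, -, hφroot, -⟩ := Fermat.Agent.TW.Flat.Loc.Basic.exists_frobenius p P hP
  have hfrob : ∀ σ ∈ P.inertiaSubgroupIn ℚ, χ σ ^ (p - 1) = 1 := by
    intro σ hσ
    have hσD := hID hσ
    have hσ' : φ⁻¹ * σ * φ ∈ P.inertiaSubgroupIn ℚ := by
      have h := conj_mem_inertiaSubgroupIn P φ⁻¹ σ hσ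
      rw [inv_inv] at h
      have hφA : φ⁻¹ • P = P := MulAction.mem_stabilizer_iff.1 (inv_mem hφD)
      rwa [hφA] at h
    have hχσ' : χ (φ⁻¹ * σ * φ) = χ σ := by
      rw [hχmul _ (mul_mem (inv_mem hφD) hσD) _ hφD, hχmul _ (inv_mem hφD) _ hσD]
      have h := hχmul φ⁻¹ (inv_mem hφD) φ hφD
      rw [inv_mul_cancel, hχ1] at h
      rw [mul_comm (χ φ⁻¹), mul_assoc, ← h, mul_one]
    have h1 : (φ⁻¹ * σ * φ) ξ = τ (χ σ) * ξ := by rw [hξσ _ hσ', hχσ']
    have h2 : σ (φ ξ) = τ (χ σ) ^ p * φ ξ := by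
      have h := congrArg φ h1
      rw [map_mul, hφroot _ _ hpq (hτ.pow_card _ (hχne σ hσD))] at h
      rw [← h]
      simp [AlgEquiv.mul_apply]
    have hw : P.valuation (φ ξ * ξ⁻¹) = 1 := by
      rw [map_mul, map_inv₀, Fermat.Agent.PT.G.valuation_apply_eq_of_mem_decomp hφD,
        mul_inv_cancel₀ hvξ0]
    have hwP : φ ξ * ξ⁻¹ ∈ P := (P.valuation_le_one_iff _).1 hw.le
    have hwP' : φ ξ * ξ⁻¹ ∉ P.nonunits := fun h => by
      have h' := P.mem_nonunits_iff.1 h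
      rw [hw] at h'
      exact lt_irrefl _ h'
    have hτne : τ (χ σ) ≠ 0 := hτ.ne_zero (hχne σ hσD)
    have h3 : σ (φ ξ * ξ⁻¹) = τ (χ σ) ^ (p - 1) * (φ ξ * ξ⁻¹) := by
      rw [map_mul, map_inv₀, h2, hξσ σ hσ]
      have hpp : τ (χ σ) ^ p = τ (χ σ) ^ (p - 1) * τ (χ σ) := by
        rw [← pow_succ, Nat.sub_add_cancel hp.pos]
      rw [hpp]
      field_simp
    have h4 := sub_one_mem_nonunits_of_inertia_apply hwP hwP' hσ h3
    refine hτ.eq_of_sub_mem ?_
    rw [hτ.map_pow, hτ.map_one]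
    exact h4
  have hfix : ∀ σ ∈ P.inertiaSubgroupIn ℚ, σ (ξ ^ (p - 1)) = ξ ^ (p - 1) := by
    intro σ hσ
    rw [map_pow, hξσ σ hσ, mul_pow, ← hτ.map_pow, hfrob σ hσ, hτ.map_one, one_mul]
  obtain ⟨n, hn⟩ := exists_zpow_valuation_eq_of_inertia_fixed hp P hP hfix (pow_ne_zero _ hξ0)
  have hvp : P.valuation (p : Qb) < 1 := P.mem_nonunits_iff.mp hP
  have hp0 : (p : Qb) ≠ 0 := Nat.cast_ne_zero.mpr hp.ne_zero
  have hvp0 : P.valuation (p : Qb) ≠ 0 := (Valuation.ne_zero_iff _).2 hp0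
  have hvπ : P.valuation (ζ - 1) ^ (p - 1) = P.valuation (p : Qb) :=
    Fermat.Agent.TW.Flat.Loc.Basic.valuation_zeta_sub_one_pow p P ζ hζ hζ1
  have hvξ : P.valuation ξ ^ (p - 1) = P.valuation (p : Qb) ^ n := by
    rw [← map_pow, hn, map_zpow₀]
  have hξle : P.valuation ξ ≤ 1 := (P.valuation_le_one_iff _).2 hξP
  have hle1 : P.valuation (p : Qb) ≤ P.valuation (p : Qb) ^ n := by
    rw [← hvξ, ← hvπ]
    exact pow_le_pow_left' hξv _
  have hle2 : P.valuation (p : Qb) ^ n ≤ 1 := by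
    rw [← hvξ]
    exact pow_le_one' hξle _
  have hp1 : 0 < p - 1 := Nat.sub_pos_of_lt hp.one_lt
  have hn01 : n = 0 ∨ n = 1 := by
    have h0 : 0 ≤ n := by
      by_contra hcon
      push Not at hcon
      obtain ⟨m, rfl⟩ : ∃ m : ℕ, n = -((m + 1 : ℕ) : ℤ) := ⟨(-n - 1).toNat, by omega⟩
      have h : 1 < P.valuation (p : Qb) ^ (-((m + 1 : ℕ) : ℤ)) := by
        rw [zpow_neg, zpow_natCast]
        exact (one_lt_inv₀ (zero_lt_iff.mpr (pow_ne_zero _ hvp0))).2
          (pow_lt_one₀ zero_le hvp (Nat.succ_ne_zero m))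
      exact absurd hle2 (not_le.2 h)
    have h1 : n ≤ 1 := by
      by_contra hcon
      push Not at hcon
      obtain ⟨m, rfl⟩ : ∃ m : ℕ, n = ((m + 1 : ℕ) : ℤ) + 1 := ⟨(n - 2).toNat, by omega⟩
      have h : P.valuation (p : Qb) ^ (((m + 1 : ℕ) : ℤ) + 1) < P.valuation (p : Qb) := by
        rw [zpow_add_one₀ hvp0, zpow_natCast]
        calc P.valuation (p : Qb) ^ (m + 1) * P.valuation (p : Qb)
            < 1 * P.valuation (p : Qb) :=
              mul_lt_mul_of_pos_right (pow_lt_one₀ zero_le hvp (Nat.succ_ne_zero m))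
                (zero_lt_iff.mpr hvp0)
          _ = P.valuation (p : Qb) := one_mul _
      exact absurd hle1 (not_le.2 h)
    omega
  rcases hn01 with rfl | rfl
  · left
    intro σ hσ
    rw [zpow_zero] at hvξ
    have hvξ1 : P.valuation ξ = 1 := by
      refine le_antisymm hξle (not_lt.1 fun h => ?_)
      have h' := pow_lt_one₀ zero_le h hp1.ne'
      rw [hvξ] at h'
      exact lt_irrefl _ h'
    have hξ' : ξ ∉ P.nonunits := fun h => by
      have h' := P.mem_nonunits_iff.1 h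
      rw [hvξ1] at h'
      exact lt_irrefl _ h'
    have h4 := sub_one_mem_nonunits_of_inertia_apply hξP hξ' hσ (hξσ σ hσ)
    refine hτ.eq_of_sub_mem ?_
    rw [hτ.map_one]
    exact h4
  · right
    intro σ hσ a ha
    rw [zpow_one] at hvξ
    have hveq : P.valuation ξ = P.valuation (ζ - 1) := by
      refine le_antisymm (not_lt.1 fun h => ?_) hξv
      have h' := pow_lt_pow_left₀ h zero_le hp1.ne'
      rw [hvξ, hvπ] at h'
      exact lt_irrefl _ h'
    have hw : P.valuation ((ζ - 1) * ξ⁻¹) = 1 := by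
      rw [map_mul, map_inv₀, hveq, mul_inv_cancel₀ hvπ0]
    have hwP : (ζ - 1) * ξ⁻¹ ∈ P := (P.valuation_le_one_iff _).1 hw.le
    have hwP' : (ζ - 1) * ξ⁻¹ ∉ P.nonunits := fun h => by
      have h' := P.mem_nonunits_iff.1 h
      rw [hw] at h'
      exact lt_irrefl _ h'
    have hσD := hID hσ
    have hτne : τ (χ σ) ≠ 0 := hτ.ne_zero (hχne σ hσD)
    have hF3 := Fermat.Agent.TW.Flat.Loc.Basic.inertia_zeta_sub_one_div p P hP ζ hζ hζ1 σ a
      (ha ζ hζ)
    have hσπ0 : σ (ζ - 1) ≠ 0 := fun h => hπ0 ((map_eq_zero_iff σ σ.injective).1 h)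
    have h3 : σ ((ζ - 1) * ξ⁻¹) =
        (σ (ζ - 1) / (ζ - 1) * (τ (χ σ))⁻¹) * ((ζ - 1) * ξ⁻¹) := by
      rw [map_mul, map_inv₀, hξσ σ hσ]
      field_simp
    have h4 := sub_one_mem_nonunits_of_inertia_apply hwP hwP' hσ h3
    have h5 : σ (ζ - 1) / (ζ - 1) - τ (χ σ) ∈ P.nonunits := by
      have e : σ (ζ - 1) / (ζ - 1) - τ (χ σ) =
          (σ (ζ - 1) / (ζ - 1) * (τ (χ σ))⁻¹ - 1) * τ (χ σ) := by
        field_simp
      rw [e]
      exact nonunits_mul_mem_right h4 (hτ.mem _)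
    refine hτ.eq_natCast_of_sub_mem ?_
    have e : τ (χ σ) - (a : Qb) =
        (σ (ζ - 1) / (ζ - 1) - (a : Qb)) - (σ (ζ - 1) / (ζ - 1) - τ (χ σ)) := by ring
    rw [e]
    exact nonunits_sub_mem hF3 h5

/-- **Raynaud's bound for a line.**  A `P`-order on the additive group of a field `k` of
characteristic `p` on which the decomposition group acts through a character `χ` with values in
`k^×`: then `χ` is trivial on inertia, or equal to the cyclotomic character on inertia. -/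
theorem raynaud_line {k : Type} [Field k] {p : ℕ} (hp : p.Prime)
    (hk : (p : k) = 0) {P : ValuationSubring Qb} (hP : P.LiesOverPrime p)
    {Γ : Subgroup GQ} {act : GQ → k → k} {B : Subalgebra P (k → Qb)} (hB : IsPOrder P Γ act B)
    (hD : P.decompositionSubgroup ℚ ≤ Γ) (χ : GQ → k)
    (hχ : ∀ σ ∈ P.decompositionSubgroup ℚ, ∀ t : k, act σ t = χ σ * t) :
    (∀ σ ∈ P.inertiaSubgroupIn ℚ, χ σ = 1) ∨
    (∀ σ ∈ P.inertiaSubgroupIn ℚ, ∀ a : ℕ, (∀ μ : Qb, μ ^ p = 1 → σ μ = μ ^ a) →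
      χ σ = (a : k)) := by
  classical
  haveI : Fact p.Prime := ⟨hp⟩
  haveI : Finite k := hB.finite
  cases nonempty_fintype k
  have hID : P.inertiaSubgroupIn ℚ ≤ P.decompositionSubgroup ℚ := fun σ hσ =>
    ((mem_inertiaSubgroupIn_iff P σ).1 hσ).1
  have hχ1 : χ 1 = 1 := by
    have h := hχ 1 (Subgroup.one_mem _) 1
    rw [hB.act_one_apply, mul_one] at h
    exact h.symm
  have hχmul : ∀ σ ∈ P.decompositionSubgroup ℚ, ∀ ρ ∈ P.decompositionSubgroup ℚ,
      χ (σ * ρ) = χ σ * χ ρ := by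
    intro σ hσ ρ hρ
    have h1 := hB.act_mul_apply (hD hσ) (hD hρ) 1
    rw [hχ _ (Subgroup.mul_mem _ hσ hρ), hχ ρ hρ, hχ σ hσ, mul_one, mul_one] at h1
    exact h1
  have hχne : ∀ σ ∈ P.decompositionSubgroup ℚ, χ σ ≠ 0 := by
    intro σ hσ h0
    have h := hχmul σ hσ σ⁻¹ (inv_mem hσ)
    rw [mul_inv_cancel, hχ1, h0, zero_mul] at h
    exact one_ne_zero h
  obtain ⟨τ, hτ⟩ := exists_isTeich k hp hk P hP
  obtain ⟨ι, _, b, hb, hmem⟩ := hB.exists_basis
  have hbP : ∀ i x, b i x ∈ P := fun i x => hB.integral _ (mem_of_basis b hmem i) x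
  have hξP : ∀ i, (∑ x : k, τ x⁻¹ * b i x) ∈ P := fun i =>
    sum_mem fun x _ => P.mul_mem _ _ (hτ.mem _) (hbP i x)
  have hξσ : ∀ i, ∀ σ ∈ P.inertiaSubgroupIn ℚ,
      σ (∑ x : k, τ x⁻¹ * b i x) = τ (χ σ) * ∑ x : k, τ x⁻¹ * b i x := by
    intro i σ hσ
    refine hτ.sum_twist (fun a => hτ.inertia_fixed hp hk hP hσ a) (hχne σ (hID hσ)) fun t => ?_
    rw [← hχ σ (hID hσ) t]
    exact hb i σ (hD (hID hσ)) t
  -- a primitive `p`-th root of unity
  obtain ⟨ζ, hζ, hζ1⟩ : ∃ ζ : Qb, ζ ^ p = 1 ∧ ζ ≠ 1 := by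
    haveI : NeZero (p : Qb) := ⟨Nat.cast_ne_zero.mpr hp.ne_zero⟩
    obtain ⟨ζ, hζ⟩ := HasEnoughRootsOfUnity.exists_primitiveRoot Qb p
    exact ⟨ζ, hζ.pow_eq_one, hζ.ne_one hp.one_lt⟩
  have hπ0 : ζ - 1 ≠ 0 := sub_ne_zero.2 hζ1
  have hvπ0 : P.valuation (ζ - 1) ≠ 0 := (Valuation.ne_zero_iff _).2 hπ0
  obtain ⟨d, u, hd, hu, hu', hsum⟩ := hB.exists_gauss hp hk hP hτ hζ b hmem
  have hvu : P.valuation u = 1 :=
    le_antisymm ((P.valuation_le_one_iff u).2 hu)
      (not_lt.1 fun h => hu' (P.mem_nonunits_iff.2 h))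
  -- a Teichmüller sum of valuation at least that of `ζ - 1`
  obtain ⟨i0, hi0⟩ : ∃ i0, P.valuation (ζ - 1) ≤ P.valuation (∑ x : k, τ x⁻¹ * b i0 x) := by
    by_contra hcon
    push Not at hcon
    have h1 : P.valuation ((ζ - 1) * u) < P.valuation (ζ - 1) := by
      rw [hsum]
      refine Valuation.map_sum_lt _ hvπ0 fun i _ => ?_
      rw [map_mul]
      calc P.valuation (d i) * P.valuation (∑ x : k, τ x⁻¹ * b i x)
          ≤ 1 * P.valuation (∑ x : k, τ x⁻¹ * b i x) :=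
            mul_le_mul' ((P.valuation_le_one_iff _).2 (hd i)) le_rfl
        _ = P.valuation (∑ x : k, τ x⁻¹ * b i x) := one_mul _
        _ < P.valuation (ζ - 1) := hcon i
    rw [map_mul, hvu, mul_one] at h1
    exact lt_irrefl _ h1
  exact raynaud_of_eigen hp hk hP hτ χ hχ1 hχmul hζ hζ1 (hξP i0) hi0 (hξσ i0)

end Fermat.Agent.Lib.FinFlat
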